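/-
RED-K (helper95): the r-free Kummer route.  Common definitions.

`F` is a field containing `L`; `t : F` is a "coordinate" (`L[X]` acts on `F` through
`Polynomial.aeval t`); `A` is a valuation subring of `L` and `O` a valuation subring of `F`
(the Gauss valuation ring).  Everything is stated with explicit `t`, without any
`Algebra L[X] F` instance, so that the same statements apply to the charts `t = x` and
`t = x⁻¹`.
-/
import Mathlib

set_option autoImplicit false

namespace Fermat.Agent.Lib.RedK

open Polynomial

noncomputable section

section Defs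

variable (L : Type*) {F : Type*} [Field L] [Field F] [Algebra L F]

/-- The elements of `F` integral over `L[t]`, as a subring of `F`. -/
def IntL (t : F) : Subring F :=
  (integralClosure (Algebra.adjoin L ({t} : Set F)) F).toSubring

/-- `L[t]`-linear independence of a finite family of elements of `F`. -/
def IsIndep (t : F) {n : ℕ} (β : Fin n → F) : Prop :=
  ∀ f : Fin n → L[X], ∑ i, aeval t (f i) * β i = 0 → f = 0

/-- The `L[t]`-span of a finite family. -/
def spanL (t : F) {n : ℕ} (β : Fin n → F) : Set F :=
  {y | ∃ f : Fin n → L[X], y = ∑ i, aeval t (f i) * β i}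

/-- The family generates `F` up to denominators in `L[t]`. -/
def IsGen (t : F) {n : ℕ} (β : Fin n → F) : Prop :=
  ∀ y : F, ∃ s : L[X], s ≠ 0 ∧ aeval t s * y ∈ spanL L t β

end Defs

section Val

variable {L F : Type*} [Field L] [Field F] [Algebra L F]

/-- A polynomial over `L` all of whose coefficients lie in `A`. -/
def IsInt (A : ValuationSubring L) (f : L[X]) : Prop := ∀ j, f.coeff j ∈ A

/-- A primitive polynomial: coefficients in `A`, one of them a unit of `A`. -/
def IsPrim (A : ValuationSubring L) (f : L[X]) : Prop :=
  IsInt A f ∧ ∃ j, A.valuation (f.coeff j) = 1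

/-- The `A[t]`-span of a finite family. -/
def spanA (A : ValuationSubring L) (t : F) {n : ℕ} (β : Fin n → F) : Set F :=
  {y | ∃ f : Fin n → L[X], (∀ i, IsInt A (f i)) ∧ y = ∑ i, aeval t (f i) * β i}

/-- The Gauss setting: `O` is a valuation ring of `F` inducing on `L(t)` the Gauss valuation
attached to `A` (value group of `O` = value group of `A`, `t` a unit with transcendental
residue). -/
structure GaussSetting (A : ValuationSubring L) (O : ValuationSubring F) (t : F) : Prop where
  const_mem : ∀ a : L, algebraMap L F a ∈ O ↔ a ∈ A
  scaling : ∀ y : F, y ≠ 0 → ∃ a : L, a ≠ 0 ∧ O.valuation (algebraMap L F a * y) = 1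
  prim : ∀ f : L[X], IsPrim A f → O.valuation (aeval t f) = 1

/-- Orthonormal family: an `L[t]`-combination lies in `O` only if all coefficients are
`A`-integral polynomials. -/
structure IsON (A : ValuationSubring L) (O : ValuationSubring F) (t : F) {n : ℕ}
    (β : Fin n → F) : Prop where
  mem : ∀ i, β i ∈ O
  coeff : ∀ f : Fin n → L[X], (∑ i, aeval t (f i) * β i) ∈ O → ∀ i, IsInt A (f i)

/-- The data of a chart: Gauss setting, one orthonormal family generating `F` up to
denominators, algebraicity of `F` over `L(t)` and finiteness of the integral closure. -/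
structure Chart (A : ValuationSubring L) (O : ValuationSubring F) (t : F) {n : ℕ}
    (b₀ : Fin n → F) : Prop where
  gauss : GaussSetting A O t
  on : IsON A O t b₀
  gen : IsGen L t b₀
  alg : ∀ y : F, ∃ s : L[X], s ≠ 0 ∧ aeval t s * y ∈ IntL L t
  fin : ∃ s : L[X], s ≠ 0 ∧ ∀ y ∈ IntL L t, aeval t s * y ∈ spanL L t b₀

end Val

end

end Fermat.Agent.Lib.RedK
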