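import Mathlib
import Fermat.Agent.Lib.FF.Setting
import Fermat.Agent.Lib.FF.RRApprox
import Fermat.Agent.Lib.FF.Holo
import Fermat.Agent.Lib.RedK.Defs

/-!
# RED-K: the function-field input of the local index lemma

For a function field `F/K` in the setting `IsFF1 K F x` (characteristic-free), a constant `c`
and a function `h ≠ 0` all of whose orders are divisible by `p`:

there are `g ≠ 0` and polynomials `s₃, s₄` with `s₃(c) ≠ 0`, `s₄(c) ≠ 0` such that
`s₃(x) * (h * g ^ p)` and `s₄(x) * (h * g ^ p)⁻¹` are integral over `K[x]`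

(i.e. `h * g ^ p` is a unit of the semilocal integral closure at `x = c`).  These are exactly the
hypotheses `(g, s₃, s₄, hu, hu')` of `Fermat.Agent.Lib.RedK.local_index`.

* `exists_poly_mul_integral` : the dictionary "no zero or pole over `x = c`" ⇒ denominators
  prime to `X - c`;
* `exists_local_index_data` : with weak approximation.

Everything is generic in the base function `x`; for the chart at infinity apply it to
`hFF.inv : IsFF1 K F x⁻¹`.
-/

set_option autoImplicit false

namespace Fermat.Agent.Lib.RedK.FFInput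

open AlgebraicCurve Polynomial Fermat.Agent.Lib.FF Fermat.Agent.Lib.RedK

variable {K F : Type*} [Field K] [Field F] [Algebra K F] {x : F}

/-- A nonzero function has only finitely many zeros and poles. -/
theorem finite_ord_ne_zero (hFF : IsFF1 K F x) {y : F} (hy : y ≠ 0) :
    {v : Place K F | v.ord y ≠ 0}.Finite := by
  classical
  have := hFF.hasPrincipalDivisors
  obtain ⟨D, hD, -⟩ := HasPrincipalDivisors.exists_divisor (K := K) y hy
  refine D.support.finite_toSet.subset (fun v hv => ?_)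
  rw [Finset.mem_coe, Finsupp.mem_support_iff, hD v]
  exact hv

theorem sub_algebraMap_ne_zero (hFF : IsFF1 K F x) (c : K) : x - algebraMap K F c ≠ 0 := by
  intro h0
  exact hFF.transcendental (sub_eq_zero.mp h0 ▸ isAlgebraic_algebraMap c)

theorem aeval_ne_zero (hFF : IsFF1 K F x) {q : K[X]} (hq : q ≠ 0) : aeval x q ≠ 0 := by
  intro h0
  exact hq ((transcendental_iff.mp hFF.transcendental) q h0)

/-- Every place at which `x` is regular is a zero of `x - c` for some constant `c`. -/
theorem exists_value (hFF : IsFF1 K F x) (v : Place K F) (hv : 0 ≤ v.ord x) :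
    ∃ c : K, 0 < v.ord (x - algebraMap K F c) := by
  have hmem : x ∈ v.toValuationSubring := Fermat.Agent.S24.mem_of_ord_nonneg v hv
  obtain ⟨c, hc⟩ := hFF.resK v ⟨x, hmem⟩
  refine ⟨c, ?_⟩
  have hne : x - algebraMap K F c ≠ 0 := sub_algebraMap_ne_zero hFF c
  rw [Fermat.Agent.S24.ord_pos_iff]
  intro hinv
  have hunit : IsUnit ((⟨x, hmem⟩ : v.toValuationSubring) -
      algebraMap K v.toValuationSubring c) := by
    refine IsUnit.of_mul_eq_one (⟨(x - algebraMap K F c)⁻¹, hinv⟩ : v.toValuationSubring) ?_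
    apply Subtype.ext
    show (x - algebraMap K F c) * (x - algebraMap K F c)⁻¹ = 1
    exact mul_inv_cancel₀ hne
  exact hc hunit

/-- A polynomial in `x` is regular wherever `x` is. -/
theorem ord_aeval_nonneg (v : Place K F) (hv : 0 ≤ v.ord x) (q : K[X]) :
    0 ≤ v.ord (aeval x q) := by
  have hmem : x ∈ v.toValuationSubring := Fermat.Agent.S24.mem_of_ord_nonneg v hv
  have h1 : aeval x q ∈ v.toValuationSubring := by
    rw [aeval_eq_sum_range]
    refine Subring.sum_mem _ (fun i _ => ?_)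
    rw [Algebra.smul_def]
    exact Subring.mul_mem _ (v.algebraMap_mem' _) (Subring.pow_mem _ hmem i)
  exact Fermat.Agent.S24.ord_nonneg_of_mem v h1

/-- **The dictionary.**  If `u` has neither a zero nor a pole over `x = c`, then `s(x) * u` and
`s(x) * u⁻¹` are integral over `K[x]` for a polynomial `s` with `s(c) ≠ 0`. -/
theorem exists_poly_mul_integral (hFF : IsFF1 K F x) (c : K) (u : F) (hu0 : u ≠ 0)
    (hu : ∀ P : Place K F, 0 < P.ord (x - algebraMap K F c) → P.ord u = 0) :
    ∃ s : K[X], s.eval c ≠ 0 ∧ aeval x s * u ∈ IntL K x ∧ aeval x s * u⁻¹ ∈ IntL K x := by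
  classical
  -- the finite places at which `u` has a zero or a pole
  set T : Finset (Place K F) :=
    (finite_ord_ne_zero hFF hu0).toFinset.filter (fun v => 0 ≤ v.ord x) with hT
  have hTmem : ∀ v : Place K F, v ∈ T ↔ v.ord u ≠ 0 ∧ 0 ≤ v.ord x := by
    intro v
    rw [hT, Finset.mem_filter, Set.Finite.mem_toFinset]
    rfl
  -- the value of `x` at a finite place
  have hval : ∀ v : Place K F, ∃ a : K, 0 ≤ v.ord x → 0 < v.ord (x - algebraMap K F a) := by
    intro v
    by_cases hv : 0 ≤ v.ord x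
    · obtain ⟨a, ha⟩ := exists_value hFF v hv
      exact ⟨a, fun _ => ha⟩
    · exact ⟨0, fun h => absurd h hv⟩
  choose val hvalspec using hval
  set m : ℕ := T.sup (fun v => (v.ord u).natAbs) with hm
  set s : K[X] := ∏ v ∈ T, (X - C (val v)) ^ m with hs
  have hs0 : s ≠ 0 := by
    rw [hs, Finset.prod_ne_zero_iff]
    exact fun v _ => pow_ne_zero m (X_sub_C_ne_zero _)
  -- `s(c) ≠ 0`
  have hsc : s.eval c ≠ 0 := by
    rw [hs, eval_prod, Finset.prod_ne_zero_iff]
    intro v hv
    rw [eval_pow, eval_sub, eval_X, eval_C]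
    apply pow_ne_zero
    intro h0
    have hvc : val v = c := (sub_eq_zero.mp h0).symm
    have h1 := hvalspec v ((hTmem v).mp hv).2
    rw [hvc] at h1
    exact ((hTmem v).mp hv).1 (hu v h1)
  -- the order of `s(x)` at the finite places
  have hord : ∀ P : Place K F, 0 ≤ P.ord x →
      0 ≤ P.ord (aeval x s) ∧ (P.ord u ≠ 0 → ((P.ord u).natAbs : ℤ) ≤ P.ord (aeval x s)) := by
    intro P hP
    refine ⟨ord_aeval_nonneg P hP s, fun hPu => ?_⟩
    have hPT : P ∈ T := (hTmem P).mpr ⟨hPu, hP⟩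
    set s' : K[X] := ∏ v ∈ T.erase P, (X - C (val v)) ^ m with hs'
    have hs'0 : s' ≠ 0 := by
      rw [hs', Finset.prod_ne_zero_iff]
      exact fun v _ => pow_ne_zero m (X_sub_C_ne_zero _)
    have hsplit : s = (X - C (val P)) ^ m * s' := by
      rw [hs, hs', Finset.mul_prod_erase T (fun v => (X - C (val v)) ^ m) hPT]
    have h1 : aeval x s = (x - algebraMap K F (val P)) ^ m * aeval x s' := by
      rw [hsplit, map_mul, map_pow, map_sub, aeval_X, aeval_C]
    have hne1 : (x - algebraMap K F (val P)) ^ m ≠ 0 :=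
      pow_ne_zero m (sub_algebraMap_ne_zero hFF _)
    have hne2 : aeval x s' ≠ 0 := aeval_ne_zero hFF hs'0
    rw [h1, P.ord_mul hne1 hne2, ← zpow_natCast, P.ord_zpow]
    have h2 : 0 < P.ord (x - algebraMap K F (val P)) := hvalspec P hP
    have h3 : 0 ≤ P.ord (aeval x s') := ord_aeval_nonneg P hP s'
    have h4 : (P.ord u).natAbs ≤ m := by
      rw [hm]
      exact Finset.le_sup (f := fun v => (v.ord u).natAbs) hPT
    have h5 : ((P.ord u).natAbs : ℤ) ≤ (m : ℤ) := by exact_mod_cast h4
    have h6 : (m : ℤ) ≤ (m : ℤ) * P.ord (x - algebraMap K F (val P)) := by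
      have : (m : ℤ) * 1 ≤ (m : ℤ) * P.ord (x - algebraMap K F (val P)) :=
        mul_le_mul_of_nonneg_left (by omega) (by positivity)
      simpa using this
    omega
  have hsx0 : aeval x s ≠ 0 := aeval_ne_zero hFF hs0
  refine ⟨s, hsc, ?_, ?_⟩
  · show IsIntegral (Algebra.adjoin K ({x} : Set F)) (aeval x s * u)
    rw [hFF.isIntegral_adjoin_iff]
    intro P hP
    obtain ⟨h1, h2⟩ := hord P hP
    rw [P.ord_mul hsx0 hu0]
    by_cases hPu : P.ord u = 0
    · rw [hPu, add_zero]
      exact h1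
    · have := h2 hPu
      omega
  · show IsIntegral (Algebra.adjoin K ({x} : Set F)) (aeval x s * u⁻¹)
    rw [hFF.isIntegral_adjoin_iff]
    intro P hP
    obtain ⟨h1, h2⟩ := hord P hP
    rw [P.ord_mul hsx0 (inv_ne_zero hu0), P.ord_inv]
    by_cases hPu : P.ord u = 0
    · rw [hPu, neg_zero, add_zero]
      exact h1
    · have := h2 hPu
      omega

/-- **The hypotheses of `local_index`.**  If all orders of `h` are divisible by `p`, then for
every constant `c` there is `g ≠ 0` such that `h * g ^ p` is a unit over `x = c`, in the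
denominator form consumed by `Fermat.Agent.Lib.RedK.local_index`. -/
theorem exists_local_index_data [Infinite K] (hFF : IsFF1 K F x) {p : ℕ} {h : F}
    (hh : h ≠ 0) (hdiv : ∀ P : Place K F, (p : ℤ) ∣ P.ord h) (c : K) :
    ∃ (g : F) (s₃ s₄ : K[X]), g ≠ 0 ∧ s₃.eval c ≠ 0 ∧ s₄.eval c ≠ 0 ∧
      aeval x s₃ * (h * g ^ p) ∈ IntL K x ∧ aeval x s₄ * (h * g ^ p)⁻¹ ∈ IntL K x := by
  classical
  have hxc : x - algebraMap K F c ≠ 0 := sub_algebraMap_ne_zero hFF c
  obtain ⟨g, hg0, hg⟩ := hFF.exists_ord_eq' (finite_ord_ne_zero hFF hxc).toFinset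
    (fun v => -(v.ord h / p))
  have hu0 : h * g ^ p ≠ 0 := mul_ne_zero hh (pow_ne_zero p hg0)
  have hu : ∀ P : Place K F, 0 < P.ord (x - algebraMap K F c) → P.ord (h * g ^ p) = 0 := by
    intro P hP
    have hPS : P ∈ (finite_ord_ne_zero hFF hxc).toFinset := by
      rw [Set.Finite.mem_toFinset]
      exact ne_of_gt hP
    rw [P.ord_mul hh (pow_ne_zero p hg0), ← zpow_natCast, P.ord_zpow, hg P hPS]
    have := Int.mul_ediv_cancel' (hdiv P)
    linarith
  obtain ⟨s, hsc, h1, h2⟩ := exists_poly_mul_integral hFF c (h * g ^ p) hu0 hu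
  exact ⟨g, s, s, hg0, hsc, hsc, h1, h2⟩

/-- The same at the chart at infinity (`t = x⁻¹`, `c = 0`). -/
theorem exists_local_index_data_inv [Infinite K] (hFF : IsFF1 K F x) {p : ℕ}
    {h : F} (hh : h ≠ 0) (hdiv : ∀ P : Place K F, (p : ℤ) ∣ P.ord h) (c : K) :
    ∃ (g : F) (s₃ s₄ : K[X]), g ≠ 0 ∧ s₃.eval c ≠ 0 ∧ s₄.eval c ≠ 0 ∧
      aeval x⁻¹ s₃ * (h * g ^ p) ∈ IntL K x⁻¹ ∧ aeval x⁻¹ s₄ * (h * g ^ p)⁻¹ ∈ IntL K x⁻¹ :=
  exists_local_index_data hFF.inv hh hdiv c

end Fermat.Agent.Lib.RedK.FFInput
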