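/-
RED-K (helper95): basic lemmas on `IntL`, the Gauss setting, integral polynomials and
orthonormal families.
-/
import Mathlib
import Fermat.Agent.Lib.RedK.Defs

set_option autoImplicit false

namespace Fermat.Agent.Lib.RedK

open Polynomial

noncomputable section

variable {L F : Type*} [Field L] [Field F] [Algebra L F]

/-! ### `IntL` -/

theorem mem_IntL {t y : F} :
    y ∈ IntL L t ↔ IsIntegral (Algebra.adjoin L ({t} : Set F)) y := Iff.rfl

theorem aeval_mem_IntL (t : F) (f : L[X]) : aeval t f ∈ IntL L t := by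
  rw [mem_IntL]
  have hmem : aeval t f ∈ Algebra.adjoin L ({t} : Set F) := by
    rw [Algebra.adjoin_singleton_eq_range_aeval]
    exact ⟨f, rfl⟩
  exact isIntegral_algebraMap (R := Algebra.adjoin L ({t} : Set F)) (x := ⟨_, hmem⟩)

theorem algebraMap_mem_IntL (t : F) (a : L) : algebraMap L F a ∈ IntL L t := by
  have h := aeval_mem_IntL t (C a)
  rwa [aeval_C] at h

theorem IntL_of_pow {t y : F} {m : ℕ} (hm : 0 < m) (h : y ^ m ∈ IntL L t) : y ∈ IntL L t :=
  IsIntegral.of_pow hm h

/-! ### valuation subrings -/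

theorem val_eq_one_of_sub_lt (O : ValuationSubring F) {h : F} (hh : O.valuation (h - 1) < 1) :
    O.valuation h = 1 := by
  have h1 : O.valuation (h - 1) < O.valuation (1 : F) := by rwa [map_one]
  have h2 := Valuation.map_add_eq_of_lt_left O.valuation h1
  rwa [add_sub_cancel, map_one] at h2

theorem mem_of_val_lt (O : ValuationSubring F) {z : F} (hz : O.valuation z < 1) : z ∈ O :=
  (O.valuation_le_one_iff z).1 hz.le

theorem mem_of_val_eq_one (O : ValuationSubring F) {z : F} (hz : O.valuation z = 1) : z ∈ O :=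
  (O.valuation_le_one_iff z).1 hz.le

theorem inv_mem_of_val_eq_one (O : ValuationSubring F) {z : F} (hz : O.valuation z = 1) :
    z⁻¹ ∈ O := by
  refine (O.valuation_le_one_iff _).1 ?_
  rw [map_inv₀, hz, inv_one]

/-! ### integral and primitive polynomials -/

theorem isInt_map (A : ValuationSubring L) (f₀ : Polynomial A) : IsInt A (f₀.map A.subtype) := by
  intro j
  rw [coeff_map]
  exact (f₀.coeff j).2

theorem exists_lift_of_isInt (A : ValuationSubring L) {f : L[X]} (hf : IsInt A f) :
    ∃ f₀ : Polynomial A, f₀.map A.subtype = f := by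
  refine ⟨∑ i ∈ f.support, Polynomial.monomial i (⟨f.coeff i, hf i⟩ : A), ?_⟩
  rw [Polynomial.map_sum]
  conv_rhs => rw [f.as_sum_support]
  refine Finset.sum_congr rfl fun i _ => ?_
  rw [Polynomial.map_monomial]
  rfl

theorem IsInt.add {A : ValuationSubring L} {f g : L[X]} (hf : IsInt A f) (hg : IsInt A g) :
    IsInt A (f + g) := fun j => by
  rw [coeff_add]; exact A.add_mem _ _ (hf j) (hg j)

theorem IsInt.mul {A : ValuationSubring L} {f g : L[X]} (hf : IsInt A f) (hg : IsInt A g) :
    IsInt A (f * g) := by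
  obtain ⟨f₀, rfl⟩ := exists_lift_of_isInt A hf
  obtain ⟨g₀, rfl⟩ := exists_lift_of_isInt A hg
  rw [← Polynomial.map_mul]
  exact isInt_map A _

theorem isInt_C {A : ValuationSubring L} {a : L} (ha : a ∈ A) : IsInt A (C a) := fun j => by
  rw [coeff_C]
  split_ifs
  · exact ha
  · exact A.zero_mem

theorem isInt_zero (A : ValuationSubring L) : IsInt A (0 : L[X]) := fun j => by
  rw [coeff_zero]; exact A.zero_mem

theorem isInt_one (A : ValuationSubring L) : IsInt A (1 : L[X]) := by
  rw [← C_1]; exact isInt_C A.one_mem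

theorem isInt_X (A : ValuationSubring L) : IsInt A (X : L[X]) := fun j => by
  rw [coeff_X]
  split_ifs
  · exact A.one_mem
  · exact A.zero_mem

theorem isInt_sum {A : ValuationSubring L} {ι : Type*} (s : Finset ι) (f : ι → L[X])
    (hf : ∀ i ∈ s, IsInt A (f i)) : IsInt A (∑ i ∈ s, f i) := fun j => by
  rw [finsetSum_coeff]
  exact A.toSubring.sum_mem fun i hi => hf i hi j

/-- A lift to `A[X]` of a primitive polynomial has nonzero reduction, and conversely. -/
theorem isPrim_map_iff (A : ValuationSubring L) (f₀ : Polynomial A) :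
    IsPrim A (f₀.map A.subtype) ↔ f₀.map (IsLocalRing.residue A) ≠ 0 := by
  constructor
  · rintro ⟨-, j, hj⟩ h0
    have h1 := congrArg (fun q => q.coeff j) h0
    simp only [coeff_map, coeff_zero] at h1
    rw [coeff_map] at hj
    have hu : IsUnit (f₀.coeff j) := (A.valuation_eq_one_iff _).2 hj
    rw [IsLocalRing.residue_eq_zero_iff] at h1
    exact (IsLocalRing.mem_maximalIdeal _).1 h1 hu
  · intro h
    refine ⟨isInt_map A f₀, ?_⟩
    by_contra hcon
    push Not at hcon
    apply h
    ext j
    rw [coeff_map, coeff_zero, IsLocalRing.residue_eq_zero_iff, A.valuation_lt_one_iff]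
    have := hcon j
    rw [coeff_map] at this
    exact lt_of_le_of_ne (A.valuation_le_one _) this

/-- Primitive scaling of a nonzero polynomial, with control of the constant. -/
theorem exists_prim_scaling (A : ValuationSubring L) (f : L[X]) (hf : f ≠ 0) :
    ∃ a : L, a ≠ 0 ∧ IsPrim A (C a * f) ∧ ∀ j, A.valuation (f.coeff j) ≤ A.valuation a⁻¹ := by
  have hne : f.support.Nonempty := Polynomial.nonempty_support_iff.mpr hf
  obtain ⟨j₀, hj₀, hmax⟩ := f.support.exists_max_image (fun j => A.valuation (f.coeff j)) hne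
  have hc0 : f.coeff j₀ ≠ 0 := Polynomial.mem_support_iff.mp hj₀
  have hle : ∀ j, A.valuation (f.coeff j) ≤ A.valuation (f.coeff j₀) := by
    intro j
    by_cases hj : j ∈ f.support
    · exact hmax j hj
    · rw [Polynomial.notMem_support_iff.mp hj, map_zero]
      exact zero_le
  refine ⟨(f.coeff j₀)⁻¹, inv_ne_zero hc0, ⟨fun j => ?_, j₀, ?_⟩, fun j => ?_⟩
  · rw [coeff_C_mul, ← A.valuation_le_one_iff, map_mul, map_inv₀]
    have hv0 : A.valuation (f.coeff j₀) ≠ 0 := (Valuation.ne_zero_iff _).2 hc0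
    rw [inv_mul_le_iff₀ (zero_lt_iff.2 hv0), mul_one]
    exact hle j
  · rw [coeff_C_mul, inv_mul_cancel₀ hc0, map_one]
  · rw [inv_inv]
    exact hle j

/-- Gauss lemma: if `g` is primitive and `g * f` is integral then `f` is integral. -/
theorem isInt_of_mul_prim (A : ValuationSubring L) {g f : L[X]} (hg : IsPrim A g)
    (h : IsInt A (g * f)) : IsInt A f := by
  by_contra hcon
  have hf0 : f ≠ 0 := fun h0 => hcon (h0 ▸ isInt_zero A)
  obtain ⟨a, ha0, hprim, hmax⟩ := exists_prim_scaling A f hf0
  have hav : A.valuation a < 1 := by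
    unfold IsInt at hcon
    push Not at hcon
    obtain ⟨j, hj⟩ := hcon
    have h1 : 1 < A.valuation (f.coeff j) := by
      rw [← not_le, A.valuation_le_one_iff]
      exact hj
    have h2 : 1 < A.valuation a⁻¹ := lt_of_lt_of_le h1 (hmax j)
    rw [map_inv₀] at h2
    have hv0 : A.valuation a ≠ 0 := (Valuation.ne_zero_iff _).2 ha0
    by_contra hge
    push Not at hge
    have := inv_le_one_of_one_le₀ hge
    exact absurd h2 (not_lt.2 this)
  obtain ⟨g₀, rfl⟩ := exists_lift_of_isInt A hg.1
  obtain ⟨f₀, hf₀⟩ := exists_lift_of_isInt A hprim.1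
  have hg' := (isPrim_map_iff A g₀).1 hg
  have hf' := (isPrim_map_iff A f₀).1 (hf₀ ▸ hprim)
  have hprod : (g₀ * f₀).map (IsLocalRing.residue A) ≠ 0 := by
    rw [Polynomial.map_mul]
    exact mul_ne_zero hg' hf'
  obtain ⟨-, j, hj⟩ := (isPrim_map_iff A (g₀ * f₀)).2 hprod
  rw [Polynomial.map_mul, hf₀, ← mul_assoc, mul_comm _ (C a), mul_assoc, coeff_C_mul, map_mul]
    at hj
  have h3 : A.valuation ((g₀.map A.subtype * f).coeff j) ≤ 1 :=
    (A.valuation_le_one_iff _).2 (h j)
  have h4 : A.valuation a * A.valuation ((g₀.map A.subtype * f).coeff j) < 1 := by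
    calc A.valuation a * A.valuation ((g₀.map A.subtype * f).coeff j)
        ≤ A.valuation a * 1 := mul_le_mul_right h3 _
      _ = A.valuation a := mul_one _
      _ < 1 := hav
  rw [hj] at h4
  exact lt_irrefl _ h4

/-! ### the Gauss setting -/

namespace GaussSetting

variable {A : ValuationSubring L} {O : ValuationSubring F} {t : F}

theorem val_t (hG : GaussSetting A O t) : O.valuation t = 1 := by
  have h := hG.prim X ⟨isInt_X A, 1, by rw [coeff_X_one, map_one]⟩
  rwa [aeval_X] at h

theorem t_mem (hG : GaussSetting A O t) : t ∈ O := mem_of_val_eq_one O hG.val_t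

theorem val_const_le (hG : GaussSetting A O t) (a : L) :
    O.valuation (algebraMap L F a) ≤ 1 ↔ A.valuation a ≤ 1 := by
  rw [O.valuation_le_one_iff, A.valuation_le_one_iff]
  exact hG.const_mem a

theorem val_const_lt (hG : GaussSetting A O t) (a : L) :
    O.valuation (algebraMap L F a) < 1 ↔ A.valuation a < 1 := by
  by_cases ha : a = 0
  · subst ha
    simp
  · have h1 : O.valuation (algebraMap L F a) ≠ 0 :=
      (Valuation.ne_zero_iff _).2 (by rwa [Ne, map_eq_zero])
    have h2 : A.valuation a ≠ 0 := (Valuation.ne_zero_iff _).2 ha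
    have e1 : O.valuation (algebraMap L F a) < 1 ↔ ¬ O.valuation (algebraMap L F a⁻¹) ≤ 1 := by
      rw [map_inv₀, map_inv₀, inv_le_one₀ (zero_lt_iff.2 h1), not_le]
    have e2 : A.valuation a < 1 ↔ ¬ A.valuation a⁻¹ ≤ 1 := by
      rw [map_inv₀, inv_le_one₀ (zero_lt_iff.2 h2), not_le]
    rw [e1, e2, hG.val_const_le]

theorem val_const_eq_one (hG : GaussSetting A O t) (a : L) :
    O.valuation (algebraMap L F a) = 1 ↔ A.valuation a = 1 := by
  constructor
  · intro h
    exact le_antisymm ((hG.val_const_le a).1 h.le)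
      (not_lt.1 fun hlt => absurd ((hG.val_const_lt a).2 hlt) (not_lt.2 h.ge))
  · intro h
    exact le_antisymm ((hG.val_const_le a).2 h.le)
      (not_lt.1 fun hlt => absurd ((hG.val_const_lt a).1 hlt) (not_lt.2 h.ge))

theorem aeval_mem (hG : GaussSetting A O t) {f : L[X]} (hf : IsInt A f) : aeval t f ∈ O := by
  rw [aeval_eq_sum_range]
  refine O.toSubring.sum_mem fun j _ => ?_
  rw [Algebra.smul_def]
  exact O.mul_mem _ _ ((hG.const_mem _).2 (hf j)) (O.pow_mem hG.t_mem j)

theorem aeval_val_lt (hG : GaussSetting A O t) {f : L[X]}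
    (hf : ∀ j, A.valuation (f.coeff j) < 1) : O.valuation (aeval t f) < 1 := by
  rw [aeval_eq_sum_range]
  refine Valuation.map_sum_lt _ one_ne_zero fun j _ => ?_
  rw [Algebra.smul_def, map_mul, map_pow, hG.val_t, one_pow, mul_one]
  exact (hG.val_const_lt _).2 (hf j)

theorem aeval_ne_zero (hG : GaussSetting A O t) {f : L[X]} (hf : f ≠ 0) : aeval t f ≠ 0 := by
  obtain ⟨a, -, hprim, -⟩ := exists_prim_scaling A f hf
  have h := hG.prim _ hprim
  intro h0
  rw [map_mul, h0, mul_zero, map_zero] at h
  exact zero_ne_one h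

theorem aeval_injective (hG : GaussSetting A O t) :
    Function.Injective (aeval t : L[X] → F) := by
  intro f g hfg
  by_contra hne
  exact hG.aeval_ne_zero (sub_ne_zero.2 hne) (by rw [map_sub, hfg, sub_self])

end GaussSetting

/-! ### orthonormal families -/

theorem sum_single_mul (t : F) {n : ℕ} (β : Fin n → F) (i : Fin n) (g : L[X]) :
    ∑ j, aeval t ((Pi.single i g : Fin n → L[X]) j) * β j = aeval t g * β i := by
  rw [Finset.sum_eq_single i]
  · rw [Pi.single_eq_same]
  · intro j _ hj
    rw [Pi.single_eq_of_ne hj, map_zero, zero_mul]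
  · intro h
    exact absurd (Finset.mem_univ i) h

namespace IsON

variable {A : ValuationSubring L} {O : ValuationSubring F} {t : F} {n : ℕ} {β : Fin n → F}

theorem isIndep (hAL : ∃ a : L, a ∉ A) (h : IsON A O t β) : IsIndep L t β := by
  intro f hf
  obtain ⟨a₀, ha₀⟩ := hAL
  funext i
  ext j
  by_contra hne
  rw [Pi.zero_apply, coeff_zero] at hne
  have hmem : (∑ i', aeval t (C (a₀ * ((f i).coeff j)⁻¹) * f i') * β i') ∈ O := by
    have e : (∑ i', aeval t (C (a₀ * ((f i).coeff j)⁻¹) * f i') * β i') =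
        algebraMap L F (a₀ * ((f i).coeff j)⁻¹) * ∑ i', aeval t (f i') * β i' := by
      rw [Finset.mul_sum]
      refine Finset.sum_congr rfl fun i' _ => ?_
      rw [map_mul, aeval_C, mul_assoc]
    rw [e, hf, mul_zero]
    exact O.zero_mem
  have h1 := h.coeff (fun i' => C (a₀ * ((f i).coeff j)⁻¹) * f i') hmem i j
  rw [coeff_C_mul, mul_assoc, inv_mul_cancel₀ hne, mul_one] at h1
  exact ha₀ h1

theorem coeff_lt (hG : GaussSetting A O t) (hAL : ∃ a : L, a ∉ A) (h : IsON A O t β)
    (f : Fin n → L[X]) (hf : O.valuation (∑ i, aeval t (f i) * β i) < 1) :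
    ∀ i j, A.valuation ((f i).coeff j) < 1 := by
  intro i j
  by_cases hy : (∑ i, aeval t (f i) * β i) = 0
  · have := h.isIndep hAL f hy
    rw [this, Pi.zero_apply, coeff_zero, map_zero]
    exact zero_lt_one
  · obtain ⟨a, ha0, ha⟩ := hG.scaling _ hy
    have hmem : (∑ i, aeval t (C a * f i) * β i) ∈ O := by
      have e : (∑ i', aeval t (C a * f i') * β i') =
          algebraMap L F a * ∑ i', aeval t (f i') * β i' := by
        rw [Finset.mul_sum]
        refine Finset.sum_congr rfl fun i' _ => ?_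
        rw [map_mul, aeval_C, mul_assoc]
      rw [e]
      exact mem_of_val_eq_one O ha
    have h1 := h.coeff (fun i' => C a * f i') hmem i j
    rw [coeff_C_mul, ← A.valuation_le_one_iff, map_mul] at h1
    have hgt : 1 < A.valuation a := by
      by_contra hle
      push Not at hle
      have h2 := (hG.val_const_le a).2 hle
      rw [map_mul] at ha
      have h3 : O.valuation (algebraMap L F a) * O.valuation (∑ i, aeval t (f i) * β i) < 1 := by
        calc O.valuation (algebraMap L F a) * O.valuation (∑ i, aeval t (f i) * β i)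
            ≤ 1 * O.valuation (∑ i, aeval t (f i) * β i) := mul_le_mul_left h2 _
          _ = O.valuation (∑ i, aeval t (f i) * β i) := one_mul _
          _ < 1 := hf
      rw [ha] at h3
      exact lt_irrefl _ h3
    by_contra hge
    push Not at hge
    have h4 : A.valuation a * 1 ≤ A.valuation a * A.valuation ((f i).coeff j) :=
      mul_le_mul_right hge _
    rw [mul_one] at h4
    exact absurd (lt_of_lt_of_le hgt (h4.trans h1)) (lt_irrefl _)

theorem ne_zero (hAL : ∃ a : L, a ∉ A) (h : IsON A O t β) (i : Fin n) : β i ≠ 0 := by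
  intro h0
  have h1 := h.isIndep hAL (Pi.single i 1) (by rw [sum_single_mul, h0, mul_zero])
  have h2 := congrFun h1 i
  rw [Pi.single_eq_same, Pi.zero_apply] at h2
  exact one_ne_zero h2

theorem val_eq_one (hG : GaussSetting A O t) (hAL : ∃ a : L, a ∉ A) (h : IsON A O t β)
    (i : Fin n) : O.valuation (β i) = 1 := by
  refine le_antisymm ((O.valuation_le_one_iff _).2 (h.mem i)) ?_
  by_contra hlt
  push Not at hlt
  have h1 := h.coeff_lt hG hAL (Pi.single i 1) (by rwa [sum_single_mul, map_one, one_mul]) i 0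
  rw [Pi.single_eq_same, coeff_one_zero, map_one] at h1
  exact lt_irrefl _ h1

/-- `spanL ∩ O = spanA` for an orthonormal family. -/
theorem mem_spanA (h : IsON A O t β) {y : F} (hy : y ∈ spanL L t β) (hyO : y ∈ O) :
    y ∈ spanA A t β := by
  obtain ⟨f, rfl⟩ := hy
  exact ⟨f, h.coeff f hyO, rfl⟩

end IsON

theorem spanA_subset_O {A : ValuationSubring L} {O : ValuationSubring F} {t : F}
    (hG : GaussSetting A O t) {n : ℕ} {β : Fin n → F} (hβ : ∀ i, β i ∈ O) {y : F}
    (hy : y ∈ spanA A t β) : y ∈ O := by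
  obtain ⟨f, hf, rfl⟩ := hy
  exact O.toSubring.sum_mem fun i _ => O.mul_mem _ _ (hG.aeval_mem (hf i)) (hβ i)

end

end Fermat.Agent.Lib.RedK
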