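/-
RED-K (helper95): charts from good families.

Adapter between the vocabulary of `Lib/Red/Orth.lean` (`Orth.Setting`, `Orth.Good`,
`Orth.exists_good_spanning`) and the `Chart` structure of RED-K, for the chart `x` and the chart
`x⁻¹`:

* `setting_inv` : the Gauss setting for `x⁻¹`;
* `isIntegral_inv_pow_mul` : `y` integral over `L[x]` ⟹ `x⁻ᵐ y` integral over `L[x⁻¹]`;
* `good_inv` : a good family for `x` gives a good family for `x⁻¹`;
* `exists_chart` : a `Chart` from a Gauss setting and a good family.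
-/
import Mathlib
import Fermat.Agent.Lib.Red.Orth
import Fermat.Agent.Lib.RedK.Basic

set_option autoImplicit false

namespace Fermat.Agent.Lib.RedK.OrthChart

open Polynomial IntermediateField Fermat.Agent.Lib.Red

noncomputable section

variable {L F : Type*} [Field L] [Field F] [Algebra L F]

/-! ### Reflection of polynomials and the substitution `x ↦ x⁻¹` -/

theorem inv_pow_mul_aeval {x : F} (hx : x ≠ 0) (M : ℕ) (α : L[X]) (hα : α.natDegree ≤ M) :
    x⁻¹ ^ M * aeval x α = aeval x⁻¹ (α.reflect M) := by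
  let _ : Invertible x := invertibleOfNonzero hx
  have h := eval₂_reflect_mul_pow (algebraMap L F) x M α hα
  rw [invOf_eq_inv] at h
  rw [aeval_def, aeval_def, ← h, mul_comm, mul_assoc, ← mul_pow, mul_inv_cancel₀ hx, one_pow,
    mul_one]

theorem aeval_inv_eq {x : F} (hx : x ≠ 0) (M : ℕ) (α : L[X]) (hα : α.natDegree ≤ M) :
    aeval x⁻¹ α = x⁻¹ ^ M * aeval x (α.reflect M) := by
  have h := inv_pow_mul_aeval (inv_ne_zero hx) M α hα
  rw [inv_inv] at h
  rw [← h, ← mul_assoc, ← mul_pow, inv_mul_cancel₀ hx, one_pow, one_mul]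

theorem adjoin_inv_eq (x : F) : L⟮x⁻¹⟯ = L⟮x⟯ := by
  apply le_antisymm
  · rw [adjoin_simple_le_iff]
    exact inv_mem (mem_adjoin_simple_self L x)
  · rw [adjoin_simple_le_iff]
    have h := inv_mem (mem_adjoin_simple_self L x⁻¹)
    rwa [inv_inv] at h

/-! ### The Gauss setting for `x⁻¹` -/

theorem setting_ne_zero {x : F} {A : ValuationSubring L} {O : Subring F}
    (hS : Orth.Setting x A O) : x ≠ 0 := by
  rintro rfl
  exact hS.transcendental isAlgebraic_zero

theorem setting_inv {x : F} {A : ValuationSubring L} {O : Subring F}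
    (hS : Orth.Setting x A O) (hxinv : x⁻¹ ∈ O) : Orth.Setting x⁻¹ A O where
  hA := hS.hA
  hx := hxinv
  prim := by
    rintro q ⟨n, hn⟩
    have hx0 : x ≠ 0 := setting_ne_zero hS
    set M := q.natDegree with hM
    have hdeg : (q.map A.subtype).natDegree ≤ M := natDegree_map_le
    have hrefl : (q.map A.subtype).reflect M = (q.reflect M).map A.subtype :=
      reflect_map A.subtype q M
    have hunit : ∃ j, IsUnit ((q.reflect M).coeff j) := by
      refine ⟨revAt M n, ?_⟩
      rw [coeff_reflect, revAt_invol]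
      exact hn
    obtain ⟨hne, hinv⟩ := hS.prim (q.reflect M) hunit
    have e : aeval x⁻¹ (q.map A.subtype) = x⁻¹ ^ M * aeval x ((q.reflect M).map A.subtype) := by
      rw [aeval_inv_eq hx0 M _ hdeg, hrefl]
    rw [e]
    refine ⟨mul_ne_zero (pow_ne_zero _ (inv_ne_zero hx0)) hne, ?_⟩
    rw [mul_inv, ← inv_pow, inv_inv]
    exact O.mul_mem (O.pow_mem hS.hx M) hinv

/-! ### Integrality over `L[x⁻¹]` -/

theorem mem_adjoin_inv_of_reflect {x : F} (hx : x ≠ 0) (M : ℕ) (α : L[X])
    (hα : α.natDegree ≤ M) : x⁻¹ ^ M * aeval x α ∈ Algebra.adjoin L ({x⁻¹} : Set F) := by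
  rw [inv_pow_mul_aeval hx M α hα, Algebra.adjoin_singleton_eq_range_aeval]
  exact ⟨_, rfl⟩

/-- If `y` is integral over `L[x]` then `x⁻ᵐ y` is integral over `L[x⁻¹]` for some `m`. -/
theorem isIntegral_inv_pow_mul {x : F} (hx : x ≠ 0) {y : F}
    (hy : IsIntegral (Algebra.adjoin L ({x} : Set F)) y) :
    ∃ m : ℕ, IsIntegral (Algebra.adjoin L ({x⁻¹} : Set F)) (x⁻¹ ^ m * y) := by
  classical
  obtain ⟨P, hmonic, hP⟩ := hy
  set d := P.natDegree with hd
  have hcoeff : ∀ j, ∃ α : L[X], aeval x α = ((P.coeff j : Algebra.adjoin L ({x} : Set F)) : F) := by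
    intro j
    have h : ((P.coeff j : Algebra.adjoin L ({x} : Set F)) : F) ∈
        (aeval x : L[X] →ₐ[L] F).range := by
      rw [← Algebra.adjoin_singleton_eq_range_aeval]
      exact (P.coeff j).2
    exact h
  choose α hα using hcoeff
  set m := (Finset.range d).sup (fun j => (α j).natDegree) with hm
  have hmle : ∀ j, j < d → (α j).natDegree ≤ m := fun j hj =>
    Finset.le_sup (f := fun j => (α j).natDegree) (Finset.mem_range.mpr hj)
  refine ⟨m, ?_⟩
  set z := x⁻¹ ^ m * y with hz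
  -- `d ≥ 1`
  have hd1 : 0 < d := by
    by_contra h0
    have hd0 : P.natDegree = 0 := by omega
    have hP1 : P = 1 := by
      have := hmonic
      rw [Polynomial.Monic, Polynomial.leadingCoeff, hd0] at this
      rw [Polynomial.eq_C_of_natDegree_eq_zero hd0, this, C_1]
    rw [hP1, eval₂_one] at hP
    exact one_ne_zero hP
  -- the relation for `y`
  have hrel : y ^ d = -∑ j ∈ Finset.range d, aeval x (α j) * y ^ j := by
    rw [eval₂_eq_sum_range, Finset.sum_range_succ, ← hd] at hP
    have hlead : P.coeff d = 1 := hmonic.coeff_natDegree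
    rw [hlead, map_one, one_mul] at hP
    rw [eq_neg_iff_add_eq_zero, add_comm, ← hP]
    congr 1
    exact Finset.sum_congr rfl fun j _ => by rw [hα j]; rfl
  -- the relation for `z`
  have hrelz : z ^ d = -∑ j ∈ Finset.range d, (x⁻¹ ^ (m * (d - j)) * aeval x (α j)) * z ^ j := by
    rw [hz, mul_pow, hrel, mul_neg, Finset.mul_sum]
    congr 1
    refine Finset.sum_congr rfl fun j hj => ?_
    have hj' : j < d := Finset.mem_range.mp hj
    have e : m * d = m * (d - j) + m * j := by
      rw [← Nat.mul_add, Nat.sub_add_cancel hj'.le]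
    rw [mul_pow, ← pow_mul, ← pow_mul, e, pow_add]
    ring
  set N : Submodule (Algebra.adjoin L ({x⁻¹} : Set F)) F :=
    Submodule.span (Algebra.adjoin L ({x⁻¹} : Set F))
      (Set.range (fun j : Fin d => z ^ (j : ℕ))) with hNdef
  have hgen : ∀ j, j < d → z ^ j ∈ N := fun j hj =>
    Submodule.subset_span ⟨⟨j, hj⟩, rfl⟩
  have hzd : z ^ d ∈ N := by
    rw [hrelz]
    refine N.neg_mem (N.sum_mem fun j hj => ?_)
    have hj' : j < d := Finset.mem_range.mp hj
    have hmem : x⁻¹ ^ (m * (d - j)) * aeval x (α j) ∈ Algebra.adjoin L ({x⁻¹} : Set F) := by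
      refine mem_adjoin_inv_of_reflect hx _ _ ((hmle j hj').trans ?_)
      exact Nat.le_mul_of_pos_right m (by omega)
    exact N.smul_mem (⟨_, hmem⟩ : Algebra.adjoin L ({x⁻¹} : Set F)) (hgen j hj')
  have hN : N ≠ ⊥ := by
    intro h0
    have h1 : z ^ 0 ∈ N := hgen 0 hd1
    rw [h0, Submodule.mem_bot, pow_zero] at h1
    exact one_ne_zero h1
  have hNfg : N.FG := Submodule.fg_span (Set.finite_range _)
  have hstab : ∀ n ∈ N, z • n ∈ N := by
    intro n hn
    induction hn using Submodule.span_induction with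
    | mem v hv =>
      obtain ⟨j, rfl⟩ := hv
      show z * z ^ (j : ℕ) ∈ N
      rw [← pow_succ']
      by_cases hj : (j : ℕ) + 1 < d
      · exact hgen _ hj
      · have : (j : ℕ) + 1 = d := by have := j.2; omega
        rw [this]
        exact hzd
    | zero => rw [smul_zero]; exact N.zero_mem
    | add u v _ _ hu hv => rw [smul_add]; exact N.add_mem hu hv
    | smul r v _ hv => rw [smul_comm]; exact N.smul_mem r hv
  exact isIntegral_of_smul_mem_submodule (R := Algebra.adjoin L ({x⁻¹} : Set F)) (A := F)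
    (M := F) N hN hNfg z hstab

theorem isIntegral_inv_pow_mul_of_le {x : F} {y : F} {m m' : ℕ} (hmm : m ≤ m')
    (h : IsIntegral (Algebra.adjoin L ({x⁻¹} : Set F)) (x⁻¹ ^ m * y)) :
    IsIntegral (Algebra.adjoin L ({x⁻¹} : Set F)) (x⁻¹ ^ m' * y) := by
  have e : x⁻¹ ^ m' * y = x⁻¹ ^ (m' - m) * (x⁻¹ ^ m * y) := by
    rw [← mul_assoc, ← pow_add, Nat.sub_add_cancel hmm]
  rw [e]
  have hmem : x⁻¹ ^ (m' - m) ∈ Algebra.adjoin L ({x⁻¹} : Set F) :=
    pow_mem (Algebra.subset_adjoin (Set.mem_singleton _)) _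
  exact (Orth.isIntegral_of_mem_adjoin hmem).mul h

/-! ### Good families for `x⁻¹` -/

/-- A good family for `x` gives a good family for `x⁻¹`. -/
theorem good_inv {x : F} {A : ValuationSubring L} {O : Subring F} {ι : Type*} [Fintype ι]
    {b : ι → F} (hS : Orth.Setting x A O) (hxinv : x⁻¹ ∈ O) (hG : Orth.Good L x O b) :
    ∃ m : ℕ, Orth.Good L x⁻¹ O (fun i => x⁻¹ ^ m * b i) := by
  classical
  have hx0 : x ≠ 0 := setting_ne_zero hS
  have key : ∀ i, ∃ m : ℕ, IsIntegral (Algebra.adjoin L ({x⁻¹} : Set F)) (x⁻¹ ^ m * b i) :=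
    fun i => isIntegral_inv_pow_mul hx0 (hG.int i)
  choose mi hmi using key
  set m := Finset.univ.sup mi with hm
  have hle : ∀ i, mi i ≤ m := fun i => Finset.le_sup (Finset.mem_univ i)
  have hadj := adjoin_inv_eq (L := L) x
  have hxm : x ^ m * x⁻¹ ^ m = 1 := by
    rw [← mul_pow, mul_inv_cancel₀ hx0, one_pow]
  refine ⟨m, fun i => O.mul_mem (O.pow_mem hxinv m) (hG.mem i),
    fun i => isIntegral_inv_pow_mul_of_le (hle i) (hmi i), fun y => ?_, fun c hc h i => ?_⟩
  · obtain ⟨c, hc, hy⟩ := hG.span y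
    refine ⟨fun i => c i * x ^ m, fun i => ?_, ?_⟩
    · rw [hadj]
      exact mul_mem (hc i) (pow_mem (mem_adjoin_simple_self L x) m)
    · rw [hy]
      refine Finset.sum_congr rfl fun i _ => ?_
      rw [mul_assoc, ← mul_assoc (x ^ m), hxm, one_mul]
  · have h' : ∑ i, (c i * x⁻¹ ^ m) * b i ∈ O := by
      have e : ∑ i, (c i * x⁻¹ ^ m) * b i = ∑ i, c i * (x⁻¹ ^ m * b i) :=
        Finset.sum_congr rfl fun i _ => mul_assoc _ _ _
      rw [e]
      exact h
    have h1 := hG.orth (fun i => c i * x⁻¹ ^ m) (fun i => by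
      have h2 := hc i
      rw [hadj] at h2
      exact mul_mem h2 (pow_mem (inv_mem (mem_adjoin_simple_self L x)) m)) h' i
    have e : c i = (c i * x⁻¹ ^ m) * x ^ m := by
      rw [mul_assoc, mul_comm (x⁻¹ ^ m), hxm, mul_one]
    rw [e]
    exact O.mul_mem h1 (O.pow_mem hS.hx m)

/-! ### Reindexing -/

theorem good_reindex {x : F} {O : Subring F} {ι κ : Type*} [Fintype ι] [Fintype κ]
    {b : ι → F} (e : κ ≃ ι) (hG : Orth.Good L x O b) : Orth.Good L x O (b ∘ e) := by
  refine ⟨fun j => hG.mem _, fun j => hG.int _, fun y => ?_, fun c hc h j => ?_⟩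
  · obtain ⟨c, hc, hy⟩ := hG.span y
    refine ⟨c ∘ e, fun j => hc _, ?_⟩
    rw [hy]
    exact (Equiv.sum_comp e (fun i => c i * b i)).symm
  · have h' : ∑ i, c (e.symm i) * b i ∈ O := by
      have e1 : ∑ i, c (e.symm i) * b i = ∑ j, c j * (b ∘ e) j := by
        rw [← Equiv.sum_comp e (fun i => c (e.symm i) * b i)]
        exact Finset.sum_congr rfl fun j _ => by simp
      rw [e1]
      exact h
    have h1 := hG.orth (fun i => c (e.symm i)) (fun i => hc _) h' (e j)
    simpa using h1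

theorem PS_reindex {x : F} {ι κ : Type*} {b : ι → F} (e : κ ≃ ι) :
    Orth.PS L x (b ∘ e) = Orth.PS L x b := by
  unfold Orth.PS
  rw [Set.range_comp, Set.range_eq_univ.mpr e.surjective, Set.image_univ]

/-! ### Charts -/

section Chart

variable {x : F} {A : ValuationSubring L} {O : ValuationSubring F}

/-- The RED-K Gauss setting from the `Orth` setting and the scaling property. -/
theorem gaussSetting (hS : Orth.Setting x A O.toSubring)
    (hscal : ∀ y : F, y ≠ 0 → ∃ a : L, a ≠ 0 ∧ O.valuation (algebraMap L F a * y) = 1) :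
    GaussSetting A O x where
  const_mem := hS.hA
  scaling := hscal
  prim := by
    rintro f ⟨hint, j, hj⟩
    obtain ⟨q, rfl⟩ := exists_lift_of_isInt A hint
    have hu : IsUnit (q.coeff j) := by
      rw [ValuationSubring.valuation_eq_one_iff]
      rw [coeff_map] at hj
      exact hj
    obtain ⟨hne, hinv⟩ := hS.prim q ⟨j, hu⟩
    have hmem : aeval x (q.map A.subtype) ∈ O := hS.aeval_map_mem q
    have h1 : O.valuation (aeval x (q.map A.subtype)) ≤ 1 := (O.valuation_le_one_iff _).2 hmem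
    have h2 : O.valuation (aeval x (q.map A.subtype))⁻¹ ≤ 1 := (O.valuation_le_one_iff _).2 hinv
    rw [map_inv₀] at h2
    have h0 : O.valuation (aeval x (q.map A.subtype)) ≠ 0 := by
      rw [Ne, map_eq_zero]
      exact hne
    refine le_antisymm h1 ?_
    exact (inv_le_one₀ (zero_lt_iff.mpr h0)).mp h2

/-- A good family spanning the integral closure is a chart. -/
theorem chart_of_good (hS : Orth.Setting x A O.toSubring)
    (hscal : ∀ y : F, y ≠ 0 → ∃ a : L, a ≠ 0 ∧ O.valuation (algebraMap L F a * y) = 1)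
    {n : ℕ} {b : Fin n → F} (hG : Orth.Good L x O.toSubring b)
    (hsp : ∀ y : F, IsIntegral (Algebra.adjoin L ({x} : Set F)) y → y ∈ Orth.PS L x b) :
    Chart A O x b := by
  have hPS : ∀ y : F, y ∈ Orth.PS L x b → y ∈ spanL L x b := by
    intro y hy
    obtain ⟨c, hc, rfl⟩ := Orth.mem_PS_iff.mp hy
    have key : ∀ i, ∃ g : L[X], aeval x g = c i := by
      intro i
      have h := hc i
      rw [Algebra.adjoin_singleton_eq_range_aeval] at h
      exact h
    choose g hg using key
    exact ⟨g, Finset.sum_congr rfl fun i _ => by rw [hg i]⟩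
  have hgen : ∀ y : F, ∃ s : L[X], s ≠ 0 ∧ aeval x s * y ∈ Orth.PS L x b := by
    intro y
    obtain ⟨D, hD, hy⟩ := hG.exists_denominator y
    refine ⟨D, ?_, hy⟩
    rintro rfl
    exact hD (map_zero _)
  refine ⟨gaussSetting hS hscal, ⟨hG.mem, fun f hf i => ?_⟩, fun y => ?_, fun y => ?_, ?_⟩
  · have h1 := hG.orth (fun i => aeval x (f i))
      (fun i => IntermediateField.algebra_adjoin_le_adjoin L {x} (Orth.aeval_mem_adjoin (f i))) hf i
    exact fun j => hS.coeff_mem (f i) h1 j
  · obtain ⟨s, hs, hy⟩ := hgen y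
    exact ⟨s, hs, hPS _ hy⟩
  · obtain ⟨s, hs, hy⟩ := hgen y
    exact ⟨s, hs, hG.isIntegral_of_mem_PS hy⟩
  · refine ⟨1, one_ne_zero, fun y hy => ?_⟩
    rw [map_one, one_mul]
    exact hPS _ (hsp y hy)

/-- **A chart from a Gauss setting and a good family.** -/
theorem exists_chart [IsAlgClosed L] [CharZero L] [FiniteDimensional L⟮x⟯ F]
    (hS : Orth.Setting x A O.toSubring)
    (hscal : ∀ y : F, y ≠ 0 → ∃ a : L, a ≠ 0 ∧ O.valuation (algebraMap L F a * y) = 1)
    {ι : Type*} [Fintype ι] (b₀ : ι → F) (h₀ : Orth.Good L x O.toSubring b₀) :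
    ∃ (n : ℕ) (b : Fin n → F), Chart A O x b := by
  obtain ⟨b, hb, hsp⟩ := Orth.exists_good_spanning hS b₀ h₀
  let e := (Fintype.equivFin ι).symm
  refine ⟨Fintype.card ι, b ∘ e, chart_of_good hS hscal (good_reindex e hb) fun y hy => ?_⟩
  rw [PS_reindex]
  exact hsp y hy

end Chart

end

end Fermat.Agent.Lib.RedK.OrthChart
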