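/-
RED-K2 (helper84; consumer helper95): THE LATTICE LEMMA.

In a Gauss setting `(A, O, t)` with one orthonormal family `b₀` generating `F` up to
denominators, every `L[t]`-lattice `ML` of `F` (commensurable with the span of `b₀`) is
contained in the `L[t]`-span of an orthonormal generating family `β` lying in `ML`:

* `Fermat.Agent.Lib.RedK.exists_good_basis`.

Proof: among the orthonormal generating families `β ⊆ ML` with `s₁ • b₀ = P • β`
(`P` a matrix over `L[X]`), the degree of `det P` is bounded; a family of maximal degree spans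
`ML`, because otherwise the exchange step `β_{i₀} ↦ (∑ aᵢ βᵢ) / λ(t)` (`λ` a primitive linear
polynomial) produces a family with `det` of degree one more.

The auxiliary lemmas live in the namespace `Fermat.Agent.Lib.RedKLattice`; the Gauss lemma,
primitive scalings and the independence of orthonormal families are taken from
`Lib/RedK/Basic.lean` (helper95).
-/
import Mathlib
import Fermat.Agent.Lib.RedK.Defs
import Fermat.Agent.Lib.RedK.Basic

set_option autoImplicit false

namespace Fermat.Agent.Lib.RedKLattice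

open Polynomial Fermat.Agent.Lib.RedK

noncomputable section

variable {L F : Type*} [Field L] [Field F] [Algebra L F]


section IntPrim

variable {A : ValuationSubring L}

theorem isInt_zero : IsInt A (0 : L[X]) := fun j => by
  rw [coeff_zero]
  exact A.zero_mem

theorem isInt_add {f g : L[X]} (hf : IsInt A f) (hg : IsInt A g) : IsInt A (f + g) := fun j => by
  rw [coeff_add]
  exact A.add_mem _ _ (hf j) (hg j)

theorem isInt_sub {f g : L[X]} (hf : IsInt A f) (hg : IsInt A g) : IsInt A (f - g) := fun j => by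
  rw [coeff_sub]
  exact A.sub_mem (hf j) (hg j)

theorem isInt_C_mul {a : L} (ha : a ∈ A) {f : L[X]} (hf : IsInt A f) : IsInt A (C a * f) :=
  fun j => by
    rw [coeff_C_mul]
    exact A.mul_mem _ _ ha (hf j)

/-- Integral polynomials are the images of polynomials over `A`. -/
theorem isInt_iff_exists_map {f : L[X]} : IsInt A f ↔ ∃ f₀ : A[X], f₀.map A.subtype = f := by
  rw [← Polynomial.mem_lifts, Polynomial.lifts_iff_coeff_lifts]
  constructor
  · intro h j
    exact ⟨⟨f.coeff j, h j⟩, rfl⟩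
  · intro h j
    obtain ⟨a, ha⟩ := h j
    rw [← ha]
    exact a.2

theorem isInt_map (f₀ : A[X]) : IsInt A (f₀.map A.subtype) := isInt_iff_exists_map.mpr ⟨f₀, rfl⟩

/-- Primitivity is non-vanishing modulo the maximal ideal. -/
theorem isPrim_map_iff (f₀ : A[X]) :
    IsPrim A (f₀.map A.subtype) ↔ f₀.map (IsLocalRing.residue A) ≠ 0 := by
  constructor
  · rintro ⟨-, j, hj⟩ h0
    rw [coeff_map] at hj
    have hu : IsUnit (f₀.coeff j) := (A.valuation_eq_one_iff _).mpr hj
    have h1 : (f₀.map (IsLocalRing.residue A)).coeff j = 0 := by rw [h0, coeff_zero]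
    rw [coeff_map] at h1
    exact (IsLocalRing.residue_ne_zero_iff_isUnit _).mpr hu h1
  · intro h
    refine ⟨isInt_map f₀, ?_⟩
    obtain ⟨j, hj⟩ : ∃ j, (f₀.map (IsLocalRing.residue A)).coeff j ≠ 0 := by
      by_contra hcon
      refine h (Polynomial.ext fun j => ?_)
      rw [coeff_zero]
      by_contra hj
      exact hcon ⟨j, hj⟩
    rw [coeff_map] at hj
    refine ⟨j, ?_⟩
    rw [coeff_map]
    exact (A.valuation_eq_one_iff _).mp ((IsLocalRing.residue_ne_zero_iff_isUnit _).mp hj)

theorem isPrim_iff {f : L[X]} :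
    IsPrim A f ↔ ∃ f₀ : A[X], f₀.map A.subtype = f ∧ f₀.map (IsLocalRing.residue A) ≠ 0 := by
  constructor
  · intro h
    obtain ⟨f₀, rfl⟩ := isInt_iff_exists_map.mp h.1
    exact ⟨f₀, rfl, (isPrim_map_iff f₀).mp h⟩
  · rintro ⟨f₀, rfl, h⟩
    exact (isPrim_map_iff f₀).mpr h

/-- A product of primitive polynomials is primitive. -/
theorem isPrim_mul {f g : L[X]} (hf : IsPrim A f) (hg : IsPrim A g) : IsPrim A (f * g) := by
  obtain ⟨f₀, rfl, hf0⟩ := isPrim_iff.mp hf
  obtain ⟨g₀, rfl, hg0⟩ := isPrim_iff.mp hg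
  rw [← Polynomial.map_mul]
  rw [isPrim_map_iff, Polynomial.map_mul]
  exact mul_ne_zero hf0 hg0

theorem isPrim_ne_zero {f : L[X]} (hf : IsPrim A f) : f ≠ 0 := by
  rintro rfl
  obtain ⟨-, j, hj⟩ := hf
  rw [coeff_zero, map_zero] at hj
  exact zero_ne_one hj

theorem isPrim_X_sub_C {c : L} (hc : c ∈ A) : IsPrim A (X - C c) := by
  refine ⟨fun j => ?_, 1, ?_⟩
  · rw [coeff_sub, coeff_X, coeff_C]
    refine A.sub_mem ?_ ?_
    · split_ifs
      · exact A.one_mem
      · exact A.zero_mem
    · split_ifs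
      · exact hc
      · exact A.zero_mem
  · rw [coeff_sub, coeff_X_one, coeff_C, if_neg one_ne_zero, sub_zero, map_one]

theorem isPrim_one_sub_C_mul_X {c : L} (hc : c ∈ A) : IsPrim A (1 - C c * X) := by
  refine ⟨fun j => ?_, 0, ?_⟩
  · rw [coeff_sub, coeff_one, coeff_C_mul, coeff_X]
    refine A.sub_mem ?_ (A.mul_mem _ _ hc ?_)
    · split_ifs
      · exact A.one_mem
      · exact A.zero_mem
    · split_ifs
      · exact A.one_mem
      · exact A.zero_mem
  · rw [coeff_sub, coeff_one_zero, coeff_C_mul, coeff_X_zero, mul_zero, sub_zero, map_one]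

end IntPrim

section Span

variable {t : F} {n : ℕ}

theorem zero_mem_spanL (β : Fin n → F) : (0 : F) ∈ spanL L t β :=
  ⟨0, by simp⟩

theorem add_mem_spanL {β : Fin n → F} {y y' : F} (hy : y ∈ spanL L t β)
    (hy' : y' ∈ spanL L t β) : y + y' ∈ spanL L t β := by
  obtain ⟨f, rfl⟩ := hy
  obtain ⟨g, rfl⟩ := hy'
  refine ⟨f + g, ?_⟩
  rw [← Finset.sum_add_distrib]
  refine Finset.sum_congr rfl fun i _ => ?_
  rw [Pi.add_apply, map_add, add_mul]

theorem smul_mem_spanL {β : Fin n → F} (s : L[X]) {y : F} (hy : y ∈ spanL L t β) :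
    aeval t s * y ∈ spanL L t β := by
  obtain ⟨f, rfl⟩ := hy
  refine ⟨fun i => s * f i, ?_⟩
  rw [Finset.mul_sum]
  refine Finset.sum_congr rfl fun i _ => ?_
  rw [map_mul, mul_assoc]

theorem self_mem_spanL (β : Fin n → F) (i : Fin n) : β i ∈ spanL L t β := by
  refine ⟨Pi.single i 1, ?_⟩
  rw [Finset.sum_eq_single i]
  · rw [Pi.single_eq_same, map_one, one_mul]
  · intro j _ hj
    rw [Pi.single_eq_of_ne hj, map_zero, zero_mul]
  · intro h
    exact absurd (Finset.mem_univ i) h

theorem sum_mem_spanL {β : Fin n → F} {ι : Type*} (s : Finset ι) (g : ι → F)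
    (h : ∀ i ∈ s, g i ∈ spanL L t β) : ∑ i ∈ s, g i ∈ spanL L t β := by
  classical
  induction s using Finset.induction_on with
  | empty =>
    rw [Finset.sum_empty]
    exact zero_mem_spanL β
  | insert i s hi ih =>
    rw [Finset.sum_insert hi]
    exact add_mem_spanL (h i (Finset.mem_insert_self i s))
      (ih fun j hj => h j (Finset.mem_insert_of_mem hj))

theorem spanL_subset {β β' : Fin n → F} (h : ∀ i, β i ∈ spanL L t β') :
    spanL L t β ⊆ spanL L t β' := by
  rintro y ⟨f, rfl⟩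
  exact sum_mem_spanL _ _ fun i _ => smul_mem_spanL (f i) (h i)

/-- Composition of coefficient matrices. -/
theorem sum_mul_matrix (P E : Matrix (Fin n) (Fin n) L[X]) (β β' : Fin n → F)
    (hE : ∀ j, β j = ∑ k, aeval t (E j k) * β' k) (i : Fin n) :
    ∑ j, aeval t (P i j) * β j = ∑ k, aeval t ((P * E) i k) * β' k := by
  simp only [Matrix.mul_apply, map_sum, map_mul, Finset.sum_mul]
  rw [Finset.sum_comm]
  refine Finset.sum_congr rfl fun j _ => ?_
  rw [hE j, Finset.mul_sum]
  refine Finset.sum_congr rfl fun k _ => ?_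
  ring

end Span

section Gauss

variable {A : ValuationSubring L} {O : ValuationSubring F} {t : F}

/-- In a Gauss setting `t` is transcendental over `L`. -/
theorem aeval_ne_zero (hG : GaussSetting A O t) {f : L[X]} (hf : f ≠ 0) : aeval t f ≠ 0 := by
  obtain ⟨a, -, hprim, -⟩ := exists_prim_scaling A f hf
  intro h0
  have h1 := hG.prim _ hprim
  rw [map_mul, h0, mul_zero, map_zero] at h1
  exact zero_ne_one h1

theorem aeval_mem_of_isPrim (hG : GaussSetting A O t) {f : L[X]} (hf : IsPrim A f) :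
    aeval t f ∈ O :=
  (O.valuation_le_one_iff _).mp (le_of_eq (hG.prim f hf))

end Gauss

section Improve

variable {A : ValuationSubring L} {O : ValuationSubring F} {t : F} {n : ℕ}

theorem det_updateRow_one {R : Type*} [CommRing R] (i₀ : Fin n) (c : Fin n → R) :
    ((1 : Matrix (Fin n) (Fin n) R).updateRow i₀ c).det = c i₀ := by
  have h : c = ∑ k, c k • (1 : Matrix (Fin n) (Fin n) R) k := by
    funext j
    rw [Finset.sum_apply]
    simp [Matrix.one_apply]
  have h2 := Matrix.det_updateRow_sum (1 : Matrix (Fin n) (Fin n) R) i₀ c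
  rw [← h] at h2
  rw [h2, Matrix.det_one, smul_eq_mul, mul_one]

theorem sum_split (i₀ : Fin n) (g : Fin n → F) :
    ∑ j, g j = g i₀ + ∑ j ∈ Finset.univ.erase i₀, g j :=
  (Finset.add_sum_erase _ g (Finset.mem_univ i₀)).symm

/-- A primitive linear polynomial vanishing at `c`. -/
theorem exists_prim_linear (A : ValuationSubring L) (c : L) :
    ∃ (lam : L[X]) (κ : L), κ ≠ 0 ∧ lam = C κ * (X - C c) ∧ IsPrim A lam := by
  by_cases hc : c ∈ A
  · exact ⟨X - C c, 1, one_ne_zero, by rw [C_1, one_mul], isPrim_X_sub_C hc⟩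
  · have hc0 : c ≠ 0 := fun h => hc (h ▸ A.zero_mem)
    have hinv : c⁻¹ ∈ A := (A.mem_or_inv_mem c).resolve_left hc
    refine ⟨1 - C c⁻¹ * X, -c⁻¹, neg_ne_zero.mpr (inv_ne_zero hc0), ?_,
      isPrim_one_sub_C_mul_X hinv⟩
    have e : C (c⁻¹) * C c = (1 : L[X]) := by rw [← C_mul, inv_mul_cancel₀ hc0, C_1]
    rw [C_neg, neg_mul, mul_sub, e]
    ring

/-- The exchange step keeps orthonormality. -/
theorem isON_update (hG : GaussSetting A O t) {β : Fin n → F} (hβ : IsON A O t β)
    (i₀ : Fin n) (a : Fin n → L) (ha : ∀ i, a i ∈ A) (ha0 : a i₀ = 1) (lam : L[X])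
    (hlam : IsPrim A lam) (w : F)
    (hw : aeval t lam * w = ∑ i, algebraMap L F (a i) * β i) :
    IsON A O t (Function.update β i₀ w) := by
  have hlamO : aeval t lam ∈ O := aeval_mem_of_isPrim hG hlam
  have hsumO : ∑ i, algebraMap L F (a i) * β i ∈ O :=
    sum_mem fun i _ => O.mul_mem _ _ ((hG.const_mem _).mpr (ha i)) (hβ.mem i)
  have hw' : aeval t lam * w
      = β i₀ + ∑ j ∈ Finset.univ.erase i₀, algebraMap L F (a j) * β j := by
    rw [hw, sum_split i₀, ha0, map_one, one_mul]
  refine ⟨fun i => ?_, fun f hf => ?_⟩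
  · by_cases hi : i = i₀
    · rw [hi, Function.update_self, ← O.valuation_le_one_iff]
      have h1 : O.valuation (aeval t lam * w) ≤ 1 := by
        rw [hw]
        exact (O.valuation_le_one_iff _).mpr hsumO
      rwa [map_mul, hG.prim lam hlam, one_mul] at h1
    · rw [Function.update_of_ne hi]
      exact hβ.mem i
  · have key : ∑ j, aeval t (if j = i₀ then f i₀ else lam * f j + C (a j) * f i₀) * β j
        = aeval t lam * ∑ j, aeval t (f j) * Function.update β i₀ w j := by
      rw [sum_split i₀, sum_split i₀ (fun j => aeval t (f j) * Function.update β i₀ w j)]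
      have e1 : ∑ j ∈ Finset.univ.erase i₀,
            aeval t (if j = i₀ then f i₀ else lam * f j + C (a j) * f i₀) * β j
          = ∑ j ∈ Finset.univ.erase i₀, (aeval t lam * (aeval t (f j) * β j)
              + aeval t (f i₀) * (algebraMap L F (a j) * β j)) := by
        refine Finset.sum_congr rfl fun j hj => ?_
        rw [if_neg (Finset.ne_of_mem_erase hj), map_add, map_mul, map_mul, aeval_C]
        ring
      have e2 : ∑ j ∈ Finset.univ.erase i₀, aeval t (f j) * Function.update β i₀ w j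
          = ∑ j ∈ Finset.univ.erase i₀, aeval t (f j) * β j := by
        refine Finset.sum_congr rfl fun j hj => ?_
        rw [Function.update_of_ne (Finset.ne_of_mem_erase hj)]
      rw [e1, e2, if_pos rfl, Function.update_self, Finset.sum_add_distrib, ← Finset.mul_sum,
        ← Finset.mul_sum, mul_add, ← mul_assoc, mul_comm (aeval t lam) (aeval t (f i₀)),
        mul_assoc, hw']
      ring
    have hO : ∑ j, aeval t (if j = i₀ then f i₀ else lam * f j + C (a j) * f i₀) * β j ∈ O := by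
      rw [key]
      exact O.mul_mem _ _ hlamO hf
    have hF := hβ.coeff _ hO
    have hf0 : IsInt A (f i₀) := by
      have h1 := hF i₀
      rwa [if_pos rfl] at h1
    intro i
    by_cases hi : i = i₀
    · rw [hi]
      exact hf0
    · have h1 := hF i
      rw [if_neg hi] at h1
      have h2 : IsInt A (lam * f i) := by
        have h3 := isInt_sub h1 (isInt_C_mul (ha i) hf0)
        rwa [add_sub_cancel_right] at h3
      exact isInt_of_mul_prim A hlam h2

/-- The old family in terms of the new one. -/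
theorem eq_sum_updateRow (β : Fin n → F) (i₀ : Fin n) (a : Fin n → L) (ha0 : a i₀ = 1)
    (lam : L[X]) (w : F) (hw : aeval t lam * w = ∑ i, algebraMap L F (a i) * β i) (j : Fin n) :
    β j = ∑ k, aeval t (((1 : Matrix (Fin n) (Fin n) L[X]).updateRow i₀
      (fun k => if k = i₀ then lam else - C (a k))) j k) * Function.update β i₀ w k := by
  by_cases hj : j = i₀
  · subst hj
    simp only [Matrix.updateRow_self]
    rw [sum_split j, if_pos rfl, Function.update_self, hw, sum_split j, ha0, map_one, one_mul]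
    have e : ∑ k ∈ Finset.univ.erase j, aeval t (if k = j then lam else - C (a k))
          * Function.update β j w k
        = - ∑ k ∈ Finset.univ.erase j, algebraMap L F (a k) * β k := by
      rw [← Finset.sum_neg_distrib]
      refine Finset.sum_congr rfl fun k hk => ?_
      rw [if_neg (Finset.ne_of_mem_erase hk), Function.update_of_ne (Finset.ne_of_mem_erase hk),
        map_neg, aeval_C, neg_mul]
    rw [e]
    ring
  · simp only [Matrix.updateRow_ne hj]
    rw [Finset.sum_eq_single j]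
    · rw [Matrix.one_apply_eq, map_one, one_mul, Function.update_of_ne hj]
    · intro k _ hk
      rw [Matrix.one_apply_ne (Ne.symm hk), map_zero, zero_mul]
    · intro h
      exact absurd (Finset.mem_univ j) h

end Improve

section Good

variable {A : ValuationSubring L} {O : ValuationSubring F} {t : F} {n : ℕ}

/-- A good pair: an orthonormal generating family `β` inside `ML` together with a matrix
expressing `s₁ • b₀` in terms of `β`. -/
def Good (A : ValuationSubring L) (O : ValuationSubring F) (t : F) {n : ℕ} (b₀ : Fin n → F)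
    (ML : Set F) (s₁ : L[X]) (β : Fin n → F) (P : Matrix (Fin n) (Fin n) L[X]) : Prop :=
  IsON A O t β ∧ IsGen L t β ∧ (∀ i, β i ∈ ML) ∧
    ∀ i, aeval t s₁ * b₀ i = ∑ j, aeval t (P i j) * β j

/-- Step 1: a good pair exists. -/
theorem exists_good (hG : GaussSetting A O t) (b₀ : Fin n → F) (hON : IsON A O t b₀)
    (hgen : IsGen L t b₀) (ML : Set F)
    (hsmul : ∀ (f : L[X]) (y : F), y ∈ ML → aeval t f * y ∈ ML)
    (s₁ : L[X]) (hs₁ : s₁ ≠ 0) (h1 : ∀ i, aeval t s₁ * b₀ i ∈ ML) :
    ∃ β P, Good A O t b₀ ML s₁ β P := by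
  obtain ⟨a, ha, hprim, -⟩ := exists_prim_scaling A s₁ hs₁
  refine ⟨fun i => aeval t (C a * s₁) * b₀ i, Matrix.diagonal fun _ => C a⁻¹,
    ⟨fun i => O.mul_mem _ _ (aeval_mem_of_isPrim hG hprim) (hON.mem i), fun f hf i => ?_⟩,
    fun y => ?_, fun i => ?_, fun i => ?_⟩
  · have e : ∑ k, aeval t (f k) * (aeval t (C a * s₁) * b₀ k)
        = ∑ k, aeval t (C a * s₁ * f k) * b₀ k := by
      refine Finset.sum_congr rfl fun k _ => ?_
      rw [map_mul (aeval t) (C a * s₁) (f k)]
      ring
    rw [e] at hf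
    exact isInt_of_mul_prim A hprim (hON.coeff _ hf i)
  · obtain ⟨s, hs, g, hg⟩ := hgen y
    refine ⟨s * (C a * s₁), mul_ne_zero hs (isPrim_ne_zero hprim), g, ?_⟩
    rw [map_mul, mul_assoc, mul_comm (aeval t (C a * s₁)) y, ← mul_assoc, hg, Finset.sum_mul]
    refine Finset.sum_congr rfl fun k _ => ?_
    ring
  · show aeval t (C a * s₁) * b₀ i ∈ ML
    rw [map_mul, mul_assoc]
    exact hsmul (C a) _ (h1 i)
  · rw [Finset.sum_eq_single i]
    · rw [Matrix.diagonal_apply_eq, map_mul, aeval_C, aeval_C, ← mul_assoc, ← mul_assoc,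
        ← map_mul, inv_mul_cancel₀ ha, map_one, one_mul]
    · intro j _ hj
      rw [Matrix.diagonal_apply_ne _ (Ne.symm hj), map_zero, zero_mul]
    · intro h
      exact absurd (Finset.mem_univ i) h

/-- Step 2: the determinant of a good pair is nonzero of bounded degree. -/
theorem good_det (hAL : ∃ a : L, a ∉ A) {b₀ : Fin n → F} (hON : IsON A O t b₀) {ML : Set F}
    {s₁ s₂ : L[X]} (hs₁ : s₁ ≠ 0) (hs₂ : s₂ ≠ 0)
    (h2 : ∀ y ∈ ML, aeval t s₂ * y ∈ spanL L t b₀)
    {β : Fin n → F} {P : Matrix (Fin n) (Fin n) L[X]} (h : Good A O t b₀ ML s₁ β P) :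
    P.det ≠ 0 ∧ P.det.natDegree ≤ n * (s₁ * s₂).natDegree := by
  have hind : IsIndep L t b₀ := hON.isIndep hAL
  choose Q hQ using fun j => h2 (β j) (h.2.2.1 j)
  have hPQ : P * Matrix.of Q = (s₁ * s₂) • (1 : Matrix (Fin n) (Fin n) L[X]) := by
    refine Matrix.ext fun i k => ?_
    have e1 : ∑ k, aeval t ((P * Matrix.of Q) i k) * b₀ k = aeval t (s₁ * s₂) * b₀ i := by
      rw [← sum_mul_matrix P (Matrix.of Q) (fun j => aeval t s₂ * β j) b₀ (fun j => hQ j) i]
      have e : ∑ j, aeval t (P i j) * (aeval t s₂ * β j)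
          = aeval t s₂ * ∑ j, aeval t (P i j) * β j := by
        rw [Finset.mul_sum]
        refine Finset.sum_congr rfl fun j _ => ?_
        ring
      rw [e, ← h.2.2.2 i, map_mul]
      ring
    have e2 : ∑ k, aeval t (((s₁ * s₂) • (1 : Matrix (Fin n) (Fin n) L[X])) i k) * b₀ k
        = aeval t (s₁ * s₂) * b₀ i := by
      rw [Finset.sum_eq_single i]
      · rw [Matrix.smul_apply, Matrix.one_apply_eq, smul_eq_mul, mul_one]
      · intro j _ hj
        rw [Matrix.smul_apply, Matrix.one_apply_ne (Ne.symm hj), smul_zero, map_zero, zero_mul]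
      · intro h'
        exact absurd (Finset.mem_univ i) h'
    have e3 := hind (fun k => (P * Matrix.of Q) i k
      - ((s₁ * s₂) • (1 : Matrix (Fin n) (Fin n) L[X])) i k) (by
        simp only [map_sub, sub_mul, Finset.sum_sub_distrib]
        rw [e1, e2, sub_self])
    exact sub_eq_zero.mp (congrFun e3 k)
  have hdet : P.det * (Matrix.of Q).det = (s₁ * s₂) ^ n := by
    rw [← Matrix.det_mul, hPQ, Matrix.det_smul, Matrix.det_one, mul_one, Fintype.card_fin]
  have hne : (s₁ * s₂) ^ n ≠ 0 := pow_ne_zero n (mul_ne_zero hs₁ hs₂)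
  have hP : P.det ≠ 0 := fun h0 => hne (by rw [← hdet, h0, zero_mul])
  have hQ0 : (Matrix.of Q).det ≠ 0 := fun h0 => hne (by rw [← hdet, h0, mul_zero])
  refine ⟨hP, ?_⟩
  have h3 : (P.det * (Matrix.of Q).det).natDegree = n * (s₁ * s₂).natDegree := by
    rw [hdet, natDegree_pow]
  rw [natDegree_mul hP hQ0] at h3
  omega

theorem sum_mem_ML {ML : Set F} (hadd : ∀ y y', y ∈ ML → y' ∈ ML → y + y' ∈ ML)
    (h0 : (0 : F) ∈ ML) {ι : Type*} (s : Finset ι) (g : ι → F) (h : ∀ i ∈ s, g i ∈ ML) :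
    ∑ i ∈ s, g i ∈ ML := by
  classical
  induction s using Finset.induction_on with
  | empty =>
    rw [Finset.sum_empty]
    exact h0
  | insert i s hi ih =>
    rw [Finset.sum_insert hi]
    exact hadd _ _ (h i (Finset.mem_insert_self i s))
      (ih fun j hj => h j (Finset.mem_insert_of_mem hj))

end Good

section Step

variable {A : ValuationSubring L} {O : ValuationSubring F} {t : F} {n : ℕ}

/-- Step 3: if `ML` is not contained in the span of a good family, there is a good family whose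
determinant has larger degree. -/
theorem good_improve [IsAlgClosed L] (hG : GaussSetting A O t) {b₀ : Fin n → F} {ML : Set F}
    (hadd : ∀ y y', y ∈ ML → y' ∈ ML → y + y' ∈ ML)
    (hsmul : ∀ (f : L[X]) (y : F), y ∈ ML → aeval t f * y ∈ ML) {s₁ : L[X]}
    {β : Fin n → F} {P : Matrix (Fin n) (Fin n) L[X]} (h : Good A O t b₀ ML s₁ β P)
    (hP : P.det ≠ 0) (y : F) (hy : y ∈ ML) (hyβ : y ∉ spanL L t β) :
    ∃ β' P', Good A O t b₀ ML s₁ β' P' ∧ P'.det.natDegree = P.det.natDegree + 1 := by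
  classical
  have h0 : (0 : F) ∈ ML := by
    have h' := hsmul 0 y hy
    rwa [map_zero, zero_mul] at h'
  have hneg : ∀ z ∈ ML, -z ∈ ML := fun z hz => by
    have h' := hsmul (C (-1)) z hz
    rwa [aeval_C, map_neg, map_one, neg_one_mul] at h'
  -- a denominator of minimal degree
  have hex : ∃ m, ∃ d : L[X], d ≠ 0 ∧ d.natDegree = m ∧ aeval t d * y ∈ spanL L t β := by
    obtain ⟨d, hd, hdy⟩ := h.2.1 y
    exact ⟨_, d, hd, rfl, hdy⟩
  obtain ⟨d, hd0, hdm, hdy⟩ := Nat.find_spec hex
  have hmin : ∀ d' : L[X], d' ≠ 0 → aeval t d' * y ∈ spanL L t β →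
      d.natDegree ≤ d'.natDegree := fun d' h0' h' => by
    rw [hdm]
    exact Nat.find_min' hex ⟨d', h0', rfl, h'⟩
  obtain ⟨g, hg⟩ := hdy
  -- its degree is positive
  have hnd : d.natDegree ≠ 0 := by
    intro hnd
    obtain ⟨e, he⟩ : ∃ e, d = C e := ⟨_, eq_C_of_natDegree_eq_zero hnd⟩
    have he0 : e ≠ 0 := fun h' => hd0 (by rw [he, h', C_0])
    apply hyβ
    have h' := smul_mem_spanL (C e⁻¹) (⟨g, hg⟩ : aeval t d * y ∈ spanL L t β)
    rwa [he, aeval_C, aeval_C, ← mul_assoc, ← map_mul, inv_mul_cancel₀ he0, map_one,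
      one_mul] at h'
  -- a root
  have hdeg : d.degree ≠ 0 := fun h' =>
    hnd (natDegree_eq_zero_iff_degree_le_zero.mpr (le_of_eq h'))
  obtain ⟨c, hc⟩ := IsAlgClosed.exists_root d hdeg
  obtain ⟨d₁, hd₁⟩ := dvd_iff_isRoot.mpr hc
  have hd₁0 : d₁ ≠ 0 := fun h' => hd0 (by rw [hd₁, h', mul_zero])
  have hdeg₁ : d.natDegree = d₁.natDegree + 1 := by
    rw [hd₁, natDegree_mul (X_sub_C_ne_zero c) hd₁0, natDegree_X_sub_C, add_comm]
  -- division of the coefficients by `X - c`
  obtain ⟨q, a, hgq⟩ : ∃ (q : Fin n → L[X]) (a : Fin n → L), ∀ i,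
      aeval t (g i) = algebraMap L F (a i) + aeval t (X - C c) * aeval t (q i) := by
    refine ⟨fun i => g i /ₘ (X - C c), fun i => (g i).eval c, fun i => ?_⟩
    have e := modByMonic_add_div (g i) (X - C c)
    rw [modByMonic_X_sub_C_eq_C_eval] at e
    have e' := congrArg (aeval t) e
    rw [map_add, aeval_C, map_mul] at e'
    exact e'.symm
  obtain ⟨y', hy'def⟩ : ∃ y' : F, y' = aeval t d₁ * y - ∑ i, aeval t (q i) * β i := ⟨_, rfl⟩
  have hy'ML : y' ∈ ML := by
    rw [hy'def, sub_eq_add_neg]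
    exact hadd _ _ (hsmul d₁ y hy)
      (hneg _ (sum_mem_ML hadd h0 _ _ fun i _ => hsmul _ _ (h.2.2.1 i)))
  have hy'eq : aeval t (X - C c) * y' = ∑ i, algebraMap L F (a i) * β i := by
    rw [hy'def, mul_sub, ← mul_assoc, ← map_mul, ← hd₁, hg, Finset.mul_sum,
      ← Finset.sum_sub_distrib]
    refine Finset.sum_congr rfl fun i _ => ?_
    rw [hgq i]
    ring
  have hXc : aeval t (X - C c) ≠ 0 := aeval_ne_zero hG (X_sub_C_ne_zero c)
  -- the vector `a` is nonzero
  have ha : ∃ i, a i ≠ 0 := by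
    by_contra hcon
    have ha0 : ∀ i, a i = 0 := fun i => by_contra fun hi => hcon ⟨i, hi⟩
    have hy'0 : y' = 0 := by
      have h' : aeval t (X - C c) * y' = 0 := by
        rw [hy'eq]
        exact Finset.sum_eq_zero fun i _ => by rw [ha0 i, map_zero, zero_mul]
      exact (mul_eq_zero.mp h').resolve_left hXc
    have hmem : aeval t d₁ * y ∈ spanL L t β := by
      rw [hy'def] at hy'0
      exact ⟨q, sub_eq_zero.mp hy'0⟩
    have h' := hmin d₁ hd₁0 hmem
    omega
  -- the entry of maximal valuation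
  obtain ⟨i₁, hi₁⟩ := ha
  obtain ⟨i₀, -, hmax⟩ := Finset.exists_max_image Finset.univ (fun i => A.valuation (a i))
    ⟨i₁, Finset.mem_univ i₁⟩
  have hai₀ : a i₀ ≠ 0 := by
    intro h'
    have h3 := hmax i₁ (Finset.mem_univ i₁)
    rw [h', map_zero] at h3
    exact hi₁ ((Valuation.zero_iff _).mp (le_antisymm h3 zero_le))
  have hv0 : 0 < A.valuation (a i₀) := zero_lt_iff.mpr ((Valuation.ne_zero_iff _).mpr hai₀)
  obtain ⟨a', ha'def⟩ : ∃ a' : Fin n → L, a' = fun i => a i / a i₀ := ⟨_, rfl⟩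
  have ha'A : ∀ i, a' i ∈ A := fun i => by
    rw [ha'def, ← A.valuation_le_one_iff, map_div₀, div_le_one₀ hv0]
    exact hmax i (Finset.mem_univ i)
  have ha'0 : a' i₀ = 1 := by
    rw [ha'def]
    exact div_self hai₀
  obtain ⟨lam, κ, hκ, hlam, hlamP⟩ := exists_prim_linear A c
  obtain ⟨w, hwdef⟩ : ∃ w : F, w = aeval t (C (κ⁻¹ * (a i₀)⁻¹)) * y' := ⟨_, rfl⟩
  have hwML : w ∈ ML := by
    rw [hwdef]
    exact hsmul _ _ hy'ML
  have hw : aeval t lam * w = ∑ i, algebraMap L F (a' i) * β i := by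
    have e1 : aeval t lam = algebraMap L F κ * aeval t (X - C c) := by
      rw [hlam, map_mul, aeval_C]
    have e2 : w = algebraMap L F (κ⁻¹ * (a i₀)⁻¹) * y' := by rw [hwdef, aeval_C]
    have e3 : κ * (κ⁻¹ * (a i₀)⁻¹) = (a i₀)⁻¹ := by
      rw [← mul_assoc, mul_inv_cancel₀ hκ, one_mul]
    calc aeval t lam * w
        = algebraMap L F (κ * (κ⁻¹ * (a i₀)⁻¹)) * (aeval t (X - C c) * y') := by
          rw [e1, e2, map_mul (algebraMap L F) κ]
          ring
      _ = algebraMap L F (a i₀)⁻¹ * ∑ i, algebraMap L F (a i) * β i := by rw [hy'eq, e3]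
      _ = ∑ i, algebraMap L F (a' i) * β i := by
          rw [Finset.mul_sum]
          refine Finset.sum_congr rfl fun i _ => ?_
          rw [← mul_assoc, ← map_mul, ha'def]
          simp only [div_eq_inv_mul]
  have hON' : IsON A O t (Function.update β i₀ w) :=
    isON_update hG h.1 i₀ a' ha'A ha'0 lam hlamP w hw
  have hE := eq_sum_updateRow β i₀ a' ha'0 lam w hw
  have hsub : spanL L t β ⊆ spanL L t (Function.update β i₀ w) :=
    spanL_subset fun j => ⟨_, hE j⟩
  refine ⟨Function.update β i₀ w, P * (1 : Matrix (Fin n) (Fin n) L[X]).updateRow i₀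
      (fun k => if k = i₀ then lam else - C (a' k)), ⟨hON', fun z => ?_, fun i => ?_, fun i => ?_⟩,
      ?_⟩
  · obtain ⟨s, hs, hz⟩ := h.2.1 z
    exact ⟨s, hs, hsub hz⟩
  · by_cases hi : i = i₀
    · rw [hi, Function.update_self]
      exact hwML
    · rw [Function.update_of_ne hi]
      exact h.2.2.1 i
  · rw [h.2.2.2 i]
    exact sum_mul_matrix P _ β (Function.update β i₀ w) hE i
  · rw [Matrix.det_mul, det_updateRow_one, if_pos rfl,
      natDegree_mul hP (isPrim_ne_zero hlamP), hlam, natDegree_C_mul hκ, natDegree_X_sub_C]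

end Step

end

end Fermat.Agent.Lib.RedKLattice

namespace Fermat.Agent.Lib.RedK

open Polynomial

variable {L F : Type*} [Field L] [Field F] [Algebra L F]

/-- **The lattice lemma**: in a Gauss setting with an orthonormal family `b₀` generating `F` up to
denominators, every `L[t]`-submodule `ML` of `F` commensurable with the span of `b₀` is contained
in the span of an orthonormal generating family `β` lying in `ML`. -/
theorem exists_good_basis [IsAlgClosed L] (A : ValuationSubring L) (O : ValuationSubring F)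
    (t : F) (hG : GaussSetting A O t) (hAL : ∃ a : L, a ∉ A) {n : ℕ} (b₀ : Fin n → F)
    (hON : IsON A O t b₀) (hgen : IsGen L t b₀) (ML : Set F)
    (hadd : ∀ y y', y ∈ ML → y' ∈ ML → y + y' ∈ ML)
    (hsmul : ∀ (f : L[X]) (y : F), y ∈ ML → aeval t f * y ∈ ML)
    (h1 : ∃ s : L[X], s ≠ 0 ∧ ∀ i, aeval t s * b₀ i ∈ ML)
    (h2 : ∃ s : L[X], s ≠ 0 ∧ ∀ y ∈ ML, aeval t s * y ∈ spanL L t b₀) :
    ∃ β : Fin n → F, IsON A O t β ∧ IsGen L t β ∧ (∀ i, β i ∈ ML) ∧ ML ⊆ spanL L t β := by
  obtain ⟨s₁, hs₁, h1⟩ := h1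
  obtain ⟨s₂, hs₂, h2⟩ := h2
  let S : Set ℕ := {m | ∃ β P, RedKLattice.Good A O t b₀ ML s₁ β P ∧ P.det.natDegree = m}
  have hSne : S.Nonempty := by
    obtain ⟨β, P, hgood⟩ := RedKLattice.exists_good hG b₀ hON hgen ML hsmul s₁ hs₁ h1
    exact ⟨_, β, P, hgood, rfl⟩
  have hSbdd : BddAbove S := by
    refine ⟨n * (s₁ * s₂).natDegree, ?_⟩
    rintro m ⟨β, P, hgood, rfl⟩
    exact (RedKLattice.good_det hAL hON hs₁ hs₂ h2 hgood).2
  obtain ⟨β, P, hgood, hdeg⟩ := Nat.sSup_mem hSne hSbdd
  refine ⟨β, hgood.1, hgood.2.1, hgood.2.2.1, fun y hy => ?_⟩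
  by_contra hyβ
  obtain ⟨β', P', hgood', hdeg'⟩ := RedKLattice.good_improve hG hadd hsmul hgood
    (RedKLattice.good_det hAL hON hs₁ hs₂ h2 hgood).1 y hy hyβ
  have hle : P'.det.natDegree ≤ sSup S := le_csSup hSbdd ⟨β', P', hgood', rfl⟩
  omega

end Fermat.Agent.Lib.RedK
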