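/-
RED-K3 (helper78, task 252): the LOCAL INDEX in characteristic `0`.

`B = IntL L t` (integral closure of `L[t]` in `F`) with `L[t]`-basis `b`;
`M = {y | y ^ p * h ∈ B}` with `L[t]`-basis `β`; `y₀ ≠ 0`;
`P` = matrix of `y₀ • b` in `β`, `R` = matrix of multiplication by `y₀ ^ p * h` on `b`.
If `h * g ^ p` is a unit at `c` (`s₃ * u`, `s₄ * u⁻¹` integral with `s₃ c ≠ 0 ≠ s₄ c`), then

  `rootMultiplicity c (det R) = p * rootMultiplicity c (det P)`.

Pure algebra with polynomial matrices; a matrix `Q` over `L[X]` acts on a family `v : Fin n → F`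
by `(evM t n Q).mulVec v`, i.e. `(Q · v) i = ∑ j, aeval t (Q i j) * v j`.
-/
import Mathlib
import Fermat.Agent.Lib.RedK.Defs

set_option autoImplicit false

namespace Fermat.Agent.Lib.RedK

open Polynomial

noncomputable section

variable {L F : Type*} [Field L] [Field F] [Algebra L F]

namespace LocalIndex

/-- Evaluation at `t` of polynomial matrices, as a ring homomorphism. -/
def evM (t : F) (n : ℕ) : Matrix (Fin n) (Fin n) L[X] →+* Matrix (Fin n) (Fin n) F :=
  ((aeval t : L[X] →ₐ[L] F) : L[X] →+* F).mapMatrix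

theorem evM_apply (t : F) {n : ℕ} (Q : Matrix (Fin n) (Fin n) L[X]) (i j : Fin n) :
    evM t n Q i j = aeval t (Q i j) := rfl

theorem evM_mulVec_apply (t : F) {n : ℕ} (Q : Matrix (Fin n) (Fin n) L[X]) (v : Fin n → F)
    (i : Fin n) : (evM t n Q).mulVec v i = ∑ j, aeval t (Q i j) * v j := rfl

theorem evM_smul (t : F) {n : ℕ} (s : L[X]) (Q : Matrix (Fin n) (Fin n) L[X]) :
    evM t n (s • Q) = aeval t s • evM t n Q := by
  ext i j
  rw [evM_apply, Matrix.smul_apply, Matrix.smul_apply, evM_apply, smul_eq_mul, smul_eq_mul,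
    map_mul]

/-- The action of `s • Q` on a family. -/
theorem evM_smul_mulVec (t : F) {n : ℕ} (s : L[X]) (Q : Matrix (Fin n) (Fin n) L[X])
    (v : Fin n → F) : (evM t n (s • Q)).mulVec v = aeval t s • (evM t n Q).mulVec v := by
  rw [evM_smul, Matrix.smul_mulVec]

/-- Two polynomial matrices acting in the same way on an independent family are equal. -/
theorem eq_of_mulVec_eq {t : F} {n : ℕ} {v : Fin n → F} (hv : IsIndep L t v)
    {Q Q' : Matrix (Fin n) (Fin n) L[X]}
    (h : (evM t n Q).mulVec v = (evM t n Q').mulVec v) : Q = Q' := by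
  refine Matrix.ext fun i j => ?_
  have h0 : ∑ j, aeval t (Q i j - Q' i j) * v j = 0 := by
    have e := congrFun h i
    rw [evM_mulVec_apply, evM_mulVec_apply] at e
    simp only [map_sub, sub_mul, Finset.sum_sub_distrib]
    rw [e, sub_self]
  have h1 := congrFun (hv (fun j => Q i j - Q' i j) h0) j
  exact sub_eq_zero.mp h1

/-- A family in the span of `v` is `Q · v` for a polynomial matrix `Q`. -/
theorem exists_matrix {t : F} {n : ℕ} {v w : Fin n → F} (h : ∀ i, w i ∈ spanL L t v) :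
    ∃ Q : Matrix (Fin n) (Fin n) L[X], (evM t n Q).mulVec v = w := by
  choose f hf using h
  refine ⟨Matrix.of f, ?_⟩
  funext i
  rw [evM_mulVec_apply]
  exact (hf i).symm

theorem self_mem_spanL (t : F) {n : ℕ} (v : Fin n → F) (i : Fin n) : v i ∈ spanL L t v := by
  classical
  refine ⟨Pi.single i 1, ?_⟩
  rw [Finset.sum_eq_single i]
  · simp
  · intro j _ hj
    simp [hj]
  · intro h
    exact absurd (Finset.mem_univ i) h

theorem aeval_mem_IntL (t : F) (f : L[X]) : aeval t f ∈ IntL L t := by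
  show IsIntegral (Algebra.adjoin L ({t} : Set F)) (aeval t f)
  have hmem : aeval t f ∈ Algebra.adjoin L ({t} : Set F) := aeval_mem_adjoin_singleton L t
  exact isIntegral_algebraMap (R := Algebra.adjoin L ({t} : Set F)) (x := ⟨aeval t f, hmem⟩)

/-- `IntL L t` is closed under `p`-th roots. -/
theorem mem_IntL_of_pow {t : F} {p : ℕ} (hp : 0 < p) {z : F} (hz : z ^ p ∈ IntL L t) :
    z ∈ IntL L t :=
  IsIntegral.of_pow hp hz

/-- If `M · w = c • v` with `v` independent and `c ≠ 0`, then `det M ≠ 0`. -/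
theorem det_ne_zero_of_mulVec {t : F} {n : ℕ} {v w : Fin n → F} (hv : IsIndep L t v) {c : F}
    (hc : c ≠ 0) {M : Matrix (Fin n) (Fin n) L[X]} (h : (evM t n M).mulVec w = c • v) :
    M.det ≠ 0 := by
  classical
  intro hdet
  obtain ⟨f, hf0, hf⟩ := Matrix.exists_vecMul_eq_zero_iff.mpr hdet
  apply hf0
  apply hv f
  have key : c * ∑ i, aeval t (f i) * v i = 0 := by
    have e1 : c * ∑ i, aeval t (f i) * v i = ∑ i, aeval t (f i) * (c • v) i := by
      rw [Finset.mul_sum]
      refine Finset.sum_congr rfl fun i _ => ?_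
      rw [Pi.smul_apply, smul_eq_mul]
      ring
    have e2 : ∑ i, aeval t (f i) * (c • v) i
        = ∑ j, (∑ i, aeval t (f i) * aeval t (M i j)) * w j := by
      rw [← h]
      simp only [evM_mulVec_apply, Finset.mul_sum, Finset.sum_mul]
      rw [Finset.sum_comm]
      refine Finset.sum_congr rfl fun j _ => Finset.sum_congr rfl fun i _ => ?_
      ring
    have e3 : ∀ j, ∑ i, aeval t (f i) * aeval t (M i j) = 0 := by
      intro j
      have e := congrFun hf j
      simp only [Matrix.vecMul, dotProduct, Pi.zero_apply] at e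
      rw [← map_zero (aeval t : L[X] →ₐ[L] F), ← e, map_sum]
      refine Finset.sum_congr rfl fun i _ => ?_
      rw [map_mul]
    rw [e1, e2]
    simp only [e3, zero_mul, Finset.sum_const_zero]
  exact (mul_eq_zero.mp key).resolve_left hc

/-- Powers of a matrix acting by a scalar on a family. -/
theorem pow_mulVec_of_eigen {n : ℕ} (M : Matrix (Fin n) (Fin n) F) (v : Fin n → F) (μ : F)
    (h : M.mulVec v = μ • v) (k : ℕ) : (M ^ k).mulVec v = μ ^ k • v := by
  induction k with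
  | zero => simp
  | succ k ih =>
    rw [pow_succ, ← Matrix.mulVec_mulVec, h, Matrix.mulVec_smul, ih, smul_smul, pow_succ,
      mul_comm]

/-- If `M` acts on `b` by the scalar `μ`, it acts on `g • b` by `μ`. -/
theorem mulVec_smul_of_eigen {n : ℕ} (M : Matrix (Fin n) (Fin n) F) (v : Fin n → F) (μ g : F)
    (h : M.mulVec v = μ • v) : M.mulVec (g • v) = μ • (g • v) := by
  rw [Matrix.mulVec_smul, h, smul_comm]

theorem rootMultiplicity_pow' (q : L[X]) (hq : q ≠ 0) (c : L) (k : ℕ) :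
    (q ^ k).rootMultiplicity c = k * q.rootMultiplicity c := by
  induction k with
  | zero =>
    rw [pow_zero, Nat.zero_mul]
    exact rootMultiplicity_eq_zero (by simp [IsRoot])
  | succ k ih =>
    rw [pow_succ, rootMultiplicity_mul (mul_ne_zero (pow_ne_zero k hq) hq), ih]
    ring

theorem rootMultiplicity_eq_zero_of_eval_ne_zero {q : L[X]} {c : L} (h : q.eval c ≠ 0) :
    q.rootMultiplicity c = 0 :=
  rootMultiplicity_eq_zero h

end LocalIndex

open LocalIndex in
/-- **Local index.**  See the file header. -/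
theorem local_index (t : F) {n : ℕ} (p : ℕ) (hp : 0 < p) (b β : Fin n → F)
    (hb_ind : IsIndep L t b) (hβ_ind : IsIndep L t β)
    (hb : ∀ y : F, y ∈ IntL L t ↔ y ∈ spanL L t b)
    (h : F) (hh : h ≠ 0)
    (hβ : ∀ y : F, y ^ p * h ∈ IntL L t ↔ y ∈ spanL L t β)
    (y₀ : F) (hy₀ : y₀ ≠ 0) (P R : Matrix (Fin n) (Fin n) L[X])
    (hP : ∀ i, y₀ * b i = ∑ j, aeval t (P i j) * β j)
    (hR : ∀ i, y₀ ^ p * h * b i = ∑ j, aeval t (R i j) * b j)
    (c : L) (g : F) (hg : g ≠ 0) (s₃ s₄ : L[X]) (hs₃ : s₃.eval c ≠ 0) (hs₄ : s₄.eval c ≠ 0)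
    (hu : aeval t s₃ * (h * g ^ p) ∈ IntL L t) (hu' : aeval t s₄ * (h * g ^ p)⁻¹ ∈ IntL L t) :
    R.det.rootMultiplicity c = p * P.det.rootMultiplicity c := by
  classical
  have hbB : ∀ i, b i ∈ IntL L t := fun i => (hb _).2 (self_mem_spanL t b i)
  have hβM : ∀ i, β i ^ p * h ∈ IntL L t := fun i => (hβ _).2 (self_mem_spanL t β i)
  set u : F := h * g ^ p with hu_def
  have hu0 : u ≠ 0 := mul_ne_zero hh (pow_ne_zero _ hg)
  have ha₃B : aeval t s₃ ∈ IntL L t := aeval_mem_IntL t s₃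
  have ha₄B : aeval t s₄ ∈ IntL L t := aeval_mem_IntL t s₄
  -- the hypotheses in matrix form
  have hPm : (evM t n P).mulVec β = y₀ • b := by
    funext i
    rw [evM_mulVec_apply, Pi.smul_apply, smul_eq_mul]
    exact (hP i).symm
  have hRm : (evM t n R).mulVec b = (y₀ ^ p * h) • b := by
    funext i
    rw [evM_mulVec_apply, Pi.smul_apply, smul_eq_mul]
    exact (hR i).symm
  -- (4) `U`, `U'`: multiplication by `s₃ u` and by `s₄ u⁻¹` on `b`
  obtain ⟨U, hU⟩ : ∃ U : Matrix (Fin n) (Fin n) L[X],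
      (evM t n U).mulVec b = (aeval t s₃ * u) • b := by
    apply exists_matrix
    intro i
    rw [← hb, Pi.smul_apply, smul_eq_mul]
    exact mul_mem hu (hbB i)
  obtain ⟨U', hU'⟩ : ∃ U' : Matrix (Fin n) (Fin n) L[X],
      (evM t n U').mulVec b = (aeval t s₄ * u⁻¹) • b := by
    apply exists_matrix
    intro i
    rw [← hb, Pi.smul_apply, smul_eq_mul]
    exact mul_mem hu' (hbB i)
  have h4 : U * U' = (s₃ * s₄) • (1 : Matrix (Fin n) (Fin n) L[X]) := by
    apply eq_of_mulVec_eq hb_ind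
    have lhs : (evM t n (U * U')).mulVec b = (aeval t s₃ * aeval t s₄) • b := by
      rw [map_mul, ← Matrix.mulVec_mulVec, hU', Matrix.mulVec_smul, hU, smul_smul]
      congr 1
      field_simp
    have rhs : (evM t n ((s₃ * s₄) • (1 : Matrix (Fin n) (Fin n) L[X]))).mulVec b
        = (aeval t s₃ * aeval t s₄) • b := by
      rw [evM_smul_mulVec, map_one, Matrix.one_mulVec, map_mul]
    rw [lhs, rhs]
  -- (1) `s₃ • (g • b) = Q₁ · β`
  obtain ⟨Q₁, hQ₁⟩ : ∃ Q₁ : Matrix (Fin n) (Fin n) L[X],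
      (evM t n Q₁).mulVec β = aeval t s₃ • (g • b) := by
    apply exists_matrix
    intro i
    rw [← hβ]
    have e : ((aeval t s₃ • (g • b)) i) ^ p * h
        = aeval t s₃ ^ (p - 1) * b i ^ p * (aeval t s₃ * u) := by
      obtain ⟨k, rfl⟩ : ∃ k, p = k + 1 := ⟨p - 1, by omega⟩
      simp only [Pi.smul_apply, smul_eq_mul, Nat.add_sub_cancel, hu_def]
      ring
    rw [e]
    exact mul_mem (mul_mem (pow_mem ha₃B _) (pow_mem (hbB i) _)) hu
  -- (2) `s₄ • β = Q₂ · (g • b)`
  obtain ⟨Q₂, hQ₂⟩ : ∃ Q₂ : Matrix (Fin n) (Fin n) L[X],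
      (evM t n Q₂).mulVec (g • b) = aeval t s₄ • β := by
    obtain ⟨Q, hQ⟩ : ∃ Q : Matrix (Fin n) (Fin n) L[X],
        (evM t n Q).mulVec b = (aeval t s₄ * g⁻¹) • β := by
      apply exists_matrix
      intro i
      rw [← hb]
      apply mem_IntL_of_pow hp
      have e : (((aeval t s₄ * g⁻¹) • β) i) ^ p
          = aeval t s₄ ^ (p - 1) * (β i ^ p * h) * (aeval t s₄ * u⁻¹) := by
        obtain ⟨k, rfl⟩ : ∃ k, p = k + 1 := ⟨p - 1, by omega⟩
        simp only [Pi.smul_apply, smul_eq_mul, Nat.add_sub_cancel, hu_def]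
        field_simp
        rw [div_pow, div_mul_cancel₀ _ (pow_ne_zero _ hg)]
        ring
      rw [e]
      exact mul_mem (mul_mem (pow_mem ha₄B _) (hβM i)) hu'
    refine ⟨Q, ?_⟩
    rw [Matrix.mulVec_smul, hQ, smul_smul]
    congr 1
    field_simp
  -- everything on the independent family `b' = g • b`
  have hb'_ind : IsIndep L t (g • b) := by
    intro f hf
    apply hb_ind f
    have e : g * ∑ i, aeval t (f i) * b i = 0 := by
      rw [Finset.mul_sum, ← hf]
      refine Finset.sum_congr rfl fun i _ => ?_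
      rw [Pi.smul_apply, smul_eq_mul]
      ring
    exact (mul_eq_zero.mp e).resolve_left hg
  have hUb' : (evM t n U).mulVec (g • b) = (aeval t s₃ * u) • (g • b) :=
    mulVec_smul_of_eigen _ _ _ g hU
  have hRb' : (evM t n R).mulVec (g • b) = (y₀ ^ p * h) • (g • b) :=
    mulVec_smul_of_eigen _ _ _ g hRm
  have hPb' : (evM t n P).mulVec β = (y₀ * g⁻¹) • (g • b) := by
    rw [hPm, smul_smul]
    congr 1
    field_simp
  clear_value u
  generalize g • b = b' at hQ₁ hQ₂ hb'_ind hUb' hRb' hPb'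
  -- (3) `Q₂ * Q₁ = (s₃ * s₄) • 1`
  have h3 : Q₂ * Q₁ = (s₃ * s₄) • (1 : Matrix (Fin n) (Fin n) L[X]) := by
    apply eq_of_mulVec_eq hβ_ind
    have lhs : (evM t n (Q₂ * Q₁)).mulVec β = (aeval t s₃ * aeval t s₄) • β := by
      rw [map_mul, ← Matrix.mulVec_mulVec, hQ₁, Matrix.mulVec_smul, hQ₂, smul_smul]
    have rhs : (evM t n ((s₃ * s₄) • (1 : Matrix (Fin n) (Fin n) L[X]))).mulVec β
        = (aeval t s₃ * aeval t s₄) • β := by
      rw [evM_smul_mulVec, map_one, Matrix.one_mulVec, map_mul]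
    rw [lhs, rhs]
  -- (5) `(s₄ ^ p * s₃) • R = U * (P * Q₂) ^ p`
  have hW : (evM t n (P * Q₂)).mulVec b' = (aeval t s₄ * (y₀ * g⁻¹)) • b' := by
    rw [map_mul, ← Matrix.mulVec_mulVec, hQ₂, Matrix.mulVec_smul, hPb', smul_smul]
  have h5 : (s₄ ^ p * s₃) • R = U * (P * Q₂) ^ p := by
    apply eq_of_mulVec_eq hb'_ind
    have lhs : (evM t n ((s₄ ^ p * s₃) • R)).mulVec b'
        = (aeval t s₄ ^ p * aeval t s₃ * (y₀ ^ p * h)) • b' := by
      rw [evM_smul_mulVec, hRb', smul_smul, map_mul, map_pow]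
    have rhs : (evM t n (U * (P * Q₂) ^ p)).mulVec b'
        = ((aeval t s₄ * (y₀ * g⁻¹)) ^ p * (aeval t s₃ * u)) • b' := by
      rw [map_mul, map_pow, ← Matrix.mulVec_mulVec, pow_mulVec_of_eigen _ _ _ hW p,
        Matrix.mulVec_smul, hUb', smul_smul]
    rw [lhs, rhs]
    congr 1
    have hgp : (g⁻¹) ^ p * g ^ p = 1 := by rw [← mul_pow, inv_mul_cancel₀ hg, one_pow]
    rw [hu_def]
    linear_combination (-(aeval t s₄ ^ p * aeval t s₃ * y₀ ^ p * h)) * hgp
  -- (6) determinants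
  have hn : Fintype.card (Fin n) = n := Fintype.card_fin n
  have hs₃0 : s₃ ≠ 0 := by
    rintro rfl
    exact hs₃ (by simp)
  have hs₄0 : s₄ ≠ 0 := by
    rintro rfl
    exact hs₄ (by simp)
  have hev34 : ((s₃ * s₄) ^ n).eval c ≠ 0 := by
    rw [eval_pow, eval_mul]
    exact pow_ne_zero _ (mul_ne_zero hs₃ hs₄)
  have hdetQ₂ : Q₂.det.eval c ≠ 0 := by
    have e := congrArg Matrix.det h3
    rw [Matrix.det_mul, Matrix.det_smul, Matrix.det_one, mul_one, hn] at e
    intro h0
    apply hev34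
    rw [← e, eval_mul, h0, zero_mul]
  have hdetU : U.det.eval c ≠ 0 := by
    have e := congrArg Matrix.det h4
    rw [Matrix.det_mul, Matrix.det_smul, Matrix.det_one, mul_one, hn] at e
    intro h0
    apply hev34
    rw [← e, eval_mul, h0, zero_mul]
  have hdetP : P.det ≠ 0 := det_ne_zero_of_mulVec hb_ind hy₀ hPm
  have hdetR : R.det ≠ 0 :=
    det_ne_zero_of_mulVec hb_ind (mul_ne_zero (pow_ne_zero p hy₀) hh) hRm
  have hdetQ₂0 : Q₂.det ≠ 0 := by
    rintro h0
    exact hdetQ₂ (by rw [h0, eval_zero])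
  have hdetU0 : U.det ≠ 0 := by
    rintro h0
    exact hdetU (by rw [h0, eval_zero])
  have e6 := congrArg Matrix.det h5
  rw [Matrix.det_smul, hn, Matrix.det_mul, Matrix.det_pow, Matrix.det_mul] at e6
  have hsc0 : (s₄ ^ p * s₃) ^ n ≠ 0 := pow_ne_zero _ (mul_ne_zero (pow_ne_zero _ hs₄0) hs₃0)
  have hsc : ((s₄ ^ p * s₃) ^ n).eval c ≠ 0 := by
    rw [eval_pow, eval_mul, eval_pow]
    exact pow_ne_zero _ (mul_ne_zero (pow_ne_zero _ hs₄) hs₃)
  have hPQ0 : P.det * Q₂.det ≠ 0 := mul_ne_zero hdetP hdetQ₂0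
  have e7 := congrArg (rootMultiplicity c) e6
  rw [rootMultiplicity_mul (mul_ne_zero hsc0 hdetR),
    rootMultiplicity_mul (mul_ne_zero hdetU0 (pow_ne_zero p hPQ0)),
    rootMultiplicity_pow' _ hPQ0, rootMultiplicity_mul hPQ0,
    rootMultiplicity_eq_zero_of_eval_ne_zero hsc, rootMultiplicity_eq_zero_of_eval_ne_zero hdetU,
    rootMultiplicity_eq_zero_of_eval_ne_zero hdetQ₂] at e7
  rw [zero_add, zero_add, add_zero] at e7
  exact e7

end

end Fermat.Agent.Lib.RedK
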