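/-
RED-K1 (owner helper32): counting the roots of a polynomial over a valuation ring `A` of an
algebraically closed field `L` that lie in `A`.

For `f ∈ A[X]` with nonzero reduction `f̄`, `deg f̄` is the number of roots of `f` in `A`
(with multiplicity).
-/
import Mathlib

set_option autoImplicit false

namespace Fermat.Agent.Lib.RedK

open Polynomial

namespace RootCount

variable {L : Type*} [Field L] (A : ValuationSubring L)

theorem natDegree_map_subtype (f : Polynomial A) :
    (f.map A.subtype).natDegree = f.natDegree :=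
  Polynomial.natDegree_map_eq_of_injective Subtype.val_injective f

/-- A polynomial over `L` all of whose coefficients lie in `A` comes from `A[X]`. -/
theorem exists_map_eq_of_coeff_mem (g : Polynomial L) (h : ∀ n, g.coeff n ∈ A) :
    ∃ q : Polynomial A, q.map A.subtype = g := by
  have hg : g ∈ Polynomial.lifts A.subtype := by
    rw [Polynomial.lifts_iff_coeff_lifts]
    intro n
    exact ⟨⟨g.coeff n, h n⟩, rfl⟩
  exact (Polynomial.mem_lifts _).1 hg

/-- If `(1 - a X) q` has coefficients in `A` and `a ∈ A`, then `q` has coefficients in `A`. -/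
theorem coeff_mem_of_one_sub_mul {a : L} (ha : a ∈ A) (q : Polynomial L)
    (h : ∀ n, ((1 - C a * X) * q).coeff n ∈ A) : ∀ n, q.coeff n ∈ A := by
  have e : (1 - C a * X) * q = q - C a * (X * q) := by ring
  intro n
  induction n with
  | zero =>
    have h0 := h 0
    rw [e, coeff_sub, coeff_C_mul, coeff_X_mul_zero, mul_zero, sub_zero] at h0
    exact h0
  | succ n ih =>
    have h1 := h (n + 1)
    rw [e, coeff_sub, coeff_C_mul, coeff_X_mul] at h1
    have h2 : q.coeff (n + 1) = (q.coeff (n + 1) - a * q.coeff n) + a * q.coeff n := by ring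
    rw [h2]
    exact A.add_mem _ _ h1 (A.mul_mem _ _ ha ih)

/-- A root `c ∉ A` of `f ∈ A[X]` splits off as a factor `1 - c⁻¹ X ≡ 1`. -/
theorem exists_factor_of_root_notMem (f : Polynomial A) {c : L} (hc : c ∉ A)
    (hroot : (f.map A.subtype).IsRoot c) :
    ∃ q : Polynomial A, f.map A.subtype = (X - C c) * (C (-c)⁻¹ * q.map A.subtype) ∧
      f.map (IsLocalRing.residue A) = q.map (IsLocalRing.residue A) := by
  have hc0 : c ≠ 0 := fun h0 => hc (h0 ▸ A.zero_mem)
  have hcinv : c⁻¹ ∈ A := (A.mem_or_inv_mem c).resolve_left hc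
  -- `f_L = (X - c) q₀`
  have hq₀ : (X - C c) * (f.map A.subtype /ₘ (X - C c)) = f.map A.subtype :=
    mul_divByMonic_eq_iff_isRoot.2 hroot
  set q₀ := f.map A.subtype /ₘ (X - C c) with hq₀def
  -- `q_L = -c q₀` has coefficients in `A`
  have hfact : (1 - C c⁻¹ * X) * (C (-c) * q₀) = f.map A.subtype := by
    rw [← hq₀]
    have h1 : (1 - C c⁻¹ * X) * C (-c) = X - C c := by
      have h2 : (C c⁻¹ : Polynomial L) * C c = 1 := by
        rw [← C_mul, inv_mul_cancel₀ hc0, C_1]
      rw [C_neg]
      linear_combination (X : Polynomial L) * h2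
    rw [← mul_assoc, h1]
  have hcoeff : ∀ n, (C (-c) * q₀).coeff n ∈ A := by
    apply coeff_mem_of_one_sub_mul A hcinv
    intro n
    rw [hfact, coeff_map]
    exact (f.coeff n).2
  obtain ⟨q, hq⟩ := exists_map_eq_of_coeff_mem A _ hcoeff
  refine ⟨q, ?_, ?_⟩
  · rw [hq, ← mul_assoc (C (-c)⁻¹), ← C_mul, inv_mul_cancel₀ (neg_ne_zero.2 hc0), C_1, one_mul,
      hq₀]
  · -- `f = (1 - c⁻¹ X) q` in `A[X]`
    have hf : f = (1 - C (⟨c⁻¹, hcinv⟩ : A) * X) * q := by
      apply Polynomial.map_injective A.subtype Subtype.val_injective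
      rw [Polynomial.map_mul, Polynomial.map_sub, Polynomial.map_one, Polynomial.map_mul,
        Polynomial.map_C, Polynomial.map_X, hq]
      exact hfact.symm
    have hres : IsLocalRing.residue A (⟨c⁻¹, hcinv⟩ : A) = 0 := by
      rw [IsLocalRing.residue_eq_zero_iff, IsLocalRing.mem_maximalIdeal, mem_nonunits_iff]
      intro hu
      obtain ⟨u, hu⟩ := hu
      apply hc
      have h3 : ((u⁻¹ : Aˣ) : A) * (⟨c⁻¹, hcinv⟩ : A) = 1 := by
        rw [← hu]
        exact Units.inv_mul u
      have h4 : (((u⁻¹ : Aˣ) : A) : L) * c⁻¹ = 1 := congrArg Subtype.val h3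
      have h5 : (((u⁻¹ : Aˣ) : A) : L) = c := by
        field_simp at h4
        exact h4
      rw [← h5]
      exact ((u⁻¹ : Aˣ) : A).2
    conv_lhs => rw [hf]
    rw [Polynomial.map_mul, Polynomial.map_sub, Polynomial.map_one, Polynomial.map_mul,
      Polynomial.map_C, hres, C_0, zero_mul, sub_zero, one_mul]

end RootCount

variable {L : Type*} [Field L] [IsAlgClosed L] (A : ValuationSubring L)

open scoped Classical in
/-- For `f ∈ A[X]` with nonzero reduction, the degree of the reduction is the number of roots
of `f` lying in `A`, counted with multiplicity. -/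
theorem natDegree_map_residue_eq_countP (f : Polynomial A)
    (hf : f.map (IsLocalRing.residue A) ≠ 0) :
    (f.map (IsLocalRing.residue A)).natDegree =
      (f.map A.subtype).roots.countP (fun c => c ∈ A) := by
  suffices H : ∀ (n : ℕ) (f : Polynomial A), f.natDegree = n →
      f.map (IsLocalRing.residue A) ≠ 0 →
      (f.map (IsLocalRing.residue A)).natDegree =
        (f.map A.subtype).roots.countP (fun c => c ∈ A) from H _ f rfl hf
  intro n
  induction n using Nat.strong_induction_on with
  | _ n ih =>
    intro f hn hf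
    have hf0 : f ≠ 0 := fun h0 => hf (by rw [h0, Polynomial.map_zero])
    have hfL0 : f.map A.subtype ≠ 0 := fun h0 =>
      hf0 (Polynomial.map_injective A.subtype Subtype.val_injective
        (by rw [h0, Polynomial.map_zero]))
    by_cases hdeg : f.natDegree = 0
    · obtain ⟨a, rfl⟩ : ∃ a, f = C a := ⟨_, Polynomial.eq_C_of_natDegree_eq_zero hdeg⟩
      rw [Polynomial.map_C, Polynomial.map_C, natDegree_C, roots_C, Multiset.countP_zero]
    · have hdegL : (f.map A.subtype).degree ≠ 0 := by
        have h1 : (f.map A.subtype).natDegree ≠ 0 := by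
          rw [RootCount.natDegree_map_subtype]
          exact hdeg
        exact_mod_cast degree_ne_of_natDegree_ne h1
      obtain ⟨c, hc⟩ := IsAlgClosed.exists_root (f.map A.subtype) hdegL
      by_cases hcA : c ∈ A
      · -- a root in `A`: split off `X - c`
        have hroot : f.IsRoot (⟨c, hcA⟩ : A) := by
          have h1 : (f.map A.subtype).eval (A.subtype ⟨c, hcA⟩) = A.subtype (f.eval ⟨c, hcA⟩) := by
            rw [eval_map, eval₂_at_apply]
          have h2 : A.subtype (f.eval ⟨c, hcA⟩) = 0 := by
            rw [← h1]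
            exact hc
          exact Subtype.val_injective h2
        have hq : (X - C (⟨c, hcA⟩ : A)) * (f /ₘ (X - C (⟨c, hcA⟩ : A))) = f :=
          mul_divByMonic_eq_iff_isRoot.2 hroot
        set q := f /ₘ (X - C (⟨c, hcA⟩ : A)) with hqdef
        have hq0 : q ≠ 0 := fun h0 => hf0 (by rw [← hq, h0, mul_zero])
        have hqbar : q.map (IsLocalRing.residue A) ≠ 0 := by
          intro h0
          apply hf
          rw [← hq, Polynomial.map_mul, h0, mul_zero]
        have hdq : q.natDegree < n := by
          rw [← hn, ← hq, natDegree_mul (X_sub_C_ne_zero _) hq0, natDegree_X_sub_C]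
          omega
        have hIH := ih q.natDegree hdq q rfl hqbar
        have e1 : f.map (IsLocalRing.residue A) =
            (X - C (IsLocalRing.residue A ⟨c, hcA⟩)) * q.map (IsLocalRing.residue A) := by
          conv_lhs => rw [← hq]
          rw [Polynomial.map_mul, Polynomial.map_sub, Polynomial.map_X, Polynomial.map_C]
        have e2 : f.map A.subtype = (X - C c) * q.map A.subtype := by
          conv_lhs => rw [← hq]
          rw [Polynomial.map_mul, Polynomial.map_sub, Polynomial.map_X, Polynomial.map_C]
          rfl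
        rw [e1, natDegree_mul (X_sub_C_ne_zero _) hqbar, natDegree_X_sub_C, hIH, e2,
          roots_mul (by rw [← e2]; exact hfL0), roots_X_sub_C, Multiset.singleton_add,
          Multiset.countP_cons_of_pos _ hcA, add_comm]
      · -- a root outside `A`: it does not contribute
        obtain ⟨q, hq1, hq2⟩ := RootCount.exists_factor_of_root_notMem A f hcA hc
        have hc0 : c ≠ 0 := fun h0 => hcA (h0 ▸ A.zero_mem)
        have hqbar : q.map (IsLocalRing.residue A) ≠ 0 := by rw [← hq2]; exact hf
        have hqL0 : q.map A.subtype ≠ 0 := by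
          intro h0
          apply hfL0
          rw [hq1, h0, mul_zero, mul_zero]
        have hCq0 : C (-c)⁻¹ * q.map A.subtype ≠ 0 :=
          mul_ne_zero (C_ne_zero.2 (inv_ne_zero (neg_ne_zero.2 hc0))) hqL0
        have hdq : q.natDegree < n := by
          have h1 : (f.map A.subtype).natDegree = 1 + (q.map A.subtype).natDegree := by
            rw [hq1, natDegree_mul (X_sub_C_ne_zero _) hCq0, natDegree_X_sub_C,
              natDegree_C_mul (inv_ne_zero (neg_ne_zero.2 hc0))]
          rw [RootCount.natDegree_map_subtype, RootCount.natDegree_map_subtype] at h1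
          omega
        have hIH := ih q.natDegree hdq q rfl hqbar
        rw [hq2, hIH, hq1, roots_mul (mul_ne_zero (X_sub_C_ne_zero _) hCq0), roots_X_sub_C,
          roots_C_mul _ (inv_ne_zero (neg_ne_zero.2 hc0)), Multiset.singleton_add,
          Multiset.countP_cons_of_neg _ hcA]

/-- If every root `c ∈ A` of `f` has multiplicity `p` times its multiplicity in `g`, then
`deg f̄ = p · deg ḡ`. -/
theorem natDegree_map_residue_eq_mul (f g : Polynomial A)
    (hf : f.map (IsLocalRing.residue A) ≠ 0) (hg : g.map (IsLocalRing.residue A) ≠ 0) (p : ℕ)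
    (h : ∀ c : L, c ∈ A →
      (f.map A.subtype).rootMultiplicity c = p * (g.map A.subtype).rootMultiplicity c) :
    (f.map (IsLocalRing.residue A)).natDegree = p * (g.map (IsLocalRing.residue A)).natDegree := by
  classical
  rw [natDegree_map_residue_eq_countP A f hf, natDegree_map_residue_eq_countP A g hg,
    Multiset.countP_eq_card_filter, Multiset.countP_eq_card_filter, ← Multiset.card_nsmul]
  congr 1
  ext c
  rw [Multiset.count_filter, Multiset.count_nsmul, Multiset.count_filter]
  by_cases hc : c ∈ A
  · rw [if_pos hc, if_pos hc, count_roots, count_roots, h c hc]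
  · rw [if_neg hc, if_neg hc, mul_zero]

end Fermat.Agent.Lib.RedK
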