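/-
RED-K4 (helper95), auxiliary part: evaluation of `A[X]`-matrices on vectors of `F`,
congruences modulo the maximal ideal of `O`, and the reduction of matrices.
-/
import Mathlib
import Fermat.Agent.Lib.RedK.Basic

set_option autoImplicit false

namespace Fermat.Agent.Lib.RedK

open Polynomial

noncomputable section

variable {L F : Type*} [Field L] [Field F] [Algebra L F]

/-- Evaluation of an `A`-polynomial at `t`. -/
def evA (A : ValuationSubring L) (t : F) : Polynomial A →+* F :=
  (aeval t : L[X] →ₐ[L] F).toRingHom.comp (Polynomial.mapRingHom A.subtype)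

theorem evA_apply (A : ValuationSubring L) (t : F) (f : Polynomial A) :
    evA A t f = aeval t (f.map A.subtype) := rfl

/-- Reduction of `A`-polynomials. -/
abbrev resP (A : ValuationSubring L) : Polynomial A →+* Polynomial (IsLocalRing.ResidueField A) :=
  Polynomial.mapRingHom (IsLocalRing.residue A)

section

variable {A : ValuationSubring L} {O : ValuationSubring F} {t : F}

theorem evA_mem (hG : GaussSetting A O t) (f : Polynomial A) : evA A t f ∈ O :=
  hG.aeval_mem (isInt_map A f)

theorem evA_C (a : A) : evA A t (C a) = algebraMap L F (a : L) := by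
  rw [evA_apply, Polynomial.map_C, aeval_C]
  rfl

theorem resP_eq_zero_iff (f : Polynomial A) :
    resP A f = 0 ↔ ∀ j, A.valuation ((f.coeff j : A) : L) < 1 := by
  constructor
  · intro h j
    have h1 := congrArg (fun q => q.coeff j) h
    simp only [resP, coe_mapRingHom, coeff_map, coeff_zero] at h1
    rw [IsLocalRing.residue_eq_zero_iff, A.valuation_lt_one_iff] at h1
    exact h1
  · intro h
    ext j
    simp only [resP, coe_mapRingHom, coeff_map, coeff_zero]
    rw [IsLocalRing.residue_eq_zero_iff, A.valuation_lt_one_iff]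
    exact h j

theorem evA_val_lt (hG : GaussSetting A O t) {f : Polynomial A} (hf : resP A f = 0) :
    O.valuation (evA A t f) < 1 := by
  rw [evA_apply]
  refine hG.aeval_val_lt fun j => ?_
  rw [coeff_map]
  exact (resP_eq_zero_iff f).1 hf j

/-- Orthonormality, strict form, for `A[X]`-coefficients. -/
theorem IsON.resP_eq_zero (hG : GaussSetting A O t) (hAL : ∃ a : L, a ∉ A) {n : ℕ}
    {β : Fin n → F} (h : IsON A O t β) (f : Fin n → Polynomial A)
    (hf : O.valuation (∑ i, evA A t (f i) * β i) < 1) (i : Fin n) : resP A (f i) = 0 := by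
  rw [resP_eq_zero_iff]
  intro j
  have := h.coeff_lt hG hAL (fun i => (f i).map A.subtype) hf i j
  rwa [coeff_map] at this

theorem exists_coeffs_of_mem_spanA {n : ℕ} {β : Fin n → F} {y : F} (hy : y ∈ spanA A t β) :
    ∃ f : Fin n → Polynomial A, y = ∑ i, evA A t (f i) * β i := by
  obtain ⟨f, hf, rfl⟩ := hy
  choose f₀ hf₀ using fun i => exists_lift_of_isInt A (hf i)
  refine ⟨f₀, Finset.sum_congr rfl fun i _ => ?_⟩
  rw [evA_apply, hf₀]

theorem sum_evA_mem_spanL {n : ℕ} (β : Fin n → F) (f : Fin n → Polynomial A) :
    (∑ i, evA A t (f i) * β i) ∈ spanL L t β :=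
  ⟨fun i => (f i).map A.subtype, rfl⟩

end

/-! ### action of matrices and congruences -/

/-- Action of an `A[X]`-matrix on a vector of elements of `F`. -/
def act (A : ValuationSubring L) (t : F) {n m : ℕ} (M : Matrix (Fin n) (Fin m) (Polynomial A))
    (v : Fin m → F) : Fin n → F :=
  (M.map (evA A t)).mulVec v

theorem act_apply (A : ValuationSubring L) (t : F) {n m : ℕ}
    (M : Matrix (Fin n) (Fin m) (Polynomial A)) (v : Fin m → F) (i : Fin n) :
    act A t M v i = ∑ j, evA A t (M i j) * v j := rfl

theorem act_mul (A : ValuationSubring L) (t : F) {n m r : ℕ}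
    (M : Matrix (Fin n) (Fin m) (Polynomial A)) (N : Matrix (Fin m) (Fin r) (Polynomial A))
    (v : Fin r → F) : act A t (M * N) v = act A t M (act A t N v) := by
  unfold act
  rw [Matrix.map_mul, Matrix.mulVec_mulVec]

theorem act_one (A : ValuationSubring L) (t : F) {n : ℕ} (v : Fin n → F) :
    act A t (1 : Matrix (Fin n) (Fin n) (Polynomial A)) v = v := by
  unfold act
  rw [Matrix.map_one _ (map_zero _) (map_one _), Matrix.one_mulVec]

theorem act_smul (A : ValuationSubring L) (t : F) {n m : ℕ}
    (M : Matrix (Fin n) (Fin m) (Polynomial A)) (z : F) (v : Fin m → F) :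
    act A t M (z • v) = z • act A t M v := by
  unfold act
  rw [Matrix.mulVec_smul]

theorem act_sub (A : ValuationSubring L) (t : F) {n m : ℕ}
    (M N : Matrix (Fin n) (Fin m) (Polynomial A)) (v : Fin m → F) :
    act A t (M - N) v = act A t M v - act A t N v := by
  funext i
  rw [Pi.sub_apply, act_apply, act_apply, act_apply, ← Finset.sum_sub_distrib]
  refine Finset.sum_congr rfl fun j _ => ?_
  rw [Matrix.sub_apply, map_sub, sub_mul]

/-- Congruence of vectors modulo the maximal ideal of `O`. -/
def VCong (O : ValuationSubring F) {n : ℕ} (u v : Fin n → F) : Prop :=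
  ∀ i, O.valuation (u i - v i) < 1

namespace VCong

variable {O : ValuationSubring F} {n : ℕ}

theorem refl (u : Fin n → F) : VCong O u u := fun i => by
  rw [sub_self, map_zero]; exact zero_lt_one

theorem trans {u v w : Fin n → F} (h1 : VCong O u v) (h2 : VCong O v w) : VCong O u w :=
  fun i => by
    have : u i - w i = (u i - v i) + (v i - w i) := by ring
    rw [this]
    exact Valuation.map_add_lt _ (h1 i) (h2 i)

theorem symm {u v : Fin n → F} (h : VCong O u v) : VCong O v u := fun i => by
  have : v i - u i = -(u i - v i) := by ring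
  rw [this, Valuation.map_neg]
  exact h i

theorem smul {u v : Fin n → F} (h : VCong O u v) {z : F} (hz : z ∈ O) :
    VCong O (z • u) (z • v) := fun i => by
  have : (z • u) i - (z • v) i = z * (u i - v i) := by
    simp only [Pi.smul_apply, smul_eq_mul]; ring
  rw [this, map_mul]
  calc O.valuation z * O.valuation (u i - v i) ≤ 1 * O.valuation (u i - v i) :=
        mul_le_mul_left ((O.valuation_le_one_iff z).2 hz) _
    _ = O.valuation (u i - v i) := one_mul _
    _ < 1 := h i

theorem act {A : ValuationSubring L} {t : F} (hG : GaussSetting A O t) {m : ℕ}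
    (M : Matrix (Fin m) (Fin n) (Polynomial A)) {u v : Fin n → F} (h : VCong O u v) :
    VCong O (act A t M u) (act A t M v) := fun i => by
  have : RedK.act A t M u i - RedK.act A t M v i = ∑ j, evA A t (M i j) * (u j - v j) := by
    rw [act_apply, act_apply, ← Finset.sum_sub_distrib]
    exact Finset.sum_congr rfl fun j _ => by ring
  rw [this]
  refine Valuation.map_sum_lt _ one_ne_zero fun j _ => ?_
  rw [map_mul]
  calc O.valuation (evA A t (M i j)) * O.valuation (u j - v j)
      ≤ 1 * O.valuation (u j - v j) :=
        mul_le_mul_left ((O.valuation_le_one_iff _).2 (evA_mem hG _)) _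
    _ = O.valuation (u j - v j) := one_mul _
    _ < 1 := h j

end VCong

/-- If `M` acts as zero modulo `𝔪_O` on an orthonormal family, then `M` reduces to zero. -/
theorem mapMatrix_resP_eq_zero {A : ValuationSubring L} {O : ValuationSubring F} {t : F}
    (hG : GaussSetting A O t) (hAL : ∃ a : L, a ∉ A) {n m : ℕ} {b : Fin n → F}
    (hb : IsON A O t b) (M : Matrix (Fin m) (Fin n) (Polynomial A))
    (h : ∀ i, O.valuation (act A t M b i) < 1) : M.map (resP A) = 0 := by
  refine Matrix.ext fun i j => ?_
  rw [Matrix.map_apply, Matrix.zero_apply]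
  exact hb.resP_eq_zero hG hAL (fun j => M i j) (h i) j

/-- If `M` reduces to zero then it acts as zero modulo `𝔪_O` on integral vectors. -/
theorem val_act_lt {A : ValuationSubring L} {O : ValuationSubring F} {t : F}
    (hG : GaussSetting A O t) {n m : ℕ} {b : Fin n → F} (hb : ∀ j, b j ∈ O)
    (M : Matrix (Fin m) (Fin n) (Polynomial A)) (h : M.map (resP A) = 0) (i : Fin m) :
    O.valuation (act A t M b i) < 1 := by
  rw [act_apply]
  refine Valuation.map_sum_lt _ one_ne_zero fun j _ => ?_
  have h1 : resP A (M i j) = 0 := by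
    have := congrFun (congrFun h i) j
    rwa [Matrix.map_apply, Matrix.zero_apply] at this
  rw [map_mul]
  calc O.valuation (evA A t (M i j)) * O.valuation (b j)
      ≤ O.valuation (evA A t (M i j)) * 1 :=
        mul_le_mul_right ((O.valuation_le_one_iff _).2 (hb j)) _
    _ = O.valuation (evA A t (M i j)) := mul_one _
    _ < 1 := evA_val_lt hG h1

end

end Fermat.Agent.Lib.RedK
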