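/-
RED-K4 (helper95), setup: orthonormal bases of the integral closure `IntL L t` and of the
twisted lattice `{y | y ^ p * h ∈ IntL L t}` on a chart (from the lattice lemma RED-K2).
-/
import Mathlib
import Fermat.Agent.Lib.RedK.SectionAux
import Fermat.Agent.Lib.RedK.Lattice
import Fermat.Agent.Lib.RedK.LocalIndex
import Fermat.Agent.Lib.RedK.RootCount

set_option autoImplicit false

namespace Fermat.Agent.Lib.RedK

open Polynomial

noncomputable section

variable {L F : Type*} [Field L] [Field F] [Algebra L F]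

theorem spanL_subset_of_mem {t : F} {n : ℕ} {β : Fin n → F} (S : Subring F)
    (hS : ∀ f : L[X], aeval t f ∈ S) (hβ : ∀ i, β i ∈ S) {y : F} (hy : y ∈ spanL L t β) :
    y ∈ S := by
  obtain ⟨f, rfl⟩ := hy
  exact S.sum_mem fun i _ => S.mul_mem (hS _) (hβ i)

/-- The twisted lattice is closed under addition. -/
theorem twist_add_mem {t : F} {p : ℕ} (hp : 0 < p) {h y y' : F}
    (hy : y ^ p * h ∈ IntL L t) (hy' : y' ^ p * h ∈ IntL L t) :
    (y + y') ^ p * h ∈ IntL L t := by
  rw [add_pow, Finset.sum_mul]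
  refine (IntL L t).sum_mem fun k hk => ?_
  have hk' : k ≤ p := Nat.lt_succ_iff.1 (Finset.mem_range.1 hk)
  have hterm : y ^ k * y' ^ (p - k) * h ∈ IntL L t := by
    refine IntL_of_pow hp ?_
    have e : (y ^ k * y' ^ (p - k) * h) ^ p = (y ^ p * h) ^ k * (y' ^ p * h) ^ (p - k) := by
      have hpk : p = k + (p - k) := by omega
      calc (y ^ k * y' ^ (p - k) * h) ^ p
          = (y ^ p) ^ k * (y' ^ p) ^ (p - k) * h ^ p := by ring
        _ = (y ^ p) ^ k * (y' ^ p) ^ (p - k) * (h ^ k * h ^ (p - k)) := by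
            rw [← pow_add, ← hpk]
        _ = (y ^ p * h) ^ k * (y' ^ p * h) ^ (p - k) := by ring
    rw [e]
    exact (IntL L t).mul_mem ((IntL L t).pow_mem hy _) ((IntL L t).pow_mem hy' _)
  have e2 : y ^ k * y' ^ (p - k) * (p.choose k : F) * h =
      (p.choose k : F) * (y ^ k * y' ^ (p - k) * h) := by ring
  rw [e2]
  exact (IntL L t).mul_mem (natCast_mem (IntL L t) _) hterm

theorem twist_smul_mem {t : F} {p : ℕ} {h y : F} (f : L[X])
    (hy : y ^ p * h ∈ IntL L t) : (aeval t f * y) ^ p * h ∈ IntL L t := by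
  have e : (aeval t f * y) ^ p * h = aeval t f ^ p * (y ^ p * h) := by ring
  rw [e]
  exact (IntL L t).mul_mem ((IntL L t).pow_mem (aeval_mem_IntL t f) _) hy

theorem twist_mul_mem {t : F} {p : ℕ} {h y z : F} (hz : z ∈ IntL L t)
    (hy : y ^ p * h ∈ IntL L t) : (z * y) ^ p * h ∈ IntL L t := by
  have e : (z * y) ^ p * h = z ^ p * (y ^ p * h) := by ring
  rw [e]
  exact (IntL L t).mul_mem ((IntL L t).pow_mem hz _) hy

variable [IsAlgClosed L] {A : ValuationSubring L} {O : ValuationSubring F} {t : F} {n : ℕ}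
  {b₀ : Fin n → F}

omit [IsAlgClosed L] in
/-- A common denominator: finitely many elements of `F` become integral after multiplication
by one nonzero polynomial. -/
theorem exists_common_denominator (hC : Chart A O t b₀) {m : ℕ} (z : Fin m → F) :
    ∃ s : L[X], s ≠ 0 ∧ ∀ i, aeval t s * z i ∈ IntL L t := by
  choose s hs0 hs using fun i => hC.alg (z i)
  refine ⟨∏ i, s i, Finset.prod_ne_zero_iff.2 fun i _ => hs0 i, fun i => ?_⟩
  rw [← Finset.mul_prod_erase Finset.univ s (Finset.mem_univ i), map_mul, mul_right_comm]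
  exact (IntL L t).mul_mem (hs i) (aeval_mem_IntL t _)

/-- An orthonormal `L[t]`-basis of the integral closure of `L[t]`. -/
theorem exists_basis_IntL (hC : Chart A O t b₀) (hAL : ∃ a : L, a ∉ A) :
    ∃ b : Fin n → F, IsON A O t b ∧ IsGen L t b ∧ ∀ y : F, y ∈ IntL L t ↔ y ∈ spanL L t b := by
  obtain ⟨s, hs0, hs⟩ := exists_common_denominator hC b₀
  obtain ⟨b, hON, hgen, hmem, hsub⟩ := exists_good_basis A O t hC.gauss hAL b₀ hC.on hC.gen
    (IntL L t : Set F) (fun y y' hy hy' => (IntL L t).add_mem hy hy')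
    (fun f y hy => (IntL L t).mul_mem (aeval_mem_IntL t f) hy) ⟨s, hs0, hs⟩ hC.fin
  exact ⟨b, hON, hgen, fun y => ⟨fun hy => hsub hy,
    fun hy => spanL_subset_of_mem (IntL L t) (aeval_mem_IntL t) hmem hy⟩⟩

/-- An orthonormal `L[t]`-basis of the twisted lattice `{y | y ^ p * h ∈ IntL L t}`. -/
theorem exists_basis_twist (hC : Chart A O t b₀) (hAL : ∃ a : L, a ∉ A) {p : ℕ} (hp : 0 < p)
    {h : F} (hh : h ≠ 0) :
    ∃ β : Fin n → F, IsON A O t β ∧ IsGen L t β ∧
      ∀ y : F, y ^ p * h ∈ IntL L t ↔ y ∈ spanL L t β := by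
  obtain ⟨s, hs0, hs⟩ := exists_common_denominator hC (fun i => b₀ i ^ p * h)
  obtain ⟨s'', hs''0, hs''⟩ := hC.alg h⁻¹
  obtain ⟨sf, hsf0, hsf⟩ := hC.fin
  have h1 : ∃ s : L[X], s ≠ 0 ∧ ∀ i, aeval t s * b₀ i ∈ {y : F | y ^ p * h ∈ IntL L t} := by
    refine ⟨s, hs0, fun i => ?_⟩
    show (aeval t s * b₀ i) ^ p * h ∈ IntL L t
    have e : (aeval t s * b₀ i) ^ p * h = aeval t s ^ (p - 1) * (aeval t s * (b₀ i ^ p * h)) := by
      have hpp : p = (p - 1) + 1 := by omega
      calc (aeval t s * b₀ i) ^ p * h = aeval t s ^ p * (b₀ i ^ p * h) := by ring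
        _ = aeval t s ^ ((p - 1) + 1) * (b₀ i ^ p * h) := by rw [← hpp]
        _ = aeval t s ^ (p - 1) * (aeval t s * (b₀ i ^ p * h)) := by ring
    rw [e]
    exact (IntL L t).mul_mem ((IntL L t).pow_mem (aeval_mem_IntL t s) _) (hs i)
  have h2 : ∃ s : L[X], s ≠ 0 ∧ ∀ y ∈ {y : F | y ^ p * h ∈ IntL L t},
      aeval t s * y ∈ spanL L t b₀ := by
    refine ⟨sf * s'', mul_ne_zero hsf0 hs''0, fun y hy => ?_⟩
    have hy' : y ^ p * h ∈ IntL L t := hy
    have hint : aeval t s'' * y ∈ IntL L t := by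
      refine IntL_of_pow hp ?_
      have e : (aeval t s'' * y) ^ p =
          aeval t s'' ^ (p - 1) * (aeval t s'' * h⁻¹) * (y ^ p * h) := by
        have hpp : p = (p - 1) + 1 := by omega
        calc (aeval t s'' * y) ^ p = aeval t s'' ^ p * y ^ p := by ring
          _ = aeval t s'' ^ ((p - 1) + 1) * y ^ p := by rw [← hpp]
          _ = aeval t s'' ^ (p - 1) * (aeval t s'' * h⁻¹) * (y ^ p * h) := by
              field_simp
              ring
      rw [e]
      exact (IntL L t).mul_mem ((IntL L t).mul_mem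
        ((IntL L t).pow_mem (aeval_mem_IntL t s'') _) hs'') hy'
    have := hsf _ hint
    rwa [← mul_assoc, ← map_mul] at this
  obtain ⟨β, hON, hgen, hmem, hsub⟩ := exists_good_basis A O t hC.gauss hAL b₀ hC.on hC.gen
    {y : F | y ^ p * h ∈ IntL L t} (fun y y' hy hy' => twist_add_mem hp hy hy')
    (fun f y hy => twist_smul_mem f hy) h1 h2
  refine ⟨β, hON, hgen, fun y => ⟨fun hy => hsub hy, ?_⟩⟩
  rintro ⟨f, rfl⟩
  have key : ∀ (S : Finset (Fin n)), (∑ i ∈ S, aeval t (f i) * β i) ^ p * h ∈ IntL L t := by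
    intro S
    classical
    induction S using Finset.induction_on with
    | empty =>
      rw [Finset.sum_empty, zero_pow (by omega), zero_mul]
      exact (IntL L t).zero_mem
    | insert i S hi ih =>
      rw [Finset.sum_insert hi]
      exact twist_add_mem hp (twist_smul_mem (f i) (hmem i)) ih
  exact key Finset.univ

end

end Fermat.Agent.Lib.RedK
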