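/-
RED-K (helper95): the reduction of the chart ring `O ∩ IntL L t` is integral over `k[t̄]`, and
the `p`-th root closedness hypothesis `hGp` of `exists_pth_root` from the lifting property (T3).
-/
import Mathlib
import Fermat.Agent.Lib.RedK.SectionSetup

set_option autoImplicit false

namespace Fermat.Agent.Lib.RedK

open Polynomial

section RedInt

variable {L F : Type*} [Field L] [Field F] [Algebra L F]

/-- **Reduction of integral elements.**  On a chart, the reduction of an element of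
`O ∩ IntL L t` is integral over (any ring `R₀` mapping onto) the reduction of `A[t]`. -/
theorem isIntegral_red_of_mem_IntL [IsAlgClosed L] {A : ValuationSubring L}
    {O : ValuationSubring F} {t : F} {n : ℕ} {b₀ : Fin n → F} (hC : Chart A O t b₀)
    (hAL : ∃ a : L, a ∉ A) {E : Type*} [Field E] (red : O →+* E)
    (hker : ∀ y : O, red y = 0 ↔ O.valuation (y : F) < 1)
    {R₀ : Type*} [CommRing R₀] [Algebra R₀ E]
    (hR₀ : ∀ f : L[X], IsInt A f → ∀ hmem : aeval t f ∈ O,
      red ⟨aeval t f, hmem⟩ ∈ (algebraMap R₀ E).range)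
    (w : F) (hwO : w ∈ O) (hw : w ∈ IntL L t) : IsIntegral R₀ (red ⟨w, hwO⟩) := by
  classical
  have hG := hC.gauss
  obtain ⟨b, hbON, hbgen, hb⟩ := exists_basis_IntL hC hAL
  have hbI : ∀ i, b i ∈ IntL L t := fun i =>
    (hb _).2 ⟨Pi.single i 1, by rw [sum_single_mul, map_one, one_mul]⟩
  have hn : 0 < n := by
    by_contra h0
    have hn0 : n = 0 := by omega
    subst hn0
    obtain ⟨s, hs0, f, hf⟩ := hC.gen 1
    rw [mul_one, Finset.univ_eq_empty, Finset.sum_empty] at hf
    exact hG.aeval_ne_zero hs0 hf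
  set N : Submodule R₀ E :=
    Submodule.span R₀ (Set.range (fun i : Fin n => red ⟨b i, hbON.mem i⟩)) with hNdef
  have hgen : ∀ i, red ⟨b i, hbON.mem i⟩ ∈ N := fun i => Submodule.subset_span ⟨i, rfl⟩
  have hN : N ≠ ⊥ := by
    intro h0
    have h1 := hgen ⟨0, hn⟩
    rw [h0, Submodule.mem_bot, hker] at h1
    have h2 := hbON.val_eq_one hG hAL ⟨0, hn⟩
    exact absurd h2 (ne_of_lt h1)
  have hNfg : N.FG := Submodule.fg_span (Set.finite_range _)
  have hstab : ∀ v ∈ N, red ⟨w, hwO⟩ • v ∈ N := by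
    intro v hv
    induction hv using Submodule.span_induction with
    | mem v hv =>
      obtain ⟨i, rfl⟩ := hv
      have hwb : w * b i ∈ spanA A t b :=
        hbON.mem_spanA ((hb _).1 ((IntL L t).mul_mem hw (hbI i))) (O.mul_mem _ _ hwO (hbON.mem i))
      obtain ⟨c, hc, hwb⟩ := hwb
      have e : (⟨w, hwO⟩ : O) * ⟨b i, hbON.mem i⟩ =
          ∑ j, (⟨aeval t (c j), hG.aeval_mem (hc j)⟩ : O) * ⟨b j, hbON.mem j⟩ := by
        apply Subtype.ext
        rw [AddSubmonoidClass.coe_finsetSum]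
        exact hwb
      show red ⟨w, hwO⟩ * red ⟨b i, hbON.mem i⟩ ∈ N
      rw [← map_mul, e, map_sum]
      refine N.sum_mem fun j _ => ?_
      rw [map_mul]
      obtain ⟨r, hr⟩ := hR₀ (c j) (hc j) (hG.aeval_mem (hc j))
      rw [← hr, ← Algebra.smul_def]
      exact N.smul_mem r (hgen j)
    | zero => rw [smul_zero]; exact N.zero_mem
    | add u v _ _ hu hv => rw [smul_add]; exact N.add_mem hu hv
    | smul r v _ hv => rw [smul_comm]; exact N.smul_mem r hv
  exact isIntegral_of_smul_mem_submodule (R := R₀) (A := E) (M := E) N hN hNfg _ hstab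

/-- **`hGp` from the lifting property (T3).**  If every element of the residue field `E`
integral over `R₀ = k[t̄]` lifts to `O ∩ IntL L t`, then the reduction of `O ∩ IntL L t` is
closed under `p`-th roots. -/
theorem pth_root_closed_of_lift [IsAlgClosed L] {A : ValuationSubring L}
    {O : ValuationSubring F} {t : F} {n : ℕ} {b₀ : Fin n → F} (hC : Chart A O t b₀)
    (hAL : ∃ a : L, a ∉ A) {E : Type*} [Field E] (red : O →+* E)
    (hker : ∀ y : O, red y = 0 ↔ O.valuation (y : F) < 1)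
    {R₀ : Type*} [CommRing R₀] [Algebra R₀ E]
    (hR₀ : ∀ f : L[X], IsInt A f → ∀ hmem : aeval t f ∈ O,
      red ⟨aeval t f, hmem⟩ ∈ (algebraMap R₀ E).range)
    (hT3 : ∀ s : E, IsIntegral R₀ s → ∃ y : O, (y : F) ∈ IntL L t ∧ red y = s)
    {p : ℕ} (hp : 0 < p) :
    ∀ z : F, z ∈ O → ∀ w : F, w ∈ O → w ∈ IntL L t → O.valuation (z ^ p - w) < 1 →
      ∃ w' : F, w' ∈ O ∧ w' ∈ IntL L t ∧ O.valuation (z - w') < 1 := by
  intro z hz w hwO hw hzw
  have h1 : red ⟨z, hz⟩ ^ p = red ⟨w, hwO⟩ := by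
    have h2 : red (⟨z, hz⟩ ^ p - ⟨w, hwO⟩) = 0 := (hker _).2 hzw
    rw [map_sub, map_pow, sub_eq_zero] at h2
    exact h2
  have hint : IsIntegral R₀ (red ⟨z, hz⟩) := by
    refine IsIntegral.of_pow hp ?_
    rw [h1]
    exact isIntegral_red_of_mem_IntL hC hAL red hker hR₀ w hwO hw
  obtain ⟨y, hyI, hy⟩ := hT3 _ hint
  refine ⟨y, y.2, hyI, ?_⟩
  have h3 : red (⟨z, hz⟩ - y) = 0 := by rw [map_sub, hy, sub_self]
  exact (hker _).1 h3

end RedInt

end Fermat.Agent.Lib.RedK
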