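/-
RED-K (helper95): the modular instance.

For `F = L·F_N`, the Gauss valuation ring `Ow`, the base function `x = J(q^N)` and a prime `p`
which is a unit of `A`: a function `h ∈ Ow` with reduction `1` all of whose orders are divisible
by `p` is a `p`-th power (`exists_pth_root_modular`), provided both charts of `x` have good
reduction (`hT3`, `hT3'`: the place-form hypotheses of `InstGenus.genusFF_le_modular`).

No place reduction map is used.
-/
import Mathlib
import Fermat.Agent.Lib.RedK.Main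
import Fermat.Agent.Lib.RedK.OrthChart
import Fermat.Agent.Lib.RedK.RedInt
import Fermat.Agent.Lib.RedK.FFInput
import Fermat.Agent.Lib.Red.OrthInst
import Fermat.Agent.Lib.Red.InstGenus
import Fermat.Agent.Lib.Red.RankOne

set_option autoImplicit false

namespace Fermat.Agent.Lib.RedK.Inst

open HahnSeries ModularCurve Polynomial AlgebraicCurve Fermat.Agent.S28 IntermediateField
  Fermat.Agent.Lib.FF Fermat.Agent.Lib.Red

noncomputable section

variable {L : Type*} [Field L] [Algebra ℚ L] {A : ValuationSubring L} {k : Type} [Field k]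
  {π : A →+* k} {N : ℕ} [NeZero N]

/-- The kernel of the reduction map consists of the elements of valuation `< 1`. -/
theorem redF_eq_zero_iff_val (hπ : ∀ a : A, ¬ IsUnit a → π a = 0) (hNk : (N : k) ≠ 0)
    (y : Ow A π N hNk) :
    redF A π N hπ hNk y = 0 ↔
      (Ow A π N hNk).valuation (y : ↥(laurentBaseChange L (modularFunctionFieldFull N))) < 1 := by
  rw [redF_eq_zero_iff hπ hNk, ← ValuationSubring.valuation_lt_one_iff,
    IsLocalRing.mem_maximalIdeal]
  rfl

/-- Every nonzero function is a constant times a function of valuation `1`. -/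
theorem scaling (hπ : ∀ a : A, ¬ IsUnit a → π a = 0) (hNk : (N : k) ≠ 0)
    (y : ↥(laurentBaseChange L (modularFunctionFieldFull N))) (hy : y ≠ 0) :
    ∃ a : L, a ≠ 0 ∧ (Ow A π N hNk).valuation
      (algebraMap L ↥(laurentBaseChange L (modularFunctionFieldFull N)) a * y) = 1 := by
  obtain ⟨a, ha, hmem, hne⟩ := exists_scaling_Ow hπ hNk y hy
  refine ⟨a, ha, ?_⟩
  have hu : IsUnit (⟨_, hmem⟩ : Ow A π N hNk) := by
    by_contra hnu
    exact hne ((redF_eq_zero_iff hπ hNk _).mpr hnu)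
  exact (ValuationSubring.valuation_eq_one_iff _ _).mp hu

/-- The constants of `A`, as a ring homomorphism into the Gauss valuation ring. -/
def constHom (hπ : ∀ a : A, ¬ IsUnit a → π a = 0) (hNk : (N : k) ≠ 0) : A →+* Ow A π N hNk :=
  ((algebraMap L ↥(laurentBaseChange L (modularFunctionFieldFull N))).comp A.subtype).codRestrict
    (Ow A π N hNk) (fun a => (algebraMap_mem_Ow_iff hπ hNk (a : L)).mpr a.2)

/-- The reduction of `q(u)` for `q ∈ A[X]` and `u ∈ Ow` is `q̄(ū)`. -/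
theorem redF_aeval (hπ : ∀ a : A, ¬ IsUnit a → π a = 0) (hNk : (N : k) ≠ 0)
    (u : ↥(laurentBaseChange L (modularFunctionFieldFull N))) (hu : u ∈ Ow A π N hNk)
    (q : Polynomial A) (hmem : aeval u (q.map A.subtype) ∈ Ow A π N hNk) :
    redF A π N hπ hNk ⟨aeval u (q.map A.subtype), hmem⟩ =
      aeval (redF A π N hπ hNk ⟨u, hu⟩) (q.map π) := by
  have e : (⟨aeval u (q.map A.subtype), hmem⟩ : Ow A π N hNk) =
      eval₂ (constHom hπ hNk) ⟨u, hu⟩ q := by
    apply Subtype.ext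
    have h1 := Polynomial.hom_eval₂ q (constHom hπ hNk) (Ow A π N hNk).subtype ⟨u, hu⟩
    show aeval u (q.map A.subtype) = (Ow A π N hNk).subtype (eval₂ (constHom hπ hNk) ⟨u, hu⟩ q)
    rw [h1, aeval_def, eval₂_map]
    rfl
  rw [e, Polynomial.hom_eval₂, aeval_def, eval₂_map]
  congr 1
  exact RingHom.ext fun a => redF_algebraMap hπ hNk a

theorem redF_xL_inv (hπ : ∀ a : A, ¬ IsUnit a → π a = 0) (hNk : (N : k) ≠ 0) :
    redF A π N hπ hNk ⟨(xL L N)⁻¹, InstGenus.xL_inv_mem_Ow hπ hNk⟩ = (xk k N)⁻¹ := by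
  have hx0 : xL L N ≠ 0 := by
    intro h0
    exact InstGenus.transcendental_xL (L := L) N (h0 ▸ isAlgebraic_zero)
  have h1 : (⟨(xL L N)⁻¹, InstGenus.xL_inv_mem_Ow hπ hNk⟩ : Ow A π N hNk) *
      ⟨xL L N, xL_mem_Ow hNk⟩ = 1 := Subtype.ext (inv_mul_cancel₀ hx0)
  have h2 := congrArg (redF A π N hπ hNk) h1
  rw [map_mul, map_one, redF_xL hπ hNk] at h2
  exact eq_inv_of_mul_eq_one_left h2

variable [IsAlgClosed L] [IsAlgClosed k]

/-- **RED-K for the modular function fields** (good reduction of both charts as hypotheses):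
a function of `Ow` with reduction `1` whose divisor is divisible by the prime `p` (a unit of `A`)
is a `p`-th power. -/
theorem exists_pth_root_modular (hπ : ∀ a : A, ¬ IsUnit a → π a = 0)
    (hsurj : Function.Surjective π) (hNk : (N : k) ≠ 0) (hAL : ∃ a : L, a ∉ A)
    (hrank : ∀ c : L, A.valuation c < 1 → ∀ a : L, a ≠ 0 →
      ∃ m : ℕ, A.valuation (c ^ m) ≤ A.valuation a)
    (hT3 : ∀ s : ↥(modularFunctionFieldFullC k N),
        (∀ Q : Place k ↥(modularFunctionFieldFullC k N), 0 ≤ Q.ord (xk k N) → 0 ≤ Q.ord s) →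
        ∃ y : Ow A π N hNk, redF A π N hπ hNk y = s ∧
          ∀ P : Place L ↥(laurentBaseChange L (modularFunctionFieldFull N)),
            0 ≤ P.ord (xL L N) →
              0 ≤ P.ord (y : ↥(laurentBaseChange L (modularFunctionFieldFull N))))
    (hT3' : ∀ s : ↥(modularFunctionFieldFullC k N),
        (∀ Q : Place k ↥(modularFunctionFieldFullC k N), Q.ord (xk k N) ≤ 0 → 0 ≤ Q.ord s) →
        ∃ y : Ow A π N hNk, redF A π N hπ hNk y = s ∧
          ∀ P : Place L ↥(laurentBaseChange L (modularFunctionFieldFull N)),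
            P.ord (xL L N) ≤ 0 →
              0 ≤ P.ord (y : ↥(laurentBaseChange L (modularFunctionFieldFull N))))
    (p : ℕ) (hp : p.Prime) (hpA : A.valuation (p : L) = 1)
    (h : ↥(laurentBaseChange L (modularFunctionFieldFull N))) (hO : h ∈ Ow A π N hNk)
    (hred : redF A π N hπ hNk ⟨h, hO⟩ = 1)
    (hord : ∀ P : Place L ↥(laurentBaseChange L (modularFunctionFieldFull N)),
      (p : ℤ) ∣ P.ord h) :
    ∃ g : ↥(laurentBaseChange L (modularFunctionFieldFull N)), g ^ p = h := by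
  classical
  have hchar : CharZero L := charZero_of_injective_algebraMap (algebraMap ℚ L).injective
  have hfinL : FiniteDimensional ↥(L⟮xL L N⟯) ↥(laurentBaseChange L (modularFunctionFieldFull N)) :=
    finite_L hπ hsurj hNk
  have hfink : FiniteDimensional ↥(k⟮xk k N⟯) ↥(modularFunctionFieldFullC k N) :=
    finite_k (A := A) (π := π) hπ hsurj hNk
  have hfinL' : FiniteDimensional ↥(L⟮(xL L N)⁻¹⟯)
      ↥(laurentBaseChange L (modularFunctionFieldFull N)) :=
    Fermat.Agent.S24.Transfer.finiteDimensional_inv (K := L) (xL L N)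
  have hFF : IsFF1 L ↥(laurentBaseChange L (modularFunctionFieldFull N)) (xL L N) :=
    InstGenus.isFF1_xL (A := A) (π := π) hπ hsurj hNk
  have hS := OrthInst.setting (L := L) (A := A) (π := π) (N := N) hπ hNk
  have hxinv : (xL L N)⁻¹ ∈ Ow A π N hNk := InstGenus.xL_inv_mem_Ow hπ hNk
  have hS' := OrthChart.setting_inv hS hxinv
  have hscal := scaling (A := A) (π := π) (N := N) hπ hNk
  have hker := redF_eq_zero_iff_val (A := A) (π := π) (N := N) hπ hNk
  -- the two charts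
  obtain ⟨ι, hι, G, hG⟩ := exists_goodBasis_integral (A := A) (π := π) (N := N) hπ hsurj hNk
  have h₀ := OrthInst.good hNk hπ G hG
  obtain ⟨n, b, hC⟩ := OrthChart.exists_chart hS hscal _ h₀
  obtain ⟨m, h₀'⟩ := OrthChart.good_inv hS hxinv h₀
  obtain ⟨n', b', hC'⟩ := OrthChart.exists_chart hS' hscal _ h₀'
  -- constants
  have hconst : ∀ y : ↥(laurentBaseChange L (modularFunctionFieldFull N)),
      y ∈ IntL L (xL L N) → y ∈ IntL L (xL L N)⁻¹ →
      y ∈ (algebraMap L ↥(laurentBaseChange L (modularFunctionFieldFull N))).range := by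
    intro y hy hy'
    have h1 := (hFF.isIntegral_adjoin_iff y).mp hy
    have h2 := (hFF.isIntegral_adjoin_inv_iff y).mp hy'
    obtain ⟨c, hc⟩ := hFF.const_of_ord_nonneg y (fun P => by
      rcases le_total 0 (P.ord (xL L N)) with h0 | h0
      · exact h1 P h0
      · exact h2 P h0)
    exact ⟨c, hc.symm⟩
  -- `h ≡ 1`
  have hh : (Ow A π N hNk).valuation (h - 1) < 1 := by
    have h1 : redF A π N hπ hNk (⟨h, hO⟩ - 1) = 0 := by rw [map_sub, hred, map_one, sub_self]
    exact (hker _).1 h1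
  have hh0 : h ≠ 0 := by
    rintro rfl
    have h1 : (⟨0, hO⟩ : Ow A π N hNk) = 0 := rfl
    rw [h1, map_zero] at hred
    exact zero_ne_one hred
  -- good reduction of the chart `x`
  have hGp := pth_root_closed_of_lift hC hAL (redF A π N hπ hNk) hker
    (R₀ := ↥(Algebra.adjoin k ({xk k N} : Set ↥(modularFunctionFieldFullC k N))))
    (fun f hf hmem => by
      obtain ⟨q, rfl⟩ := exists_lift_of_isInt A hf
      rw [redF_aeval hπ hNk (xL L N) (xL_mem_Ow hNk) q hmem, redF_xL hπ hNk]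
      exact ⟨⟨_, Orth.aeval_mem_adjoin (q.map π)⟩, rfl⟩)
    (fun s hs => by
      obtain ⟨y, hy, hyP⟩ := hT3 s ((Holo.isIntegral_adjoin_iff (xk k N) s).mp hs)
      exact ⟨y, (Holo.isIntegral_adjoin_iff (xL L N) _).mpr hyP, hy⟩) hp.pos
  -- good reduction of the chart `x⁻¹`
  have hGp' := pth_root_closed_of_lift hC' hAL (redF A π N hπ hNk) hker
    (R₀ := ↥(Algebra.adjoin k ({(xk k N)⁻¹} : Set ↥(modularFunctionFieldFullC k N))))
    (fun f hf hmem => by
      obtain ⟨q, rfl⟩ := exists_lift_of_isInt A hf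
      rw [redF_aeval hπ hNk (xL L N)⁻¹ hxinv q hmem, redF_xL_inv hπ hNk]
      exact ⟨⟨_, Orth.aeval_mem_adjoin (q.map π)⟩, rfl⟩)
    (fun s hs => by
      obtain ⟨y, hy, hyP⟩ := hT3' s ((Holo.isIntegral_adjoin_inv_iff (xk k N) s).mp hs)
      exact ⟨y, (Holo.isIntegral_adjoin_inv_iff (xL L N) _).mpr hyP, hy⟩) hp.pos
  -- local structure in characteristic zero
  have hloc : ∀ c : L, c ∈ A → ∃ g : ↥(laurentBaseChange L (modularFunctionFieldFull N)),
      g ≠ 0 ∧ ∃ s₃ s₄ : L[X], s₃.eval c ≠ 0 ∧ s₄.eval c ≠ 0 ∧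
        aeval (xL L N) s₃ * (h * g ^ p) ∈ IntL L (xL L N) ∧
        aeval (xL L N) s₄ * (h * g ^ p)⁻¹ ∈ IntL L (xL L N) := by
    intro c _
    obtain ⟨g, s₃, s₄, hg, h3, h4, hu, hu'⟩ := FFInput.exists_local_index_data hFF hh0 hord c
    exact ⟨g, hg, s₃, s₄, h3, h4, hu, hu'⟩
  have hloc' : ∀ c : L, c ∈ A → ∃ g : ↥(laurentBaseChange L (modularFunctionFieldFull N)),
      g ≠ 0 ∧ ∃ s₃ s₄ : L[X], s₃.eval c ≠ 0 ∧ s₄.eval c ≠ 0 ∧
        aeval (xL L N)⁻¹ s₃ * (h * g ^ p) ∈ IntL L (xL L N)⁻¹ ∧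
        aeval (xL L N)⁻¹ s₄ * (h * g ^ p)⁻¹ ∈ IntL L (xL L N)⁻¹ := by
    intro c _
    obtain ⟨g, s₃, s₄, hg, h3, h4, hu, hu'⟩ :=
      FFInput.exists_local_index_data_inv hFF hh0 hord c
    exact ⟨g, hg, s₃, s₄, h3, h4, hu, hu'⟩
  exact exists_pth_root A (Ow A π N hNk) (xL L N) b b' hC hC' hAL hrank p hp hpA hconst h hh
    hGp hGp' hloc hloc'

/-! ### The case `L = ℚ̄` -/

section RatBar

local notation "Qbar" => AlgebraicClosure ℚ

/-- A valuation subring of `ℚ̄` over a prime is not all of `ℚ̄`. -/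
theorem exists_notMem_of_liesOver {ℓ : ℕ} (hℓ : ℓ.Prime) (A : ValuationSubring Qbar)
    (hA : A.LiesOverPrime ℓ) : ∃ a : Qbar, a ∉ A := by
  refine ⟨(ℓ : Qbar)⁻¹, fun hmem => ?_⟩
  have h1 := RankOne.valuation_prime_lt_one A hA
  have h2 : A.valuation ((ℓ : Qbar)⁻¹) ≤ 1 := (A.valuation_le_one_iff _).2 hmem
  have hℓ0 : (ℓ : Qbar) ≠ 0 := Nat.cast_ne_zero.mpr hℓ.ne_zero
  have h3 : A.valuation (ℓ : Qbar) * A.valuation ((ℓ : Qbar)⁻¹) = 1 := by
    rw [← map_mul, mul_inv_cancel₀ hℓ0, map_one]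
  have h4 : A.valuation (ℓ : Qbar) * A.valuation ((ℓ : Qbar)⁻¹) < 1 :=
    mul_lt_one_of_lt_of_le h1 h2
  exact absurd h3 (ne_of_lt h4)

/-- Rank one, in valuation form. -/
theorem rank_one {ℓ : ℕ} (hℓ : ℓ.Prime) (A : ValuationSubring Qbar) (hA : A.LiesOverPrime ℓ)
    (c : Qbar) (hc : A.valuation c < 1) (a : Qbar) (ha : a ≠ 0) :
    ∃ m : ℕ, A.valuation (c ^ m) ≤ A.valuation a := by
  by_cases hc0 : c = 0
  · exact ⟨1, by rw [hc0, pow_one, map_zero]; exact zero_le⟩
  have hcA : c ∈ A := (A.valuation_le_one_iff _).1 hc.le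
  have hc' : c⁻¹ ∉ A := by
    intro hmem
    have h2 : A.valuation c⁻¹ ≤ 1 := (A.valuation_le_one_iff _).2 hmem
    have h3 : A.valuation c * A.valuation c⁻¹ = 1 := by
      rw [← map_mul, mul_inv_cancel₀ hc0, map_one]
    have h4 : A.valuation c * A.valuation c⁻¹ < 1 := mul_lt_one_of_lt_of_le hc h2
    exact absurd h3 (ne_of_lt h4)
  obtain ⟨m, hm⟩ := RankOne.exists_pow_mul_mem A hℓ hA c a hcA hc' ha
  refine ⟨m, ?_⟩
  have h1 : A.valuation (c ^ m * a⁻¹) ≤ 1 := (A.valuation_le_one_iff _).2 hm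
  have ha0 : A.valuation a ≠ 0 := by
    rw [Ne, map_eq_zero]
    exact ha
  rw [map_mul, map_inv₀] at h1
  have h2 := (mul_inv_le_iff₀ (zero_lt_iff.mpr ha0)).mp h1
  rwa [one_mul] at h2

/-- **(K18) for a prime exponent `p ≠ ℓ`**, for a valuation subring `A` of `ℚ̄` over `ℓ ∤ N`
(with any residue map `π : A →+* k` onto an algebraically closed field), with the good reduction
of both charts of `x = J(q^N)` as hypotheses. -/
theorem k18_prime_of_T3 (N : ℕ) [NeZero N] {ℓ : ℕ} (hℓ : ℓ.Prime) (A : ValuationSubring Qbar)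
    (hA : A.LiesOverPrime ℓ) {k : Type} [Field k] [IsAlgClosed k] (π : A →+* k)
    (hπ : ∀ a : A, ¬ IsUnit a → π a = 0) (hsurj : Function.Surjective π) (hNk : (N : k) ≠ 0)
    (hT3 : ∀ s : ↥(modularFunctionFieldFullC k N),
        (∀ Q : Place k ↥(modularFunctionFieldFullC k N), 0 ≤ Q.ord (xk k N) → 0 ≤ Q.ord s) →
        ∃ y : Ow A π N hNk, redF A π N hπ hNk y = s ∧
          ∀ P : Place Qbar ↥(laurentBaseChange Qbar (modularFunctionFieldFull N)),
            0 ≤ P.ord (xL Qbar N) →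
              0 ≤ P.ord (y : ↥(laurentBaseChange Qbar (modularFunctionFieldFull N))))
    (hT3' : ∀ s : ↥(modularFunctionFieldFullC k N),
        (∀ Q : Place k ↥(modularFunctionFieldFullC k N), Q.ord (xk k N) ≤ 0 → 0 ≤ Q.ord s) →
        ∃ y : Ow A π N hNk, redF A π N hπ hNk y = s ∧
          ∀ P : Place Qbar ↥(laurentBaseChange Qbar (modularFunctionFieldFull N)),
            P.ord (xL Qbar N) ≤ 0 →
              0 ≤ P.ord (y : ↥(laurentBaseChange Qbar (modularFunctionFieldFull N))))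
    (p : ℕ) (hp : p.Prime) (hpℓ : p ≠ ℓ)
    (h : modularFunctionFieldBar N) (hO : h ∈ Ow A π N hNk)
    (hord : ∀ P : Place Qbar (modularFunctionFieldBar N), (p : ℤ) ∣ P.ord h)
    (hred : redF A π N hπ hNk ⟨h, hO⟩ = 1) :
    ∃ g : modularFunctionFieldBar N, g ^ p = h := by
  have hpA : A.valuation (p : Qbar) = 1 := by
    have h1 := RankOne.valuation_intCast_eq_one A hℓ hA (p : ℤ) (by
      intro hdvd
      have h2 : ℓ ∣ p := Int.natCast_dvd_natCast.mp hdvd
      rcases (Nat.dvd_prime hp).mp h2 with h3 | h3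
      · exact hℓ.ne_one h3
      · exact hpℓ h3.symm)
    rwa [Int.cast_natCast] at h1
  exact exists_pth_root_modular hπ hsurj hNk
    (exists_notMem_of_liesOver hℓ A hA) (rank_one hℓ A hA) hT3 hT3' p hp hpA h hO hred hord

end RatBar

end

end Fermat.Agent.Lib.RedK.Inst
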