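/-
RED-K (helper95): the modular instance for an arbitrary base function `B : BaseFn.Data A π N`
(`B := Data.ofJ` for `x = J(q^N)`, `ofHaupt2/3` for the Hauptmoduln at `ℓ = 3, 2`).

`exists_pth_root_base` / `k18_of_base`: a function `h ∈ Ow` with reduction `1` all of whose
orders are divisible by the prime `p` (a unit of `A`) is a `p`-th power, provided both charts of
`x = B.x` have good reduction (`hT3`, `hT3'`: the place-form hypotheses of
`InstGenusX.genusFF_le_modular`).  No place reduction map is used.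
-/
import Mathlib
import Fermat.Agent.Lib.RedK.Inst
import Fermat.Agent.Lib.Red.OrthInstX
import Fermat.Agent.Lib.Red.InstGenusX

set_option autoImplicit false

namespace Fermat.Agent.Lib.RedK.InstX

open HahnSeries ModularCurve Polynomial AlgebraicCurve Fermat.Agent.S28 IntermediateField
  Fermat.Agent.Lib.FF Fermat.Agent.Lib.Red Fermat.Agent.Lib.RedK.Inst

noncomputable section

variable {L : Type*} [Field L] [Algebra ℚ L] {A : ValuationSubring L} {k : Type} [Field k]
  {π : A →+* k} {N : ℕ} [NeZero N]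

theorem redF_x_inv (B : BaseFn.Data A π N) (hπ : ∀ a : A, ¬ IsUnit a → π a = 0)
    (hNk : (N : k) ≠ 0) :
    redF A π N hπ hNk ⟨(B.x)⁻¹, B.x_inv_mem_Ow hπ hNk⟩ = (B.xt hπ hNk)⁻¹ := by
  have hx0 : B.x ≠ 0 := B.x_ne_zero hπ hNk
  have h1 : (⟨(B.x)⁻¹, B.x_inv_mem_Ow hπ hNk⟩ : Ow A π N hNk) *
      ⟨B.x, B.x_mem_Ow hNk⟩ = 1 := Subtype.ext (inv_mul_cancel₀ hx0)
  have h2 := congrArg (redF A π N hπ hNk) h1
  rw [map_mul, map_one, B.redF_x hπ hNk] at h2
  exact eq_inv_of_mul_eq_one_left h2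

variable [IsAlgClosed L] [IsAlgClosed k]

/-- **RED-K for the modular function fields, generic base function** (good reduction of both
charts as hypotheses): a function of `Ow` with reduction `1` whose divisor is divisible by the
prime `p` (a unit of `A`) is a `p`-th power. -/
theorem exists_pth_root_base (B : BaseFn.Data A π N) (hπ : ∀ a : A, ¬ IsUnit a → π a = 0)
    (hsurj : Function.Surjective π) (hNk : (N : k) ≠ 0) (hAL : ∃ a : L, a ∉ A)
    (hrank : ∀ c : L, A.valuation c < 1 → ∀ a : L, a ≠ 0 →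
      ∃ m : ℕ, A.valuation (c ^ m) ≤ A.valuation a)
    (hT3 : ∀ s : ↥(modularFunctionFieldFullC k N),
        (∀ Q : Place k ↥(modularFunctionFieldFullC k N), 0 ≤ Q.ord (B.xt hπ hNk) → 0 ≤ Q.ord s) →
        ∃ y : Ow A π N hNk, redF A π N hπ hNk y = s ∧
          ∀ P : Place L ↥(laurentBaseChange L (modularFunctionFieldFull N)),
            0 ≤ P.ord B.x →
              0 ≤ P.ord (y : ↥(laurentBaseChange L (modularFunctionFieldFull N))))
    (hT3' : ∀ s : ↥(modularFunctionFieldFullC k N),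
        (∀ Q : Place k ↥(modularFunctionFieldFullC k N), Q.ord (B.xt hπ hNk) ≤ 0 → 0 ≤ Q.ord s) →
        ∃ y : Ow A π N hNk, redF A π N hπ hNk y = s ∧
          ∀ P : Place L ↥(laurentBaseChange L (modularFunctionFieldFull N)),
            P.ord B.x ≤ 0 →
              0 ≤ P.ord (y : ↥(laurentBaseChange L (modularFunctionFieldFull N))))
    (p : ℕ) (hp : p.Prime) (hpA : A.valuation (p : L) = 1)
    (h : ↥(laurentBaseChange L (modularFunctionFieldFull N))) (hO : h ∈ Ow A π N hNk)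
    (hred : redF A π N hπ hNk ⟨h, hO⟩ = 1)
    (hord : ∀ P : Place L ↥(laurentBaseChange L (modularFunctionFieldFull N)),
      (p : ℤ) ∣ P.ord h) :
    ∃ g : ↥(laurentBaseChange L (modularFunctionFieldFull N)), g ^ p = h := by
  classical
  have hchar : CharZero L := charZero_of_injective_algebraMap (algebraMap ℚ L).injective
  have hfinL : FiniteDimensional ↥(L⟮B.x⟯) ↥(laurentBaseChange L (modularFunctionFieldFull N)) :=
    B.finite_L hπ hsurj hNk
  have hfink : FiniteDimensional ↥(k⟮B.xt hπ hNk⟯) ↥(modularFunctionFieldFullC k N) :=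
    B.finite_k hπ hsurj hNk
  have hfinL' : FiniteDimensional ↥(L⟮(B.x)⁻¹⟯)
      ↥(laurentBaseChange L (modularFunctionFieldFull N)) :=
    Fermat.Agent.S24.Transfer.finiteDimensional_inv (K := L) B.x
  have hFF : IsFF1 L ↥(laurentBaseChange L (modularFunctionFieldFull N)) B.x :=
    InstGenusX.isFF1_x B hπ hsurj hNk
  have hS := OrthInstX.setting B hπ hNk
  have hxinv : (B.x)⁻¹ ∈ Ow A π N hNk := B.x_inv_mem_Ow hπ hNk
  have hS' := OrthChart.setting_inv hS hxinv
  have hscal := scaling (A := A) (π := π) (N := N) hπ hNk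
  have hker := redF_eq_zero_iff_val (A := A) (π := π) (N := N) hπ hNk
  -- the two charts
  obtain ⟨n₀, G, hG⟩ := B.exists_goodBasis_integral hπ hsurj hNk
  have h₀ := OrthInstX.good B hNk hπ G hG
  obtain ⟨n, b, hC⟩ := OrthChart.exists_chart hS hscal _ h₀
  obtain ⟨m, h₀'⟩ := OrthChart.good_inv hS hxinv h₀
  obtain ⟨n', b', hC'⟩ := OrthChart.exists_chart hS' hscal _ h₀'
  -- constants
  have hconst : ∀ y : ↥(laurentBaseChange L (modularFunctionFieldFull N)),
      y ∈ IntL L B.x → y ∈ IntL L (B.x)⁻¹ →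
      y ∈ (algebraMap L ↥(laurentBaseChange L (modularFunctionFieldFull N))).range := by
    intro y hy hy'
    have h1 := (hFF.isIntegral_adjoin_iff y).mp hy
    have h2 := (hFF.isIntegral_adjoin_inv_iff y).mp hy'
    obtain ⟨c, hc⟩ := hFF.const_of_ord_nonneg y (fun P => by
      rcases le_total 0 (P.ord B.x) with h0 | h0
      · exact h1 P h0
      · exact h2 P h0)
    exact ⟨c, hc.symm⟩
  -- `h ≡ 1`
  have hh : (Ow A π N hNk).valuation (h - 1) < 1 := by
    have h1 : redF A π N hπ hNk (⟨h, hO⟩ - 1) = 0 := by rw [map_sub, hred, map_one, sub_self]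
    exact (hker _).1 h1
  have hh0 : h ≠ 0 := by
    rintro rfl
    have h1 : (⟨0, hO⟩ : Ow A π N hNk) = 0 := rfl
    rw [h1, map_zero] at hred
    exact zero_ne_one hred
  -- good reduction of the chart `x`
  have hGp := pth_root_closed_of_lift hC hAL (redF A π N hπ hNk) hker
    (R₀ := ↥(Algebra.adjoin k ({B.xt hπ hNk} : Set ↥(modularFunctionFieldFullC k N))))
    (fun f hf hmem => by
      obtain ⟨q, rfl⟩ := exists_lift_of_isInt A hf
      rw [redF_aeval hπ hNk B.x (B.x_mem_Ow hNk) q hmem, B.redF_x hπ hNk]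
      exact ⟨⟨_, Orth.aeval_mem_adjoin (q.map π)⟩, rfl⟩)
    (fun s hs => by
      obtain ⟨y, hy, hyP⟩ := hT3 s ((Holo.isIntegral_adjoin_iff (B.xt hπ hNk) s).mp hs)
      exact ⟨y, (Holo.isIntegral_adjoin_iff B.x _).mpr hyP, hy⟩) hp.pos
  -- good reduction of the chart `x⁻¹`
  have hGp' := pth_root_closed_of_lift hC' hAL (redF A π N hπ hNk) hker
    (R₀ := ↥(Algebra.adjoin k ({(B.xt hπ hNk)⁻¹} : Set ↥(modularFunctionFieldFullC k N))))
    (fun f hf hmem => by
      obtain ⟨q, rfl⟩ := exists_lift_of_isInt A hf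
      rw [redF_aeval hπ hNk (B.x)⁻¹ hxinv q hmem, redF_x_inv B hπ hNk]
      exact ⟨⟨_, Orth.aeval_mem_adjoin (q.map π)⟩, rfl⟩)
    (fun s hs => by
      obtain ⟨y, hy, hyP⟩ := hT3' s ((Holo.isIntegral_adjoin_inv_iff (B.xt hπ hNk) s).mp hs)
      exact ⟨y, (Holo.isIntegral_adjoin_inv_iff B.x _).mpr hyP, hy⟩) hp.pos
  -- local structure in characteristic zero
  have hloc : ∀ c : L, c ∈ A → ∃ g : ↥(laurentBaseChange L (modularFunctionFieldFull N)),
      g ≠ 0 ∧ ∃ s₃ s₄ : L[X], s₃.eval c ≠ 0 ∧ s₄.eval c ≠ 0 ∧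
        aeval B.x s₃ * (h * g ^ p) ∈ IntL L B.x ∧
        aeval B.x s₄ * (h * g ^ p)⁻¹ ∈ IntL L B.x := by
    intro c _
    obtain ⟨g, s₃, s₄, hg, h3, h4, hu, hu'⟩ := FFInput.exists_local_index_data hFF hh0 hord c
    exact ⟨g, hg, s₃, s₄, h3, h4, hu, hu'⟩
  have hloc' : ∀ c : L, c ∈ A → ∃ g : ↥(laurentBaseChange L (modularFunctionFieldFull N)),
      g ≠ 0 ∧ ∃ s₃ s₄ : L[X], s₃.eval c ≠ 0 ∧ s₄.eval c ≠ 0 ∧
        aeval (B.x)⁻¹ s₃ * (h * g ^ p) ∈ IntL L (B.x)⁻¹ ∧
        aeval (B.x)⁻¹ s₄ * (h * g ^ p)⁻¹ ∈ IntL L (B.x)⁻¹ := by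
    intro c _
    obtain ⟨g, s₃, s₄, hg, h3, h4, hu, hu'⟩ :=
      FFInput.exists_local_index_data_inv hFF hh0 hord c
    exact ⟨g, hg, s₃, s₄, h3, h4, hu, hu'⟩
  exact exists_pth_root A (Ow A π N hNk) B.x b b' hC hC' hAL hrank p hp hpA hconst h hh
    hGp hGp' hloc hloc'

end

/-! ### The case `L = ℚ̄` -/

section RatBar

local notation "Qbar" => AlgebraicClosure ℚ

/-- **(K18) for a prime exponent `p ≠ ℓ`, generic base function**: for a valuation subring `A`
of `ℚ̄` over `ℓ` (with any residue map `π : A →+* k` onto an algebraically closed field) and any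
base-function data `B`, with the good reduction of both charts of `x = B.x` as hypotheses. -/
theorem k18_of_base (N : ℕ) [NeZero N] {ℓ : ℕ} (hℓ : ℓ.Prime) (A : ValuationSubring Qbar)
    (hA : A.LiesOverPrime ℓ) {k : Type} [Field k] [IsAlgClosed k] (π : A →+* k)
    (B : BaseFn.Data A π N)
    (hπ : ∀ a : A, ¬ IsUnit a → π a = 0) (hsurj : Function.Surjective π) (hNk : (N : k) ≠ 0)
    (hT3 : ∀ s : ↥(modularFunctionFieldFullC k N),
        (∀ Q : Place k ↥(modularFunctionFieldFullC k N), 0 ≤ Q.ord (B.xt hπ hNk) → 0 ≤ Q.ord s) →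
        ∃ y : Ow A π N hNk, redF A π N hπ hNk y = s ∧
          ∀ P : Place Qbar ↥(laurentBaseChange Qbar (modularFunctionFieldFull N)),
            0 ≤ P.ord B.x →
              0 ≤ P.ord (y : ↥(laurentBaseChange Qbar (modularFunctionFieldFull N))))
    (hT3' : ∀ s : ↥(modularFunctionFieldFullC k N),
        (∀ Q : Place k ↥(modularFunctionFieldFullC k N), Q.ord (B.xt hπ hNk) ≤ 0 → 0 ≤ Q.ord s) →
        ∃ y : Ow A π N hNk, redF A π N hπ hNk y = s ∧
          ∀ P : Place Qbar ↥(laurentBaseChange Qbar (modularFunctionFieldFull N)),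
            P.ord B.x ≤ 0 →
              0 ≤ P.ord (y : ↥(laurentBaseChange Qbar (modularFunctionFieldFull N))))
    (p : ℕ) (hp : p.Prime) (hpℓ : p ≠ ℓ)
    (h : modularFunctionFieldBar N) (hO : h ∈ Ow A π N hNk)
    (hord : ∀ P : Place Qbar (modularFunctionFieldBar N), (p : ℤ) ∣ P.ord h)
    (hred : redF A π N hπ hNk ⟨h, hO⟩ = 1) :
    ∃ g : modularFunctionFieldBar N, g ^ p = h := by
  have hpA : A.valuation (p : Qbar) = 1 := by
    have h1 := RankOne.valuation_intCast_eq_one A hℓ hA (p : ℤ) (by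
      intro hdvd
      have h2 : ℓ ∣ p := Int.natCast_dvd_natCast.mp hdvd
      rcases (Nat.dvd_prime hp).mp h2 with h3 | h3
      · exact hℓ.ne_one h3
      · exact hpℓ h3.symm)
    rwa [Int.cast_natCast] at h1
  exact exists_pth_root_base B hπ hsurj hNk
    (exists_notMem_of_liesOver hℓ A hA) (rank_one hℓ A hA) hT3 hT3' p hp hpA h hO hred hord

end RatBar

end Fermat.Agent.Lib.RedK.InstX
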