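/-
RED-KVR (task 250, consumer helper95): bounded torsion for finitely generated modules.

The statements requested are for valuation rings; the proof (induction on the number of
generators) works over an arbitrary domain, so general versions `…_domain` are exported too
and the `ValuationRing` versions are corollaries with the exact requested signatures.
-/
import Mathlib

set_option autoImplicit false

namespace Fermat.Agent.Lib.RedK

/-- Core induction: over a domain `A`, for a submodule `N` of an `A`-module `V` and a finite set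
`G ⊆ V`, the "torsion modulo `N`" of `N + span G` is killed by a single nonzero scalar. -/
theorem exists_bounded_torsion_sup_span_domain {A : Type*} [CommRing A] [IsDomain A]
    {V : Type*} [AddCommGroup V] [Module A V] (N : Submodule A V) (G : Finset V) :
    ∃ c : A, c ≠ 0 ∧ ∀ z ∈ N ⊔ Submodule.span A (G : Set V),
      (∃ a : A, a ≠ 0 ∧ a • z ∈ N) → c • z ∈ N := by
  classical
  induction G using Finset.induction_on with
  | empty =>
    refine ⟨1, one_ne_zero, fun z hz _ => ?_⟩
    simpa using hz
  | insert x G _ ih =>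
    obtain ⟨c₁, hc₁, h₁⟩ := ih
    set P : Submodule A V := N ⊔ Submodule.span A (G : Set V) with hP
    have hsup : N ⊔ Submodule.span A ((insert x G : Finset V) : Set V)
        = P ⊔ Submodule.span A {x} := by
      rw [Finset.coe_insert, Submodule.span_insert, hP]
      rw [sup_assoc, sup_comm (Submodule.span A {x})]
    by_cases hb : ∃ b : A, b ≠ 0 ∧ b • x ∈ P
    · obtain ⟨b, hb0, hbx⟩ := hb
      refine ⟨c₁ * b, mul_ne_zero hc₁ hb0, fun z hz ⟨a, ha0, haz⟩ => ?_⟩
      rw [hsup] at hz
      obtain ⟨w, hw, y, hy, rfl⟩ := Submodule.mem_sup.mp hz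
      obtain ⟨r, rfl⟩ := Submodule.mem_span_singleton.mp hy
      have hbz : b • (w + r • x) ∈ P := by
        have h2 : b • (w + r • x) = b • w + r • (b • x) := by
          rw [smul_add, smul_smul, smul_smul, mul_comm]
        rw [h2]
        exact P.add_mem (P.smul_mem b hw) (P.smul_mem r hbx)
      have h3 : c₁ • (b • (w + r • x)) ∈ N := by
        refine h₁ _ hbz ⟨a, ha0, ?_⟩
        rw [smul_smul, mul_comm, ← smul_smul]
        exact N.smul_mem b haz
      rwa [smul_smul] at h3
    · refine ⟨c₁, hc₁, fun z hz ⟨a, ha0, haz⟩ => ?_⟩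
      rw [hsup] at hz
      obtain ⟨w, hw, y, hy, rfl⟩ := Submodule.mem_sup.mp hz
      obtain ⟨r, rfl⟩ := Submodule.mem_span_singleton.mp hy
      have hr : r = 0 := by
        by_contra hr0
        apply hb
        refine ⟨a * r, mul_ne_zero ha0 hr0, ?_⟩
        have h2 : (a * r) • x = a • (w + r • x) - a • w := by
          rw [smul_add, smul_smul]; abel
        rw [h2]
        exact P.sub_mem (le_sup_left (a := N) haz) (P.smul_mem a hw)
      subst hr
      have hz' : w + (0 : A) • x = w := by simp
      rw [hz'] at haz ⊢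
      exact h₁ w hw ⟨a, ha0, haz⟩

/-- Bounded torsion modulo a submodule, over an arbitrary domain. -/
theorem exists_bounded_torsion_quot_domain {A : Type*} [CommRing A] [IsDomain A]
    {V : Type*} [AddCommGroup V] [Module A V] (N : Submodule A V) (G : Finset V)
    (W : Submodule A V) (hW : W ≤ N ⊔ Submodule.span A (G : Set V)) :
    ∃ c : A, c ≠ 0 ∧ ∀ z ∈ W, (∃ a : A, a ≠ 0 ∧ a • z ∈ N) → c • z ∈ N := by
  obtain ⟨c, hc, h⟩ := exists_bounded_torsion_sup_span_domain N G
  exact ⟨c, hc, fun z hz ha => h z (hW hz) ha⟩

/-- A finitely generated module over a domain has bounded torsion. -/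
theorem exists_bounded_torsion_domain {A : Type*} [CommRing A] [IsDomain A]
    {H : Type*} [AddCommGroup H] [Module A H] [Module.Finite A H] :
    ∃ c : A, c ≠ 0 ∧ ∀ z : H, (∃ a : A, a ≠ 0 ∧ a • z = 0) → c • z = 0 := by
  obtain ⟨G, hG⟩ := (Module.Finite.fg_top : (⊤ : Submodule A H).FG)
  obtain ⟨c, hc, h⟩ := exists_bounded_torsion_sup_span_domain (⊥ : Submodule A H) G
  refine ⟨c, hc, fun z ⟨a, ha0, haz⟩ => ?_⟩
  have hz : z ∈ (⊥ : Submodule A H) ⊔ Submodule.span A (G : Set H) := by
    rw [hG]; simp
  have := h z hz ⟨a, ha0, by simpa using haz⟩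
  simpa using this

/-- RED-KVR, first requested form: a finitely generated module over a valuation ring has
bounded torsion. (The `ValuationRing` hypothesis is not used.) -/
theorem exists_bounded_torsion {A : Type*} [CommRing A] [IsDomain A] [ValuationRing A]
    {H : Type*} [AddCommGroup H] [Module A H] [Module.Finite A H] :
    ∃ c : A, c ≠ 0 ∧ ∀ z : H, (∃ a : A, a ≠ 0 ∧ a • z = 0) → c • z = 0 :=
  exists_bounded_torsion_domain

/-- RED-KVR, second requested form (the one used by RED-K5). (The `ValuationRing` hypothesis is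
not used.) -/
theorem exists_bounded_torsion_quot {A : Type*} [CommRing A] [IsDomain A] [ValuationRing A]
    {V : Type*} [AddCommGroup V] [Module A V] (N : Submodule A V) (G : Finset V)
    (W : Submodule A V) (hW : W ≤ N ⊔ Submodule.span A (G : Set V)) :
    ∃ c : A, c ≠ 0 ∧ ∀ z ∈ W, (∃ a : A, a ≠ 0 ∧ a • z ∈ N) → c • z ∈ N :=
  exists_bounded_torsion_quot_domain N G W hW

end Fermat.Agent.Lib.RedK
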