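/-
helper83 — RED-K5 (task 253): the ENDGAME of helper95's `r`-free Kummer route.

Sections `≡ 1` of the (torsion) line bundle `{y | y^p h integral}` on both charts `x`, `x⁻¹`
of the Gauss valuation ring force `h` to be a `p`-th power: Newton iteration on each chart,
comparison on the overlap, bounded torsion of the finitely generated `A`-module `H¹`.
-/
import Mathlib
import Fermat.Agent.Lib.RedK.Defs
import Fermat.Agent.Lib.RedK.BoundedTorsion

set_option autoImplicit false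

namespace Fermat.Agent.Lib.RedK

namespace Endgame

open Polynomial

variable {L F : Type*} [Field L] [Field F] [Algebra L F]

/-! ### The subrings `IntL L t` -/

theorem mem_IntL_iff (t y : F) :
    y ∈ IntL L t ↔ IsIntegral (Algebra.adjoin L ({t} : Set F)) y := Iff.rfl

theorem algebraMap_mem_IntL (t : F) (c : L) : algebraMap L F c ∈ IntL L t := by
  rw [mem_IntL_iff]
  have h : algebraMap L F c = algebraMap (Algebra.adjoin L ({t} : Set F)) F
      (algebraMap L (Algebra.adjoin L ({t} : Set F)) c) := rfl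
  rw [h]
  exact isIntegral_algebraMap

theorem self_mem_IntL (t : F) : t ∈ IntL L t := by
  rw [mem_IntL_iff]
  have h : t = algebraMap (Algebra.adjoin L ({t} : Set F)) F
      ⟨t, Algebra.self_mem_adjoin_singleton L t⟩ := rfl
  rw [h]
  exact isIntegral_algebraMap

theorem mem_IntL_of_pow (t : F) {n : ℕ} (hn : 0 < n) {w : F} (hw : w ^ n ∈ IntL L t) :
    w ∈ IntL L t := by
  rw [mem_IntL_iff] at hw ⊢
  exact IsIntegral.of_pow hn hw

/-- `q(t) · t^{-n}` is a polynomial in `t⁻¹` when `deg q ≤ n`. -/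
theorem aeval_mul_inv_pow_mem (t : F) (ht : t ≠ 0) (q : L[X]) (n : ℕ) (hn : q.natDegree ≤ n) :
    aeval t q * t⁻¹ ^ n ∈ Algebra.adjoin L ({t⁻¹} : Set F) := by
  rw [aeval_eq_sum_range, Finset.sum_mul]
  refine Subalgebra.sum_mem _ (fun j hj => ?_)
  have hj' : j ≤ n := (Nat.lt_succ_iff.mp (Finset.mem_range.mp hj)).trans hn
  have h1 : q.coeff j • t ^ j * t⁻¹ ^ n = q.coeff j • t⁻¹ ^ (n - j) := by
    rw [smul_mul_assoc]
    congr 1
    have : t⁻¹ ^ n = t⁻¹ ^ j * t⁻¹ ^ (n - j) := by rw [← pow_add, Nat.add_sub_cancel' hj']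
    rw [this, ← mul_assoc, ← mul_pow, mul_inv_cancel₀ ht, one_pow, one_mul]
  rw [h1]
  exact Subalgebra.smul_mem _ (Subalgebra.pow_mem _ (Algebra.self_mem_adjoin_singleton L _) _) _

/-- **Scaling lemma (S).**  If `w` is integral over `L[t]` then `t^{-k} w` is integral over
`L[t⁻¹]` for some `k`. -/
theorem exists_inv_pow_mul_mem (t : F) (ht : t ≠ 0) {w : F} (hw : w ∈ IntL L t) :
    ∃ k : ℕ, t⁻¹ ^ k * w ∈ IntL L t⁻¹ := by
  classical
  obtain ⟨P, hPm, hP⟩ := (mem_IntL_iff t w).mp hw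
  have hcoef : ∀ i, ∃ q : L[X],
      ((P.coeff i : Algebra.adjoin L ({t} : Set F)) : F) = aeval t q := by
    intro i
    have h : ((P.coeff i : Algebra.adjoin L ({t} : Set F)) : F) ∈
        (aeval t : L[X] →ₐ[L] F).range := by
      rw [← Algebra.adjoin_singleton_eq_range_aeval]
      exact (P.coeff i).2
    obtain ⟨q, hq⟩ := h
    exact ⟨q, hq.symm⟩
  choose q hq using hcoef
  set d := P.natDegree with hd
  set k := (Finset.range (d + 1)).sup (fun i => (q i).natDegree) with hk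
  refine ⟨k, ?_⟩
  set PF : F[X] := P.map (algebraMap (Algebra.adjoin L ({t} : Set F)) F) with hPF
  have hPFm : PF.Monic := hPm.map _
  have hPFd : PF.natDegree = d := hPm.natDegree_map _
  have hPF0 : eval₂ (RingHom.id F) w PF = 0 := by
    rw [hPF, eval₂_map, RingHom.id_comp]
    exact hP
  set s : F := t⁻¹ ^ k with hs
  set Q : F[X] := scaleRoots PF s with hQ
  have hQm : Q.Monic := (monic_scaleRoots_iff s).mpr hPFm
  have hQ0 : eval (s * w) Q = 0 := by
    have := scaleRoots_eval₂_eq_zero (RingHom.id F) (s := s) hPF0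
    simpa [eval₂_id] using this
  have hQl : Q ∈ lifts (algebraMap (Algebra.adjoin L ({t⁻¹} : Set F)) F) := by
    rw [lifts_iff_coeff_lifts]
    intro i
    have hci : Q.coeff i = PF.coeff i * s ^ (d - i) := by
      rw [hQ, coeff_scaleRoots, hPFd]
    have hmem : Q.coeff i ∈ Algebra.adjoin L ({t⁻¹} : Set F) := by
      rcases lt_trichotomy i d with hlt | heq | hgt
      · rw [hci, hPF, coeff_map]
        have h1 : algebraMap (Algebra.adjoin L ({t} : Set F)) F (P.coeff i) = aeval t (q i) :=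
          hq i
        rw [h1, hs, ← pow_mul]
        refine aeval_mul_inv_pow_mem t ht (q i) _ ?_
        have h2 : (q i).natDegree ≤ k :=
          Finset.le_sup (f := fun i => (q i).natDegree)
            (Finset.mem_range.mpr (Nat.lt_succ_of_lt hlt))
        have h3 : 1 ≤ d - i := Nat.sub_pos_of_lt hlt
        calc (q i).natDegree ≤ k := h2
          _ = k * 1 := (mul_one k).symm
          _ ≤ k * (d - i) := Nat.mul_le_mul_left k h3
      · rw [hci, heq, Nat.sub_self, pow_zero, mul_one, ← hPFd]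
        have : PF.coeff PF.natDegree = 1 := hPFm.coeff_natDegree
        rw [this]
        exact Subalgebra.one_mem _
      · have : PF.coeff i = 0 := coeff_eq_zero_of_natDegree_lt (hPFd ▸ hgt)
        rw [hci, this, zero_mul]
        exact Subalgebra.zero_mem _
    exact ⟨⟨Q.coeff i, hmem⟩, rfl⟩
  obtain ⟨Q₂, hQ₂, -, hQ₂m⟩ := lifts_and_natDegree_eq_and_monic hQl hQm
  rw [mem_IntL_iff]
  refine ⟨Q₂, hQ₂m, ?_⟩
  rw [← eval_map, hQ₂]
  exact hQ0

/-! ### Valuation bookkeeping -/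

section Val

variable (O : ValuationSubring F)

theorem val_eq_one_of_sub_one {a : F} (ha : O.valuation (a - 1) < 1) : O.valuation a = 1 := by
  have := O.valuation.map_one_add_of_lt ha
  simpa using this

theorem val_sub_one_mul {a b : F} (ha : O.valuation (a - 1) < 1)
    (hb : O.valuation (b - 1) < 1) : O.valuation (a * b - 1) < 1 := by
  have hb1 : O.valuation b = 1 := val_eq_one_of_sub_one O hb
  have h : a * b - 1 = (a - 1) * b + (b - 1) := by ring
  rw [h]
  refine Valuation.map_add_lt _ ?_ hb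
  rw [map_mul, hb1, mul_one]
  exact ha

theorem val_sub_one_pow {a : F} (ha : O.valuation (a - 1) < 1) (n : ℕ) :
    O.valuation (a ^ n - 1) < 1 := by
  induction n with
  | zero => simp
  | succ n ih =>
    rw [pow_succ]
    exact val_sub_one_mul O ih ha

theorem one_add_pow_expand (S : Subring F) {s : F} (hs : s ∈ S) (m : ℕ) :
    ∃ q ∈ S, (1 + s) ^ m = 1 + m * s + s ^ 2 * q := by
  induction m with
  | zero => exact ⟨0, S.zero_mem, by simp⟩
  | succ m ih =>
    obtain ⟨q, hq, h⟩ := ih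
    refine ⟨m + q + q * s, ?_, ?_⟩
    · exact S.add_mem (S.add_mem (natCast_mem S m) hq) (S.mul_mem hq hs)
    · rw [pow_succ, h]
      push_cast
      ring

/-- **Newton step** for the equation `a^p h = 1`. -/
theorem newton_step (R : Subring F) (hLR : ∀ c : L, algebraMap L F c ∈ R) (p : ℕ)
    (hpO : O.valuation (p : F) = 1) (h : F) (hh : O.valuation (h - 1) < 1) (a : F)
    (ha : a ^ p * h - 1 ∈ R) (ha1 : O.valuation (a - 1) < 1) :
    ∃ a' : F, a' ^ p * h - 1 ∈ R ∧
      O.valuation (a' ^ p * h - 1) ≤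
        O.valuation (a ^ p * h - 1) * O.valuation (a ^ p * h - 1) ∧
      O.valuation (a' - 1) < 1 := by
  set ε := a ^ p * h - 1 with hε
  have hεlt : O.valuation ε < 1 := val_sub_one_mul O (val_sub_one_pow O ha1 p) hh
  have hεO : ε ∈ O := (O.valuation_le_one_iff ε).mp hεlt.le
  have hp0 : (p : F) ≠ 0 := by
    intro h0
    rw [h0, map_zero] at hpO
    exact zero_ne_one hpO
  have hpinvR : (p : F)⁻¹ ∈ R := by
    have := hLR ((p : L)⁻¹)
    rwa [map_inv₀, map_natCast] at this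
  have hpinvv : O.valuation ((p : F)⁻¹) = 1 := by rw [map_inv₀, hpO, inv_one]
  have hpinvO : (p : F)⁻¹ ∈ O := (O.valuation_le_one_iff _).mp hpinvv.le
  set s := -ε * (p : F)⁻¹ with hs
  have hsR : s ∈ R := R.mul_mem (R.neg_mem ha) hpinvR
  have hsv : O.valuation s = O.valuation ε := by
    rw [hs, map_mul, Valuation.map_neg, hpinvv, mul_one]
  have hsO : s ∈ O.toSubring := (O.valuation_le_one_iff s).mp (hsv ▸ hεlt.le)
  obtain ⟨q, hq, hexp⟩ := one_add_pow_expand (R ⊓ O.toSubring) (Subring.mem_inf.mpr ⟨hsR, hsO⟩) p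
  have hqR : q ∈ R := (Subring.mem_inf.mp hq).1
  have hqO : q ∈ O := (Subring.mem_inf.mp hq).2
  have key : (a * (1 + s)) ^ p * h - 1 =
      ε * ε * (-1 + (1 + ε) * q * ((p : F)⁻¹ * (p : F)⁻¹)) := by
    rw [mul_pow, hexp]
    have hps : (p : F) * s = -ε := by
      rw [hs]
      field_simp
    have ha' : a ^ p * h = 1 + ε := by
      rw [hε]
      ring
    calc a ^ p * (1 + p * s + s ^ 2 * q) * h - 1
        = (a ^ p * h) * (1 + p * s + s ^ 2 * q) - 1 := by ring
      _ = (1 + ε) * (1 + (-ε) + s ^ 2 * q) - 1 := by rw [ha', hps]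
      _ = _ := by
        rw [hs]
        ring
  refine ⟨a * (1 + s), ?_, ?_, ?_⟩
  · rw [key]
    exact R.mul_mem (R.mul_mem ha ha) (R.add_mem (R.neg_mem R.one_mem)
      (R.mul_mem (R.mul_mem (R.add_mem R.one_mem ha) hqR) (R.mul_mem hpinvR hpinvR)))
  · rw [key, map_mul, map_mul]
    have hO : (-1 + (1 + ε) * q * ((p : F)⁻¹ * (p : F)⁻¹)) ∈ O :=
      O.add_mem _ _ (O.neg_mem _ O.one_mem)
        (O.mul_mem _ _ (O.mul_mem _ _ (O.add_mem _ _ O.one_mem hεO) hqO)
          (O.mul_mem _ _ hpinvO hpinvO))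
    calc O.valuation ε * O.valuation ε * O.valuation (-1 + (1 + ε) * q * ((p : F)⁻¹ * (p : F)⁻¹))
        ≤ O.valuation ε * O.valuation ε * 1 :=
          mul_le_mul' le_rfl ((O.valuation_le_one_iff _).mpr hO)
      _ = O.valuation ε * O.valuation ε := mul_one _
  · have h2 : a * (1 + s) - 1 = (a - 1) + a * s := by ring
    rw [h2]
    refine Valuation.map_add_lt _ ha1 ?_
    rw [map_mul, val_eq_one_of_sub_one O ha1, one_mul, hsv]
    exact hεlt

/-- **Newton iteration**: approximate `p`-th roots of `h⁻¹` to any precision `c^(n+1)`. -/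
theorem newton_iter (R : Subring F) (hLR : ∀ c : L, algebraMap L F c ∈ R) (p : ℕ)
    (hpO : O.valuation (p : F) = 1) (h : F) (hh : O.valuation (h - 1) < 1) (c : F)
    (hc : O.valuation c < 1) (a₀ : F) (h0 : a₀ ^ p * h - 1 ∈ R)
    (h0v : O.valuation (a₀ ^ p * h - 1) ≤ O.valuation c) (h01 : O.valuation (a₀ - 1) < 1)
    (n : ℕ) :
    ∃ a : F, a ^ p * h - 1 ∈ R ∧ O.valuation (a ^ p * h - 1) ≤ O.valuation c ^ (n + 1) ∧
      O.valuation (a - 1) < 1 := by
  induction n with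
  | zero => exact ⟨a₀, h0, by simpa using h0v, h01⟩
  | succ n ih =>
    obtain ⟨a, ha, hav, ha1⟩ := ih
    obtain ⟨a', ha', hav', ha1'⟩ := newton_step (L := L) O R hLR p hpO h hh a ha ha1
    refine ⟨a', ha', hav'.trans ?_, ha1'⟩
    have h1 : O.valuation (a ^ p * h - 1) ≤ O.valuation c := hav.trans (by
      calc O.valuation c ^ (n + 1) = O.valuation c ^ n * O.valuation c := pow_succ _ _
        _ ≤ 1 * O.valuation c := mul_le_mul' (pow_le_one' hc.le n) le_rfl
        _ = O.valuation c := one_mul _)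
    calc O.valuation (a ^ p * h - 1) * O.valuation (a ^ p * h - 1)
        ≤ O.valuation c ^ (n + 1) * O.valuation c := mul_le_mul' hav h1
      _ = O.valuation c ^ (n + 1 + 1) := (pow_succ _ _).symm

end Val

/-! ### The sets `{y | y^p h ∈ R}` -/

section NSets

/-- `{y | y^p * h ∈ R}` as an additive subgroup, for a `p`-th-root closed subring `R`. -/
def Nsub (R : Subring F) (p : ℕ) (hp : 0 < p) (hR : ∀ w : F, w ^ p ∈ R → w ∈ R) (h : F) :
    AddSubgroup F where
  carrier := {y | y ^ p * h ∈ R}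
  add_mem' := by
    intro y y' hy hy'
    show (y + y') ^ p * h ∈ R
    rw [add_pow, Finset.sum_mul]
    refine R.sum_mem (fun k hk => ?_)
    have hk' : k ≤ p := Nat.lt_succ_iff.mp (Finset.mem_range.mp hk)
    have hterm : y ^ k * y' ^ (p - k) * h ∈ R := by
      apply hR
      have hh : h ^ p = h ^ k * h ^ (p - k) := by rw [← pow_add, Nat.add_sub_cancel' hk']
      have : (y ^ k * y' ^ (p - k) * h) ^ p = (y ^ p * h) ^ k * (y' ^ p * h) ^ (p - k) := by
        rw [mul_pow, mul_pow, mul_pow, mul_pow, ← pow_mul, ← pow_mul, ← pow_mul, ← pow_mul, hh,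
          mul_comm k p, mul_comm (p - k) p]
        ring
      rw [this]
      exact R.mul_mem (R.pow_mem hy k) (R.pow_mem hy' (p - k))
    have : y ^ k * y' ^ (p - k) * (p.choose k : F) * h
        = (y ^ k * y' ^ (p - k) * h) * (p.choose k : F) := by ring
    rw [this]
    exact R.mul_mem hterm (natCast_mem R _)
  zero_mem' := by
    show (0 : F) ^ p * h ∈ R
    rw [zero_pow hp.ne', zero_mul]
    exact R.zero_mem
  neg_mem' := by
    intro y hy
    show (-y) ^ p * h ∈ R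
    rw [neg_pow, mul_assoc]
    exact R.mul_mem (R.pow_mem (R.neg_mem R.one_mem) p) hy

theorem mem_Nsub {R : Subring F} {p : ℕ} {hp : 0 < p} {hR : ∀ w : F, w ^ p ∈ R → w ∈ R} {h : F}
    {y : F} : y ∈ Nsub R p hp hR h ↔ y ^ p * h ∈ R := Iff.rfl

theorem mul_mem_Nsub {R : Subring F} {p : ℕ} {hp : 0 < p} {hR : ∀ w : F, w ^ p ∈ R → w ∈ R}
    {h : F} {r y : F} (hr : r ∈ R) (hy : y ∈ Nsub R p hp hR h) : r * y ∈ Nsub R p hp hR h := by
  rw [mem_Nsub] at hy ⊢
  rw [mul_pow, mul_assoc]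
  exact R.mul_mem (R.pow_mem hr p) hy

/-- The localisation at `x` of an additive subgroup stable under `x`. -/
def N12 (x : F) (S : AddSubgroup F) (hS : ∀ y ∈ S, x * y ∈ S) : AddSubgroup F where
  carrier := {z | ∃ k : ℕ, x ^ k * z ∈ S}
  add_mem' := by
    rintro z z' ⟨k, hk⟩ ⟨k', hk'⟩
    refine ⟨k + k', ?_⟩
    have hpow : ∀ (j : ℕ) (y : F), y ∈ S → x ^ j * y ∈ S := by
      intro j
      induction j with
      | zero => intro y hy; simpa using hy
      | succ j ih =>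
        intro y hy
        rw [pow_succ, mul_assoc]
        exact ih _ (hS y hy)
    have : x ^ (k + k') * (z + z') = x ^ k' * (x ^ k * z) + x ^ k * (x ^ k' * z') := by ring
    rw [this]
    exact S.add_mem (hpow _ _ hk) (hpow _ _ hk')
  zero_mem' := ⟨0, by simp⟩
  neg_mem' := by
    rintro z ⟨k, hk⟩
    exact ⟨k, by rw [mul_neg]; exact S.neg_mem hk⟩

theorem mem_N12 {x : F} {S : AddSubgroup F} {hS : ∀ y ∈ S, x * y ∈ S} {z : F} :
    z ∈ N12 x S hS ↔ ∃ k : ℕ, x ^ k * z ∈ S := Iff.rfl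

/-- Passing from the chart `t` to the chart `t⁻¹`. -/
theorem scale_chart (t : F) (ht : t ≠ 0) (p : ℕ) (hp : 0 < p) (h : F) {y : F}
    (hy : y ^ p * h ∈ IntL L t) : ∃ k : ℕ, (t⁻¹ ^ k * y) ^ p * h ∈ IntL L t⁻¹ := by
  obtain ⟨k, hk⟩ := exists_inv_pow_mul_mem t ht hy
  refine ⟨k, ?_⟩
  obtain ⟨m, rfl⟩ : ∃ m, p = m + 1 := ⟨p - 1, (Nat.sub_add_cancel hp).symm⟩
  have : (t⁻¹ ^ k * y) ^ (m + 1) * h = (t⁻¹ ^ k) ^ m * (t⁻¹ ^ k * (y ^ (m + 1) * h)) := by ring
  rw [this]
  exact (IntL L t⁻¹).mul_mem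
    ((IntL L t⁻¹).pow_mem ((IntL L t⁻¹).pow_mem (self_mem_IntL t⁻¹) _) _) hk

end NSets

/-! ### Constants -/

section Consts

variable (A : ValuationSubring L) (O : ValuationSubring F)

theorem val_le_iff (hconstO : ∀ a : L, algebraMap L F a ∈ O ↔ a ∈ A) (a b : L) :
    O.valuation (algebraMap L F a) ≤ O.valuation (algebraMap L F b) ↔
      A.valuation a ≤ A.valuation b := by
  by_cases hb : b = 0
  · subst hb
    simp
  · have hbF : algebraMap L F b ≠ 0 := (_root_.map_ne_zero _).mpr hb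
    have h1 : 0 < O.valuation (algebraMap L F b) := zero_lt_iff.mpr ((_root_.map_ne_zero _).mpr hbF)
    have h2 : 0 < A.valuation b := zero_lt_iff.mpr ((_root_.map_ne_zero _).mpr hb)
    rw [← div_le_one₀ h1, ← div_le_one₀ h2, ← map_div₀, ← map_div₀, ← map_div₀,
      ValuationSubring.valuation_le_one_iff, ValuationSubring.valuation_le_one_iff]
    exact hconstO _

theorem exists_const
    (hscal : ∀ y : F, y ≠ 0 → ∃ a : L, a ≠ 0 ∧ O.valuation (algebraMap L F a * y) = 1)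
    {ε₁ ε₂ : F} (h1 : ε₁ ≠ 0) (h2 : ε₂ ≠ 0) (hv1 : O.valuation ε₁ < 1)
    (hv2 : O.valuation ε₂ < 1) :
    ∃ c : L, c ≠ 0 ∧ O.valuation (algebraMap L F c) < 1 ∧
      O.valuation ε₁ ≤ O.valuation (algebraMap L F c) ∧
      O.valuation ε₂ ≤ O.valuation (algebraMap L F c) := by
  have key : ∀ ε : F, ε ≠ 0 → ∃ c : L, c ≠ 0 ∧ O.valuation (algebraMap L F c) = O.valuation ε := by
    intro ε hε
    obtain ⟨a, ha, hav⟩ := hscal ε hε
    refine ⟨a⁻¹, inv_ne_zero ha, ?_⟩
    rw [map_mul] at hav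
    rw [map_inv₀, map_inv₀]
    exact (eq_inv_of_mul_eq_one_right hav).symm
  obtain ⟨c₁, hc₁, hcv₁⟩ := key ε₁ h1
  obtain ⟨c₂, hc₂, hcv₂⟩ := key ε₂ h2
  rcases le_total (O.valuation ε₁) (O.valuation ε₂) with hle | hle
  · exact ⟨c₂, hc₂, hcv₂ ▸ hv2, hcv₂ ▸ hle, hcv₂.ge⟩
  · exact ⟨c₁, hc₁, hcv₁ ▸ hv1, hcv₁.ge, hcv₁ ▸ hle⟩

end Consts

/-! ### The `A`-module structure on `F` and the lattices -/

/-- The action of the valuation subring `A` of `L` on `F` (Mathlib's `Algebra.ofSubsemiring`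
instance) is multiplication by the constant. -/
theorem smul_eq_algebraMap_mul (A : ValuationSubring L) (a : A) (y : F) :
    a • y = algebraMap L F (a : L) * y := by
  rw [Algebra.smul_def]
  rfl

/-- The `A`-lattice `O ∩ S` for an additive subgroup `S` of `F` stable under constants. -/
def Msub (A : ValuationSubring L) (O : ValuationSubring F)
    (hAO : ∀ a : L, a ∈ A → algebraMap L F a ∈ O) (S : AddSubgroup F)
    (hS : ∀ (c : L) (y : F), y ∈ S → algebraMap L F c * y ∈ S) : Submodule ↥A F where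
  carrier := {y | y ∈ O ∧ y ∈ S}
  add_mem' := fun ha hb => ⟨O.add_mem _ _ ha.1 hb.1, S.add_mem ha.2 hb.2⟩
  zero_mem' := ⟨O.zero_mem, S.zero_mem⟩
  smul_mem' := fun a y hy => by
    rw [smul_eq_algebraMap_mul]
    exact ⟨O.mul_mem _ _ (hAO a a.2) hy.1, hS a y hy.2⟩

theorem mem_Msub {A : ValuationSubring L} {O : ValuationSubring F}
    {hAO : ∀ a : L, a ∈ A → algebraMap L F a ∈ O} {S : AddSubgroup F}
    {hS : ∀ (c : L) (y : F), y ∈ S → algebraMap L F c * y ∈ S} {y : F} :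
    y ∈ Msub A O hAO S hS ↔ y ∈ O ∧ y ∈ S := Iff.rfl

/-! ### The endgame, with the bounded-torsion statement as a hypothesis -/

theorem exists_pth_root_of_sections_of_bt (A : ValuationSubring L) (O : ValuationSubring F)
    (x : F) (hconstO : ∀ a : L, algebraMap L F a ∈ O ↔ a ∈ A)
    (hscal : ∀ y : F, y ≠ 0 → ∃ a : L, a ≠ 0 ∧ O.valuation (algebraMap L F a * y) = 1)
    (hxu : O.valuation x = 1)
    (hrank : ∀ c : L, A.valuation c < 1 → ∀ a : L, a ≠ 0 →
      ∃ m : ℕ, A.valuation (c ^ m) ≤ A.valuation a)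
    (p : ℕ) (hp : p.Prime) (hpA : A.valuation (p : L) = 1) (hroot : ∀ a : L, ∃ b : L, b ^ p = a)
    (hconst : ∀ y : F, y ∈ IntL L x → y ∈ IntL L x⁻¹ → y ∈ (algebraMap L F).range)
    (h : F) (hh : O.valuation (h - 1) < 1)
    {r : ℕ} (β : Fin r → F) (hβO : ∀ i, β i ∈ O) (hβ : ∀ i, β i ^ p * h ∈ IntL L x)
    (hfg : ∀ y : F, y ∈ O → y ^ p * h ∈ IntL L x → y ∈ spanA A x β)
    (y₁ : F) (hy₁ : y₁ ^ p * h ∈ IntL L x) (hy₁1 : O.valuation (y₁ - 1) < 1)
    (y₂ : F) (hy₂ : y₂ ^ p * h ∈ IntL L x⁻¹) (hy₂1 : O.valuation (y₂ - 1) < 1)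
    (hBT : ∀ (N W : Submodule ↥A F) (G : Finset F),
      W ≤ N ⊔ Submodule.span ↥A (G : Set F) →
      ∃ c : ↥A, c ≠ 0 ∧ ∀ z ∈ W, (∃ a : ↥A, a ≠ 0 ∧ a • z ∈ N) → c • z ∈ N) :
    ∃ g : F, g ^ p = h := by
  classical
  have hp0 : 0 < p := hp.pos
  have hx0 : x ≠ 0 := by
    rintro rfl
    rw [map_zero] at hxu
    exact zero_ne_one hxu
  have hh1 : O.valuation h = 1 := val_eq_one_of_sub_one O hh
  have hh0 : h ≠ 0 := by
    rintro rfl
    rw [map_zero] at hh1
    exact zero_ne_one hh1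
  have hpO : O.valuation (p : F) = 1 := by
    have h1 := (val_le_iff A O hconstO (p : L) 1).mpr (by rw [hpA, map_one])
    have h2 := (val_le_iff A O hconstO 1 (p : L)).mpr (by rw [hpA, map_one])
    rw [map_one, map_one, map_natCast] at h1 h2
    exact le_antisymm h1 h2
  -- degenerate cases
  by_cases he1 : y₁ ^ p * h - 1 = 0
  · have h1 : y₁ ^ p * h = 1 := sub_eq_zero.mp he1
    have hy0 : y₁ ^ p ≠ 0 := left_ne_zero_of_mul_eq_one h1
    refine ⟨y₁⁻¹, ?_⟩
    rw [inv_pow]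
    exact (eq_inv_of_mul_eq_one_right h1).symm
  by_cases he2 : y₂ ^ p * h - 1 = 0
  · have h1 : y₂ ^ p * h = 1 := sub_eq_zero.mp he2
    refine ⟨y₂⁻¹, ?_⟩
    rw [inv_pow]
    exact (eq_inv_of_mul_eq_one_right h1).symm
  have hAO : ∀ a : L, a ∈ A → algebraMap L F a ∈ O := fun a ha => (hconstO a).mpr ha
  have hxO : x ∈ O := (O.valuation_le_one_iff x).mp hxu.le
  have hxinvO : x⁻¹ ∈ O :=
    (O.valuation_le_one_iff _).mp (by rw [map_inv₀, hxu, inv_one])
  -- the two charts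
  set N₁ : AddSubgroup F :=
    Nsub (IntL L x) p hp0 (fun w hw => mem_IntL_of_pow x hp0 hw) h with hN₁
  set N₂ : AddSubgroup F :=
    Nsub (IntL L x⁻¹) p hp0 (fun w hw => mem_IntL_of_pow x⁻¹ hp0 hw) h with hN₂
  have hN₁L : ∀ (c : L) (y : F), y ∈ N₁ → algebraMap L F c * y ∈ N₁ :=
    fun c y hy => mul_mem_Nsub (algebraMap_mem_IntL x c) hy
  have hN₂L : ∀ (c : L) (y : F), y ∈ N₂ → algebraMap L F c * y ∈ N₂ :=
    fun c y hy => mul_mem_Nsub (algebraMap_mem_IntL x⁻¹ c) hy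
  have hN₁x : ∀ y ∈ N₁, x * y ∈ N₁ := fun y hy => mul_mem_Nsub (self_mem_IntL x) hy
  set N₁₂ : AddSubgroup F := N12 x N₁ hN₁x with hN₁₂
  have hN₁₂L : ∀ (c : L) (y : F), y ∈ N₁₂ → algebraMap L F c * y ∈ N₁₂ := by
    rintro c y ⟨k, hk⟩
    exact ⟨k, by rw [mul_left_comm]; exact hN₁L c _ hk⟩
  have hN₁_le : ∀ y ∈ N₁, y ∈ N₁₂ := fun y hy => ⟨0, by simpa using hy⟩
  have hN₂_le : ∀ y ∈ N₂, y ∈ N₁₂ := by
    intro y hy
    obtain ⟨k, hk⟩ := scale_chart (L := L) x⁻¹ (inv_ne_zero hx0) p hp0 h hy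
    rw [inv_inv] at hk
    exact ⟨k, hk⟩
  set M₁ : Submodule ↥A F := Msub A O hAO N₁ hN₁L with hM₁
  set M₂ : Submodule ↥A F := Msub A O hAO N₂ hN₂L with hM₂
  set W : Submodule ↥A F := Msub A O hAO N₁₂ hN₁₂L with hW
  -- pole orders of the generators on the second chart
  have hE : ∀ i, ∃ e : ℕ, x⁻¹ ^ e * β i ∈ N₂ :=
    fun i => scale_chart (L := L) x hx0 p hp0 h (hβ i)
  choose e he using hE
  set E : ℕ := Finset.univ.sup e with hEdef
  have heE : ∀ i j, E ≤ j → x⁻¹ ^ j * β i ∈ M₂ := by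
    intro i j hj
    have hej : e i ≤ j := (Finset.le_sup (Finset.mem_univ i)).trans hj
    have h1 : x⁻¹ ^ j * β i = x⁻¹ ^ (j - e i) * (x⁻¹ ^ (e i) * β i) := by
      rw [← mul_assoc, ← pow_add, Nat.sub_add_cancel hej]
    refine ⟨O.mul_mem _ _ (pow_mem hxinvO j) (hβO i), ?_⟩
    rw [h1]
    exact mul_mem_Nsub ((IntL L x⁻¹).pow_mem (self_mem_IntL x⁻¹) _) (he i)
  set G : Finset F := (Finset.range E ×ˢ (Finset.univ : Finset (Fin r))).image
    (fun ji => x⁻¹ ^ ji.1 * β ji.2) with hG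
  have hT : ∀ (i : Fin r) (m k : ℕ),
      x ^ m * x⁻¹ ^ k * β i ∈ (M₁ ⊔ M₂) ⊔ Submodule.span ↥A (G : Set F) := by
    intro i m k
    rcases le_or_gt k m with hkm | hkm
    · have h1 : x ^ m * x⁻¹ ^ k = x ^ (m - k) := by
        obtain ⟨j, rfl⟩ := Nat.exists_eq_add_of_le hkm
        rw [Nat.add_sub_cancel_left, pow_add, mul_comm (x ^ k), mul_assoc, ← mul_pow,
          mul_inv_cancel₀ hx0, one_pow, mul_one]
      rw [h1]
      refine Submodule.mem_sup_left (Submodule.mem_sup_left ?_)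
      exact ⟨O.mul_mem _ _ (pow_mem hxO _) (hβO i),
        mul_mem_Nsub ((IntL L x).pow_mem (self_mem_IntL x) _) (hβ i)⟩
    · have h1 : x ^ m * x⁻¹ ^ k = x⁻¹ ^ (k - m) := by
        obtain ⟨j, rfl⟩ := Nat.exists_eq_add_of_le hkm.le
        rw [Nat.add_sub_cancel_left, pow_add, ← mul_assoc, ← mul_pow, mul_inv_cancel₀ hx0,
          one_pow, one_mul]
      rw [h1]
      rcases lt_or_ge (k - m) E with hlt | hge
      · refine Submodule.mem_sup_right (Submodule.subset_span ?_)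
        exact Finset.mem_coe.mpr (Finset.mem_image.mpr
          ⟨(k - m, i), Finset.mem_product.mpr ⟨Finset.mem_range.mpr hlt, Finset.mem_univ i⟩, rfl⟩)
      · exact Submodule.mem_sup_left (Submodule.mem_sup_right (heE i _ hge))
  have hWle : W ≤ (M₁ ⊔ M₂) ⊔ Submodule.span ↥A (G : Set F) := by
    intro z hz
    obtain ⟨hzO, k, hk⟩ := hz
    have hxkz : x ^ k * z ∈ O := O.mul_mem _ _ (pow_mem hxO k) hzO
    obtain ⟨f, hf, hfz⟩ := hfg (x ^ k * z) hxkz hk
    have hz' : z = ∑ i, ∑ m ∈ Finset.range ((f i).natDegree + 1),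
        (⟨(f i).coeff m, hf i m⟩ : A) • (x ^ m * x⁻¹ ^ k * β i) := by
      have h1 : z = x⁻¹ ^ k * (x ^ k * z) := by
        rw [← mul_assoc, ← mul_pow, inv_mul_cancel₀ hx0, one_pow, one_mul]
      rw [h1, hfz, Finset.mul_sum]
      refine Finset.sum_congr rfl (fun i _ => ?_)
      rw [aeval_eq_sum_range, Finset.sum_mul, Finset.mul_sum]
      refine Finset.sum_congr rfl (fun m _ => ?_)
      rw [smul_eq_algebraMap_mul, Algebra.smul_def]
      ring
    rw [hz']
    exact Submodule.sum_mem _ (fun i _ => Submodule.sum_mem _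
      (fun m _ => Submodule.smul_mem _ _ (hT i m k)))
  obtain ⟨cs, hcs0, hcs⟩ := hBT (M₁ ⊔ M₂) W G hWle
  -- the common precision
  obtain ⟨c, hc0, hcv, hc1, hc2⟩ := exists_const (L := L) O hscal he1 he2
    (val_sub_one_mul O (val_sub_one_pow O hy₁1 p) hh)
    (val_sub_one_mul O (val_sub_one_pow O hy₂1 p) hh)
  have hcA : c ∈ A := (hconstO c).mp ((O.valuation_le_one_iff _).mp hcv.le)
  have hcF0 : algebraMap L F c ≠ 0 := (_root_.map_ne_zero _).mpr hc0
  obtain ⟨m, hm⟩ : ∃ m : ℕ,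
      O.valuation (algebraMap L F c) ^ m < O.valuation (algebraMap L F (cs : L)) := by
    have hcsL : (cs : L) ≠ 0 := fun h0 => hcs0 (Subtype.ext h0)
    have hcvA : A.valuation c < 1 := by
      rw [← not_le]
      intro hle
      have := (val_le_iff A O hconstO 1 c).mpr (by simpa using hle)
      rw [map_one, map_one] at this
      exact absurd this (not_le.mpr hcv)
    obtain ⟨m, hm⟩ := hrank c hcvA (cs * c) (mul_ne_zero hcsL hc0)
    refine ⟨m, ?_⟩
    have h1 : O.valuation (algebraMap L F c) ^ m = O.valuation (algebraMap L F (c ^ m)) := by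
      rw [map_pow, map_pow]
    rw [h1, ← not_le, val_le_iff A O hconstO, not_le]
    calc A.valuation (c ^ m) ≤ A.valuation ((cs : L) * c) := hm
      _ = A.valuation (cs : L) * A.valuation c := map_mul _ _ _
      _ < A.valuation (cs : L) :=
        mul_lt_of_lt_one_right (zero_lt_iff.mpr ((_root_.map_ne_zero _).mpr hcsL)) hcvA
  -- Newton on both charts
  obtain ⟨a, haR, hav, ha1⟩ := newton_iter (L := L) O (IntL L x) (algebraMap_mem_IntL x) p hpO h
    hh (algebraMap L F c) hcv y₁ ((IntL L x).sub_mem hy₁ (IntL L x).one_mem) hc1 hy₁1 m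
  obtain ⟨a', haR', hav', ha1'⟩ := newton_iter (L := L) O (IntL L x⁻¹) (algebraMap_mem_IntL x⁻¹)
    p hpO h hh (algebraMap L F c) hcv y₂ ((IntL L x⁻¹).sub_mem hy₂ (IntL L x⁻¹).one_mem) hc2
    hy₂1 m
  have haN : a ∈ N₁ := by
    have := (IntL L x).add_mem haR (IntL L x).one_mem
    rw [sub_add_cancel] at this
    exact this
  have haN' : a' ∈ N₂ := by
    have := (IntL L x⁻¹).add_mem haR' (IntL L x⁻¹).one_mem
    rw [sub_add_cancel] at this
    exact this
  have hav1 : O.valuation a = 1 := val_eq_one_of_sub_one O ha1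
  have hav1' : O.valuation a' = 1 := val_eq_one_of_sub_one O ha1'
  have haO : a ∈ O := (O.valuation_le_one_iff _).mp hav1.le
  have haO' : a' ∈ O := (O.valuation_le_one_iff _).mp hav1'.le
  set C : F := algebraMap L F c ^ (m + 1) with hC
  have hC0 : C ≠ 0 := pow_ne_zero _ hcF0
  have hCv : O.valuation C = O.valuation (algebraMap L F c) ^ (m + 1) := map_pow _ _ _
  have hCL : C = algebraMap L F (c ^ (m + 1)) := by rw [hC, map_pow]
  -- comparison on the overlap
  have hd : O.valuation (a - a') ≤ O.valuation C := by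
    have h1 : O.valuation ((a ^ p - a' ^ p) * h) ≤ O.valuation C := by
      have h2 : (a ^ p - a' ^ p) * h = (a ^ p * h - 1) - (a' ^ p * h - 1) := by ring
      rw [h2, hCv]
      exact Valuation.map_sub_le _ hav hav'
    rw [map_mul, hh1, mul_one] at h1
    have hgeom : (a - a') * ∑ i ∈ Finset.range p, a ^ i * a' ^ (p - 1 - i) = a ^ p - a' ^ p :=
      (Commute.all a a').mul_geom_sum₂ p
    have hSv : O.valuation (∑ i ∈ Finset.range p, a ^ i * a' ^ (p - 1 - i)) = 1 := by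
      have h2 : O.valuation ((∑ i ∈ Finset.range p, a ^ i * a' ^ (p - 1 - i)) - (p : F)) < 1 := by
        have h3 : (∑ i ∈ Finset.range p, a ^ i * a' ^ (p - 1 - i)) - (p : F)
            = ∑ i ∈ Finset.range p, (a ^ i * a' ^ (p - 1 - i) - 1) := by
          rw [Finset.sum_sub_distrib]
          simp
        rw [h3]
        exact Valuation.map_sum_lt _ one_ne_zero (fun i _ =>
          val_sub_one_mul O (val_sub_one_pow O ha1 i) (val_sub_one_pow O ha1' _))
      have h4 : (∑ i ∈ Finset.range p, a ^ i * a' ^ (p - 1 - i))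
          = (p : F) + ((∑ i ∈ Finset.range p, a ^ i * a' ^ (p - 1 - i)) - (p : F)) := by ring
      rw [h4, Valuation.map_add_eq_of_lt_left _ (by rw [hpO]; exact h2), hpO]
    rw [← hgeom, map_mul, hSv, mul_one] at h1
    exact h1
  set z : F := C⁻¹ * (a - a') with hz
  have hzO : z ∈ O := by
    rw [← O.valuation_le_one_iff, hz, map_mul, map_inv₀]
    exact inv_mul_le_one_of_le₀ hd zero_le
  have hzW : z ∈ W := by
    refine ⟨hzO, ?_⟩
    have h1 : a - a' ∈ N₁₂ := N₁₂.sub_mem (hN₁_le a haN) (hN₂_le a' haN')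
    have hCinv : C⁻¹ = algebraMap L F ((c ^ (m + 1))⁻¹) := by rw [hCL, map_inv₀]
    rw [hz, hCinv]
    exact hN₁₂L _ _ h1
  -- bounded torsion
  have hcz : cs • z ∈ M₁ ⊔ M₂ := by
    apply hcs z hzW
    refine ⟨⟨c ^ (m + 1), A.pow_mem hcA _⟩, ?_, ?_⟩
    · intro h0
      exact pow_ne_zero (m + 1) hc0 (congrArg Subtype.val h0)
    · have h1 : (⟨c ^ (m + 1), A.pow_mem hcA _⟩ : A) • z = a - a' := by
        rw [smul_eq_algebraMap_mul, hz]
        show algebraMap L F (c ^ (m + 1)) * (C⁻¹ * (a - a')) = a - a'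
        rw [← hCL, ← mul_assoc, mul_inv_cancel₀ hC0, one_mul]
      rw [h1, sub_eq_add_neg]
      exact Submodule.add_mem_sup (show a ∈ M₁ from ⟨haO, haN⟩)
        (M₂.neg_mem (show a' ∈ M₂ from ⟨haO', haN'⟩))
  obtain ⟨z₁, hz₁, z₂, hz₂, hzz⟩ := Submodule.mem_sup.mp hcz
  rw [smul_eq_algebraMap_mul] at hzz
  set g : F := algebraMap L F (cs : L) * a - C * z₁ with hg
  have hgN₁ : g ∈ N₁ := by
    refine N₁.sub_mem (hN₁L _ _ haN) ?_
    rw [hCL]
    exact hN₁L _ _ hz₁.2
  have hg' : g = algebraMap L F (cs : L) * a' + C * z₂ := by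
    have h1 : C * (z₁ + z₂) = algebraMap L F (cs : L) * (a - a') := by
      rw [hzz, hz, ← mul_assoc, ← mul_assoc, mul_comm C, mul_assoc _ C, mul_inv_cancel₀ hC0,
        mul_one]
    rw [hg]
    linear_combination (-1 : F) * h1
  have hgN₂ : g ∈ N₂ := by
    rw [hg']
    refine N₂.add_mem (hN₂L _ _ haN') ?_
    rw [hCL]
    exact hN₂L _ _ hz₂.2
  have hg0 : g ≠ 0 := by
    intro h0
    have h1 : algebraMap L F (cs : L) * a = C * z₁ := sub_eq_zero.mp h0
    have h2 := congrArg O.valuation h1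
    rw [map_mul, map_mul, hav1, mul_one, hCv] at h2
    have h3 : O.valuation z₁ ≤ 1 := (O.valuation_le_one_iff _).mpr hz₁.1
    have h4 : O.valuation (algebraMap L F c) ^ (m + 1) * O.valuation z₁
        ≤ O.valuation (algebraMap L F c) ^ m := by
      calc O.valuation (algebraMap L F c) ^ (m + 1) * O.valuation z₁
          ≤ O.valuation (algebraMap L F c) ^ (m + 1) * 1 := mul_le_mul' le_rfl h3
        _ = O.valuation (algebraMap L F c) ^ m * O.valuation (algebraMap L F c) := by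
          rw [mul_one, pow_succ]
        _ ≤ O.valuation (algebraMap L F c) ^ m * 1 := mul_le_mul' le_rfl hcv.le
        _ = O.valuation (algebraMap L F c) ^ m := mul_one _
    rw [← h2] at h4
    exact absurd h4 (not_le.mpr hm)
  -- conclusion: `g ^ p * h` is a nonzero constant
  obtain ⟨a₀, ha₀⟩ := hconst (g ^ p * h) hgN₁ hgN₂
  obtain ⟨b, hb⟩ := hroot a₀
  refine ⟨algebraMap L F b * g⁻¹, ?_⟩
  rw [mul_pow, ← map_pow, hb, ha₀, inv_pow, mul_comm (g ^ p) h, mul_assoc,
    mul_inv_cancel₀ (pow_ne_zero p hg0), mul_one]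

end Endgame

variable {L F : Type*} [Field L] [Field F] [Algebra L F]

/-- **RED-K5, the ENDGAME.**  `A` a rank-one valuation ring of `L` in which `p` is a unit, `O`
a valuation ring of `F` with the same value group, `x` a unit of `O`; `h ≡ 1` modulo the
maximal ideal of `O`.  If the lattice `M = {y ∈ O | y^p h integral over L[x]}` is contained in
a finitely generated `A[x]`-module and both charts carry a section `≡ 1`
(`y₁^p h` integral over `L[x]`, `y₂^p h` integral over `L[x⁻¹]`), and the only functions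
integral over both `L[x]` and `L[x⁻¹]` are the constants, then `h` is a `p`-th power. -/
theorem exists_pth_root_of_sections (A : ValuationSubring L) (O : ValuationSubring F) (x : F)
    (hconstO : ∀ a : L, algebraMap L F a ∈ O ↔ a ∈ A)
    (hscal : ∀ y : F, y ≠ 0 → ∃ a : L, a ≠ 0 ∧ O.valuation (algebraMap L F a * y) = 1)
    (hxu : O.valuation x = 1)
    (hrank : ∀ c : L, A.valuation c < 1 → ∀ a : L, a ≠ 0 →
      ∃ m : ℕ, A.valuation (c ^ m) ≤ A.valuation a)
    (p : ℕ) (hp : p.Prime) (hpA : A.valuation (p : L) = 1) (hroot : ∀ a : L, ∃ b : L, b ^ p = a)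
    (hconst : ∀ y : F, y ∈ IntL L x → y ∈ IntL L x⁻¹ → y ∈ (algebraMap L F).range)
    (h : F) (hh : O.valuation (h - 1) < 1)
    {r : ℕ} (β : Fin r → F) (hβO : ∀ i, β i ∈ O) (hβ : ∀ i, β i ^ p * h ∈ IntL L x)
    (hfg : ∀ y : F, y ∈ O → y ^ p * h ∈ IntL L x → y ∈ spanA A x β)
    (y₁ : F) (hy₁ : y₁ ^ p * h ∈ IntL L x) (hy₁1 : O.valuation (y₁ - 1) < 1)
    (y₂ : F) (hy₂ : y₂ ^ p * h ∈ IntL L x⁻¹) (hy₂1 : O.valuation (y₂ - 1) < 1) :
    ∃ g : F, g ^ p = h :=
  Endgame.exists_pth_root_of_sections_of_bt A O x hconstO hscal hxu hrank p hp hpA hroot hconst h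
    hh β hβO hβ hfg y₁ hy₁ hy₁1 y₂ hy₂ hy₂1
    (fun N W G hW => exists_bounded_torsion_quot_domain N G W hW)

end Fermat.Agent.Lib.RedK
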