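/-
RED-K (helper95): the two-chart assembly.

`exists_pth_root`: in the abstract Gauss setting with two charts `x`, `x⁻¹`, a function `h ≡ 1`
modulo the maximal ideal of `O` which is locally a `p`-th power up to units (on both charts,
at all points of the closed unit disc) is a `p`-th power, provided the reductions of the two
affine coordinate rings are closed under `p`-th roots (`hGp`, `hGp'`: good reduction).
-/
import Mathlib
import Fermat.Agent.Lib.RedK.Section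
import Fermat.Agent.Lib.RedK.Endgame

set_option autoImplicit false

namespace Fermat.Agent.Lib.RedK

open Polynomial

section Main

variable {L F : Type*} [Field L] [Field F] [Algebra L F]

/-- **RED-K, abstract form.**  A function `h ≡ 1` which is locally a `p`-th power up to units
on both charts is a `p`-th power. -/
theorem exists_pth_root [IsAlgClosed L] (A : ValuationSubring L) (O : ValuationSubring F)
    (x : F) {n n' : ℕ} (b₀ : Fin n → F) (b₀' : Fin n' → F)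
    (hC : Chart A O x b₀) (hC' : Chart A O x⁻¹ b₀') (hAL : ∃ a : L, a ∉ A)
    (hrank : ∀ c : L, A.valuation c < 1 → ∀ a : L, a ≠ 0 →
      ∃ m : ℕ, A.valuation (c ^ m) ≤ A.valuation a)
    (p : ℕ) (hp : p.Prime) (hpA : A.valuation (p : L) = 1)
    (hconst : ∀ y : F, y ∈ IntL L x → y ∈ IntL L x⁻¹ → y ∈ (algebraMap L F).range)
    (h : F) (hh : O.valuation (h - 1) < 1)
    (hGp : ∀ z : F, z ∈ O → ∀ w : F, w ∈ O → w ∈ IntL L x → O.valuation (z ^ p - w) < 1 →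
      ∃ w' : F, w' ∈ O ∧ w' ∈ IntL L x ∧ O.valuation (z - w') < 1)
    (hGp' : ∀ z : F, z ∈ O → ∀ w : F, w ∈ O → w ∈ IntL L x⁻¹ → O.valuation (z ^ p - w) < 1 →
      ∃ w' : F, w' ∈ O ∧ w' ∈ IntL L x⁻¹ ∧ O.valuation (z - w') < 1)
    (hloc : ∀ c : L, c ∈ A → ∃ g : F, g ≠ 0 ∧ ∃ s₃ s₄ : L[X], s₃.eval c ≠ 0 ∧ s₄.eval c ≠ 0 ∧
      aeval x s₃ * (h * g ^ p) ∈ IntL L x ∧ aeval x s₄ * (h * g ^ p)⁻¹ ∈ IntL L x)
    (hloc' : ∀ c : L, c ∈ A → ∃ g : F, g ≠ 0 ∧ ∃ s₃ s₄ : L[X], s₃.eval c ≠ 0 ∧ s₄.eval c ≠ 0 ∧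
      aeval x⁻¹ s₃ * (h * g ^ p) ∈ IntL L x⁻¹ ∧ aeval x⁻¹ s₄ * (h * g ^ p)⁻¹ ∈ IntL L x⁻¹) :
    ∃ g : F, g ^ p = h := by
  obtain ⟨⟨β, hβO, hβ, hfg⟩, y₁, hy₁, hy₁1⟩ :=
    exists_section_red_one A O x b₀ hC hAL p hp h hh hGp hloc
  obtain ⟨-, y₂, hy₂, hy₂1⟩ :=
    exists_section_red_one A O x⁻¹ b₀' hC' hAL p hp h hh hGp' hloc'
  have hroot : ∀ a : L, ∃ b : L, b ^ p = a := fun a =>
    IsAlgClosed.exists_pow_nat_eq a hp.pos
  exact exists_pth_root_of_sections A O x hC.gauss.const_mem hC.gauss.scaling hC.gauss.val_t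
    hrank p hp hpA hroot hconst h hh β hβO hβ hfg y₁ hy₁ hy₁1 y₂ hy₂ hy₂1

end Main

end Fermat.Agent.Lib.RedK
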