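/-
RED-K (helper95): the abstract instance — no modular function field.

`exists_pth_root_of_good`: let `F/L` be a function field of one variable (`IsFF1 L F x`, `L`
algebraically closed of characteristic zero), `A` a valuation subring of `L` (rank one, not a
field), `O` a valuation subring of `F` in the Gauss setting for `x` (`Orth.Setting`), with a good
family (`Orth.Good`), `x⁻¹ ∈ O`, and a reduction map `red : O →+* E` onto a field `E ⊇ k` with
kernel the maximal ideal, compatible with `π : A →+* k` on constants.  If both charts `x`, `x⁻¹`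
have good reduction (`hT3`, `hT3'`: every element of `E` regular on the chart of `x̄` lifts to an
element of `O` regular on the chart of `x`), then every `h ∈ O` with `red h = 1` all of whose
orders are divisible by the prime `p` (a unit of `A`) is a `p`-th power in `F`.

This is the statement used for the modular curves (`InstX`), stated without them so that it can
be instantiated for other curves (e.g. `X₁(M)`).
-/
import Mathlib
import Fermat.Agent.Lib.RedK.Main
import Fermat.Agent.Lib.RedK.OrthChart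
import Fermat.Agent.Lib.RedK.RedInt
import Fermat.Agent.Lib.RedK.FFInput

set_option autoImplicit false

namespace Fermat.Agent.Lib.RedK.Abstract

open Polynomial AlgebraicCurve IntermediateField Fermat.Agent.Lib.FF Fermat.Agent.Lib.Red

noncomputable section

variable {L F k E : Type*} [Field L] [Field F] [Algebra L F] [Field k] [Field E] [Algebra k E]

/-- The constants of `A`, as a ring homomorphism into a valuation ring `O` with `O ∩ L ⊇ A`. -/
def constHom (A : ValuationSubring L) (O : ValuationSubring F)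
    (hA : ∀ a : L, algebraMap L F a ∈ O ↔ a ∈ A) : A →+* O :=
  ((algebraMap L F).comp A.subtype).codRestrict O (fun a => (hA (a : L)).mpr a.2)

/-- The reduction of `q(u)` for `q ∈ A[X]` and `u ∈ O` is `q̄(ū)`. -/
theorem red_aeval (A : ValuationSubring L) (O : ValuationSubring F)
    (hA : ∀ a : L, algebraMap L F a ∈ O ↔ a ∈ A) (π : A →+* k) (red : O →+* E)
    (hredc : ∀ a : A, red (constHom A O hA a) = algebraMap k E (π a))
    (u : F) (hu : u ∈ O) (q : Polynomial A) (hmem : aeval u (q.map A.subtype) ∈ O) :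
    red ⟨aeval u (q.map A.subtype), hmem⟩ = aeval (red ⟨u, hu⟩) (q.map π) := by
  have e : (⟨aeval u (q.map A.subtype), hmem⟩ : O) = eval₂ (constHom A O hA) ⟨u, hu⟩ q := by
    apply Subtype.ext
    have h1 := Polynomial.hom_eval₂ q (constHom A O hA) O.subtype ⟨u, hu⟩
    show aeval u (q.map A.subtype) = O.subtype (eval₂ (constHom A O hA) ⟨u, hu⟩ q)
    rw [h1, aeval_def, eval₂_map]
    rfl
  rw [e, Polynomial.hom_eval₂, aeval_def, eval₂_map]
  congr 1
  exact RingHom.ext fun a => hredc a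

/-- **RED-K, abstract instance.** -/
theorem exists_pth_root_of_good [IsAlgClosed L] [CharZero L]
    (A : ValuationSubring L) (O : ValuationSubring F) (π : A →+* k) (red : O →+* E)
    (x : F) (hS : Orth.Setting x A O.toSubring) (hxinv : x⁻¹ ∈ O)
    (hscal : ∀ y : F, y ≠ 0 → ∃ a : L, a ≠ 0 ∧ O.valuation (algebraMap L F a * y) = 1)
    (hker : ∀ y : O, red y = 0 ↔ O.valuation (y : F) < 1)
    (hredc : ∀ a : A, red (constHom A O hS.hA a) = algebraMap k E (π a))
    {ι : Type*} [Fintype ι] (b₀ : ι → F) (h₀ : Orth.Good L x O.toSubring b₀)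
    (hFF : IsFF1 L F x) (xt : E) (hxt : red ⟨x, hS.hx⟩ = xt) [FiniteDimensional k⟮xt⟯ E]
    (hAL : ∃ a : L, a ∉ A)
    (hrank : ∀ c : L, A.valuation c < 1 → ∀ a : L, a ≠ 0 →
      ∃ m : ℕ, A.valuation (c ^ m) ≤ A.valuation a)
    (hT3 : ∀ s : E, (∀ Q : Place k E, 0 ≤ Q.ord xt → 0 ≤ Q.ord s) →
        ∃ y : O, red y = s ∧ ∀ P : Place L F, 0 ≤ P.ord x → 0 ≤ P.ord (y : F))
    (hT3' : ∀ s : E, (∀ Q : Place k E, Q.ord xt ≤ 0 → 0 ≤ Q.ord s) →
        ∃ y : O, red y = s ∧ ∀ P : Place L F, P.ord x ≤ 0 → 0 ≤ P.ord (y : F))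
    (p : ℕ) (hp : p.Prime) (hpA : A.valuation (p : L) = 1)
    (h : F) (hO : h ∈ O) (hred : red ⟨h, hO⟩ = 1)
    (hord : ∀ P : Place L F, (p : ℤ) ∣ P.ord h) :
    ∃ g : F, g ^ p = h := by
  classical
  have hfinL : FiniteDimensional ↥(L⟮x⟯) F := hFF.finiteDimensional
  have hfinL' : FiniteDimensional ↥(L⟮x⁻¹⟯) F := hFF.inv.finiteDimensional
  have hS' := OrthChart.setting_inv hS hxinv
  have hx0 : x ≠ 0 := OrthChart.setting_ne_zero hS
  -- the two charts
  obtain ⟨n, b, hC⟩ := OrthChart.exists_chart hS hscal _ h₀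
  obtain ⟨m, h₀'⟩ := OrthChart.good_inv hS hxinv h₀
  obtain ⟨n', b', hC'⟩ := OrthChart.exists_chart hS' hscal _ h₀'
  -- constants
  have hconst : ∀ y : F, y ∈ IntL L x → y ∈ IntL L x⁻¹ → y ∈ (algebraMap L F).range := by
    intro y hy hy'
    have h1 := (hFF.isIntegral_adjoin_iff y).mp hy
    have h2 := (hFF.isIntegral_adjoin_inv_iff y).mp hy'
    obtain ⟨c, hc⟩ := hFF.const_of_ord_nonneg y (fun P => by
      rcases le_total 0 (P.ord x) with h0 | h0
      · exact h1 P h0
      · exact h2 P h0)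
    exact ⟨c, hc.symm⟩
  -- `h ≡ 1`
  have hh : O.valuation (h - 1) < 1 := by
    have h1 : red (⟨h, hO⟩ - 1) = 0 := by rw [map_sub, hred, map_one, sub_self]
    exact (hker _).1 h1
  have hh0 : h ≠ 0 := by
    rintro rfl
    have h1 : (⟨0, hO⟩ : O) = 0 := rfl
    rw [h1, map_zero] at hred
    exact zero_ne_one hred
  -- the reduction of `x⁻¹`
  have hxtinv : red ⟨x⁻¹, hxinv⟩ = xt⁻¹ := by
    have h1 : (⟨x⁻¹, hxinv⟩ : O) * ⟨x, hS.hx⟩ = 1 := Subtype.ext (inv_mul_cancel₀ hx0)
    have h2 := congrArg red h1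
    rw [map_mul, map_one, hxt] at h2
    exact eq_inv_of_mul_eq_one_left h2
  -- good reduction of the chart `x`
  have hGp := pth_root_closed_of_lift hC hAL red hker
    (R₀ := ↥(Algebra.adjoin k ({xt} : Set E)))
    (fun f hf hmem => by
      obtain ⟨q, rfl⟩ := exists_lift_of_isInt A hf
      rw [red_aeval A O hS.hA π red hredc x hS.hx q hmem, hxt]
      exact ⟨⟨_, Orth.aeval_mem_adjoin (q.map π)⟩, rfl⟩)
    (fun s hs => by
      obtain ⟨y, hy, hyP⟩ := hT3 s ((Holo.isIntegral_adjoin_iff xt s).mp hs)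
      exact ⟨y, (Holo.isIntegral_adjoin_iff x _).mpr hyP, hy⟩) hp.pos
  -- good reduction of the chart `x⁻¹`
  have hGp' := pth_root_closed_of_lift hC' hAL red hker
    (R₀ := ↥(Algebra.adjoin k ({xt⁻¹} : Set E)))
    (fun f hf hmem => by
      obtain ⟨q, rfl⟩ := exists_lift_of_isInt A hf
      rw [red_aeval A O hS.hA π red hredc x⁻¹ hxinv q hmem, hxtinv]
      exact ⟨⟨_, Orth.aeval_mem_adjoin (q.map π)⟩, rfl⟩)
    (fun s hs => by
      obtain ⟨y, hy, hyP⟩ := hT3' s ((Holo.isIntegral_adjoin_inv_iff xt s).mp hs)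
      exact ⟨y, (Holo.isIntegral_adjoin_inv_iff x _).mpr hyP, hy⟩) hp.pos
  -- local structure in characteristic zero
  have hloc : ∀ c : L, c ∈ A → ∃ g : F, g ≠ 0 ∧ ∃ s₃ s₄ : L[X],
      s₃.eval c ≠ 0 ∧ s₄.eval c ≠ 0 ∧
        aeval x s₃ * (h * g ^ p) ∈ IntL L x ∧ aeval x s₄ * (h * g ^ p)⁻¹ ∈ IntL L x := by
    intro c _
    obtain ⟨g, s₃, s₄, hg, h3, h4, hu, hu'⟩ := FFInput.exists_local_index_data hFF hh0 hord c
    exact ⟨g, hg, s₃, s₄, h3, h4, hu, hu'⟩
  have hloc' : ∀ c : L, c ∈ A → ∃ g : F, g ≠ 0 ∧ ∃ s₃ s₄ : L[X],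
      s₃.eval c ≠ 0 ∧ s₄.eval c ≠ 0 ∧
        aeval x⁻¹ s₃ * (h * g ^ p) ∈ IntL L x⁻¹ ∧
        aeval x⁻¹ s₄ * (h * g ^ p)⁻¹ ∈ IntL L x⁻¹ := by
    intro c _
    obtain ⟨g, s₃, s₄, hg, h3, h4, hu, hu'⟩ :=
      FFInput.exists_local_index_data_inv hFF hh0 hord c
    exact ⟨g, hg, s₃, s₄, h3, h4, hu, hu'⟩
  exact exists_pth_root A O x b b' hC hC' hAL hrank p hp hpA hconst h hh hGp hGp' hloc hloc'

end

end Fermat.Agent.Lib.RedK.Abstract
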