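/-
helper86 — RED-K from a good basis over a rational subfield (abstract; no modular field).

`exists_pth_root_of_goodBasis`: let `R₀ = L(u)` be a rational function field with a valuation
ring `Ov` (`Ov ∩ L = A`, residue map `redv : Ov → Ev = k(ū)`, `ū` transcendental), and let
`(F, O, red : O → E)` be a valued field extension of `(R₀, Ov, redv)` with a GOOD BASIS
(`Ortho.GoodBasis O red Ov redv κ`).  Then all the "Gauss" hypotheses of helper95's
`Abstract.exists_pth_root_of_good` (`Orth.Setting`, scaling, kernel, constants, `Orth.Good`,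
`IsFF1`, finiteness of the residue extension) hold for `x = u` in `F`, so that good reduction of
the two charts (`hT3`, `hT3'`) gives: every `h ∈ O` with `red h = 1` all of whose orders are
divisible by the prime `p` (a unit of `A`) is a `p`-th power in `F`.
-/
import Mathlib
import Fermat.Agent.Lib.RedK.Abstract
import Fermat.Agent.Lib.Red.BaseData
import Fermat.Agent.Lib.FF.SettingP

set_option autoImplicit false
set_option linter.unusedSectionVars false
set_option linter.style.haveILetI false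

namespace Fermat.Agent.Lib.RedK.OfGoodBasis

open Polynomial AlgebraicCurve IntermediateField Fermat.Agent.Lib.FF Fermat.Agent.Lib.Red
  Fermat.Agent.Lib.Red.Ortho

open scoped IntermediateField.algebraAdjoinAdjoin

noncomputable section

/-! ### Generic facts on a field generated by one element -/

section Gen

variable {K R F : Type*} [Field K] [Field R] [Field F] [Algebra K R] [Algebra K F] [Algebra R F]
  [IsScalarTower K R F]

/-- If `R = K(u)`, the image of `R` in an extension `F` is `K(u)` (computed in `F`). -/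
theorem mem_adjoin_iff_exists (u : R) (hgen : ∀ z : R, ∃ r s : K[X], z = aeval u r / aeval u s)
    (c : F) : c ∈ K⟮algebraMap R F u⟯ ↔ ∃ c₀ : R, algebraMap R F c₀ = c := by
  constructor
  · intro hc
    obtain ⟨r, s, rfl⟩ := (IntermediateField.mem_adjoin_simple_iff K c).mp hc
    refine ⟨aeval u r / aeval u s, ?_⟩
    rw [map_div₀, ← aeval_algebraMap_apply, ← aeval_algebraMap_apply]
  · rintro ⟨c₀, rfl⟩
    obtain ⟨r, s, rfl⟩ := hgen c₀
    rw [map_div₀, ← aeval_algebraMap_apply, ← aeval_algebraMap_apply]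
    exact (IntermediateField.mem_adjoin_simple_iff K _).mpr ⟨r, s, rfl⟩

/-- If `R = K(u)` and `F` is finite over `R`, then `F` is finite over `K(u) ⊆ F`. -/
theorem finiteDimensional_adjoin (u : R)
    (hgen : ∀ z : R, ∃ r s : K[X], z = aeval u r / aeval u s) [Module.Finite R F] :
    FiniteDimensional ↥(K⟮algebraMap R F u⟯) F := by
  letI : Algebra R ↥(K⟮algebraMap R F u⟯) :=
    ((algebraMap R F).codRestrict (K⟮algebraMap R F u⟯).toSubfield
      (fun c => (mem_adjoin_iff_exists u hgen _).mpr ⟨c, rfl⟩)).toAlgebra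
  haveI : IsScalarTower R ↥(K⟮algebraMap R F u⟯) F := IsScalarTower.of_algebraMap_eq fun _ => rfl
  exact Module.Finite.of_restrictScalars_finite R ↥(K⟮algebraMap R F u⟯) F

end Gen

/-- In a finite extension `F` of `L(x)`, every element becomes integral over `L[x]` after
multiplication by a primitive polynomial in `x`. -/
theorem exists_prim_integral {L F : Type*} [Field L] [Field F] [Algebra L F]
    (A : ValuationSubring L) (x : F) [FiniteDimensional ↥(L⟮x⟯) F] (z : F) :
    ∃ q : Polynomial A, (∃ n, IsUnit (q.coeff n)) ∧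
      IsIntegral ↥(Algebra.adjoin L {x}) (aeval x (q.map A.subtype) * z) := by
  have halg : IsAlgebraic ↥(Algebra.adjoin L {x}) z := by
    have h1 : IsAlgebraic ↥(L⟮x⟯) z := (Algebra.IsAlgebraic.of_finite ↥(L⟮x⟯) F).isAlgebraic _
    exact (IsFractionRing.isAlgebraic_iff ↥(Algebra.adjoin L {x}) ↥(L⟮x⟯) F).mpr h1
  obtain ⟨y, hy0, hy⟩ := halg.exists_integral_multiple
  obtain ⟨p, hp⟩ : ∃ p : Polynomial L, aeval x p = (y : F) := by
    have h3 : (y : F) ∈ (Polynomial.aeval (R := L) x).range := by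
      rw [← Algebra.adjoin_singleton_eq_range_aeval]
      exact y.2
    exact h3
  have hp0 : p ≠ 0 := by
    rintro rfl
    apply hy0
    apply Subtype.ext
    rw [← hp, map_zero]
    rfl
  obtain ⟨a, q, ha, hq, rfl⟩ := Orth.exists_prim A p hp0
  refine ⟨q, hq, ?_⟩
  have h2 : aeval x (q.map A.subtype) * z =
      algebraMap ↥(Algebra.adjoin L {x}) F (algebraMap L ↥(Algebra.adjoin L {x}) a⁻¹) *
        (y • z) := by
    rw [Algebra.smul_def]
    have e1 : algebraMap ↥(Algebra.adjoin L {x}) F y = (y : F) := rfl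
    have e2 : algebraMap ↥(Algebra.adjoin L {x}) F
        (algebraMap L ↥(Algebra.adjoin L {x}) a⁻¹) = algebraMap L F a⁻¹ := rfl
    rw [e1, e2, ← hp, map_mul, aeval_C, ← mul_assoc, ← mul_assoc, ← map_mul,
      inv_mul_cancel₀ ha, map_one, one_mul]
  rw [h2]
  exact IsIntegral.mul isIntegral_algebraMap hy

/-! ### The Gauss setting over the rational field and in the extension -/

variable {L k : Type*} [Field L] [Field k] {A : ValuationSubring L} {π : A →+* k}
variable {R₀ Ev F E : Type*} [Field R₀] [Field Ev] [Field F] [Field E]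
  [Algebra L R₀] [Algebra L F] [Algebra R₀ F] [IsScalarTower L R₀ F]
  [Algebra k Ev] [Algebra k E] [Algebra Ev E] [IsScalarTower k Ev E]
  {Ov : ValuationSubring R₀} {redv : Ov →+* Ev} {O : ValuationSubring F} {red : O →+* E}
  {κ : Type*} [Fintype κ]

omit [Algebra L F] [Algebra R₀ F] [IsScalarTower L R₀ F] in
/-- Polynomials over `A` in an element of `Ov` lie in `Ov`. -/
theorem aeval_map_mem (hA : ∀ a : L, algebraMap L R₀ a ∈ Ov ↔ a ∈ A) (u : Ov)
    (q : Polynomial A) : aeval (u : R₀) (q.map A.subtype) ∈ Ov := by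
  rw [Polynomial.aeval_eq_sum_range]
  refine sum_mem fun i _ => ?_
  rw [Algebra.smul_def, Polynomial.coeff_map]
  exact mul_mem ((hA _).mpr (q.coeff i).2) (pow_mem u.2 i)

/-- A unit of a valuation subring: nonzero with inverse in the ring. -/
theorem ne_zero_and_inv_mem {K : Type*} [Field K] {V : ValuationSubring K} {c : V}
    (hc : IsUnit c) : (c : K) ≠ 0 ∧ (c : K)⁻¹ ∈ V := by
  obtain ⟨w, hw⟩ := hc.exists_right_inv
  have hw' : (c : K) * (w : K) = 1 := congrArg Subtype.val hw
  have hc0 : (c : K) ≠ 0 := by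
    intro h0
    rw [h0, zero_mul] at hw'
    exact zero_ne_one hw'
  refine ⟨hc0, ?_⟩
  rw [← eq_inv_of_mul_eq_one_right hw']
  exact w.2

/-- An element of a valuation subring whose inverse also lies in it has valuation `1`. -/
theorem valuation_eq_one_of_mem {K : Type*} [Field K] {V : ValuationSubring K} {c : K}
    (hc : c ∈ V) (hc' : c⁻¹ ∈ V) (hc0 : c ≠ 0) : V.valuation c = 1 := by
  have h1 : V.valuation c ≤ 1 := (V.valuation_le_one_iff _).mpr hc
  have h2 : V.valuation c⁻¹ ≤ 1 := (V.valuation_le_one_iff _).mpr hc'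
  have h3 : V.valuation c * V.valuation c⁻¹ = 1 := by
    rw [← map_mul, mul_inv_cancel₀ hc0, map_one]
  by_contra hne
  have h4 : V.valuation c * V.valuation c⁻¹ < 1 :=
    mul_lt_one_of_lt_of_le (lt_of_le_of_ne h1 hne) h2
  exact absurd h3 (ne_of_lt h4)

/-- An element of valuation `1` lies in the valuation subring together with its inverse. -/
theorem mem_of_valuation_eq_one {K : Type*} [Field K] {V : ValuationSubring K} {c : K}
    (hc : V.valuation c = 1) : c ∈ V ∧ c⁻¹ ∈ V ∧ c ≠ 0 := by
  have hc0 : c ≠ 0 := by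
    rintro rfl
    rw [map_zero] at hc
    exact zero_ne_one hc
  refine ⟨(V.valuation_le_one_iff _).mp hc.le, (V.valuation_le_one_iff _).mp ?_, hc0⟩
  rw [map_inv₀, hc, inv_one]

omit [Algebra L F] [IsScalarTower L R₀ F] [Algebra k E] [IsScalarTower k Ev E] in
/-- **The Gauss setting of the rational field** `R₀ = L(u)`: from `Ov ∩ L = A`, `redv = π` on
`A`, and the transcendence of `ū`. -/
theorem setting_base (hC : Compat O red Ov redv)
    (hA : ∀ a : L, algebraMap L R₀ a ∈ Ov ↔ a ∈ A)
    (hredA : ∀ (a : A) (h : algebraMap L R₀ (a : L) ∈ Ov), redv ⟨_, h⟩ = algebraMap k Ev (π a))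
    (u : Ov) (hu : Transcendental k (redv u)) : Orth.Setting (u : R₀) A Ov.toSubring where
  hA := hA
  hx := u.2
  prim := by
    rintro q ⟨n, hn⟩
    have hq : q.map π ≠ 0 := by
      intro h0
      have h1 := congrArg (fun r => r.coeff n) h0
      simp only [Polynomial.coeff_map, Polynomial.coeff_zero] at h1
      exact (hn.map π).ne_zero h1
    have hmem := aeval_map_mem hA u q
    have hred : redv ⟨_, hmem⟩ = aeval (redv u) (q.map π) :=
      Abstract.red_aeval A Ov hA π redv (fun a => hredA a _) (u : R₀) u.2 q hmem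
    have hne : redv ⟨_, hmem⟩ ≠ 0 := by
      rw [hred]
      exact fun h0 => hq (transcendental_iff.mp hu _ h0)
    have hunit : IsUnit (⟨_, hmem⟩ : Ov) := by
      by_contra hnu
      exact hne ((hC.ker₀ _).mpr hnu)
    exact ne_zero_and_inv_mem hunit

omit [Algebra k Ev] [Algebra k E] [IsScalarTower k Ev E] in
/-- **The Gauss setting passes to a compatible extension.** -/
theorem setting_ext (hC : Compat O red Ov redv) {x : R₀} (hS : Orth.Setting x A Ov.toSubring) :
    Orth.Setting (algebraMap R₀ F x) A O.toSubring where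
  hA a := by
    rw [IsScalarTower.algebraMap_apply L R₀ F]
    exact (hC.mem_iff _).symm.trans (hS.hA a)
  hx := (hC.mem_iff x).mp hS.hx
  prim := by
    intro q hq
    obtain ⟨h1, h2⟩ := hS.prim q hq
    rw [aeval_algebraMap_apply]
    refine ⟨fun h0 => h1 ((map_eq_zero (algebraMap R₀ F)).mp h0), ?_⟩
    rw [← map_inv₀]
    exact (hC.mem_iff _).mp h2

omit [Algebra L R₀] [Algebra L F] [IsScalarTower L R₀ F] [Algebra k Ev] [Algebra k E]
  [IsScalarTower k Ev E] in
/-- The kernel of the reduction map, in valuation form. -/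
theorem ker_val (hC : Compat O red Ov redv) (y : O) :
    red y = 0 ↔ O.valuation (y : F) < 1 := by
  rw [hC.ker, ← ValuationSubring.valuation_lt_one_iff, IsLocalRing.mem_maximalIdeal]
  rfl

omit [Algebra L F] [Algebra R₀ F] [IsScalarTower L R₀ F] in
/-- **Scaling in the rational field**: every nonzero element of `L(u)` is a constant times an
element of valuation `1`. -/
theorem scaling_base {u : R₀} (hS : Orth.Setting u A Ov.toSubring)
    (hgen : ∀ z : R₀, ∃ r s : L[X], z = aeval u r / aeval u s) (z : R₀) (hz : z ≠ 0) :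
    ∃ a : L, a ≠ 0 ∧ Ov.valuation (algebraMap L R₀ a * z) = 1 := by
  obtain ⟨r, s, rfl⟩ := hgen z
  have hr : aeval u r ≠ 0 := fun h0 => hz (by rw [h0, zero_div])
  have hs : aeval u s ≠ 0 := fun h0 => hz (by rw [h0, div_zero])
  have hr0 : r ≠ 0 := by
    rintro rfl
    exact hr (map_zero _)
  have hs0 : s ≠ 0 := by
    rintro rfl
    exact hs (map_zero _)
  obtain ⟨a, q, ha, hq, rfl⟩ := Orth.exists_prim A r hr0
  obtain ⟨a', q', ha', hq', rfl⟩ := Orth.exists_prim A s hs0
  obtain ⟨h1, h2⟩ := hS.prim q hq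
  obtain ⟨h1', h2'⟩ := hS.prim q' hq'
  have hm : aeval u (q.map A.subtype) ∈ Ov := hS.aeval_map_mem q
  have hm' : aeval u (q'.map A.subtype) ∈ Ov := hS.aeval_map_mem q'
  refine ⟨a' / a, div_ne_zero ha' ha, ?_⟩
  have haF : algebraMap L R₀ a ≠ 0 := (map_ne_zero (algebraMap L R₀)).mpr ha
  have haF' : algebraMap L R₀ a' ≠ 0 := (map_ne_zero (algebraMap L R₀)).mpr ha'
  have e : algebraMap L R₀ (a' / a) *
      (aeval u (C a * q.map A.subtype) / aeval u (C a' * q'.map A.subtype)) =
      aeval u (q.map A.subtype) * (aeval u (q'.map A.subtype))⁻¹ := by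
    rw [map_mul, map_mul, aeval_C, aeval_C, map_div₀]
    field_simp
  rw [e, map_mul]
  rw [valuation_eq_one_of_mem hm h2 h1,
    valuation_eq_one_of_mem h2' (by rw [inv_inv]; exact hm') (inv_ne_zero h1'), one_mul]

omit [Algebra k Ev] [Algebra k E] [IsScalarTower k Ev E] in
/-- **Scaling passes to an extension with a good basis.** -/
theorem scaling_ext (G : GoodBasis O red Ov redv κ)
    (hscal : ∀ z : R₀, z ≠ 0 → ∃ a : L, a ≠ 0 ∧ Ov.valuation (algebraMap L R₀ a * z) = 1)
    (y : F) (hy : y ≠ 0) :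
    ∃ a : L, a ≠ 0 ∧ O.valuation (algebraMap L F a * y) = 1 := by
  obtain ⟨c, hc⟩ := G.span y
  have hc0 : c ≠ 0 := by
    rintro rfl
    apply hy
    rw [hc]
    exact Finset.sum_eq_zero fun i _ => by rw [Pi.zero_apply, map_zero, zero_mul]
  obtain ⟨j, hcj, -, hmem, hne⟩ := G.compat.exists_scale G.b G.ind c hc0
  have hu : IsUnit (⟨_, hmem⟩ : O) := by
    by_contra hnu
    exact hne ((G.compat.ker _).mpr hnu)
  have hv1 : O.valuation (algebraMap R₀ F (c j)⁻¹ * y) = 1 := by
    rw [hc]
    exact (ValuationSubring.valuation_eq_one_iff _ _).mp hu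
  obtain ⟨a, ha, hva⟩ := hscal (c j) hcj
  obtain ⟨m1, m2, m3⟩ := mem_of_valuation_eq_one hva
  have hv2 : O.valuation (algebraMap R₀ F (algebraMap L R₀ a * c j)) = 1 := by
    refine valuation_eq_one_of_mem ((G.compat.mem_iff _).mp m1) ?_
      ((map_ne_zero (algebraMap R₀ F)).mpr m3)
    rw [← map_inv₀]
    exact (G.compat.mem_iff _).mp m2
  refine ⟨a, ha, ?_⟩
  have e : algebraMap L F a * y =
      algebraMap R₀ F (algebraMap L R₀ a * c j) * (algebraMap R₀ F (c j)⁻¹ * y) := by
    rw [IsScalarTower.algebraMap_apply L R₀ F, map_mul, map_inv₀]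
    have : algebraMap R₀ F (c j) ≠ 0 := (map_ne_zero (algebraMap R₀ F)).mpr hcj
    field_simp
  rw [e, map_mul, hv1, hv2, one_mul]

omit [Algebra k Ev] [Algebra k E] [IsScalarTower k Ev E] in
/-- **A good basis over the rational field gives a good family** (`Orth.Good`): rescale the
members by primitive polynomials in `u` to make them integral over `L[u]`. -/
theorem exists_good (G : GoodBasis O red Ov redv κ) {u : R₀}
    (hS : Orth.Setting u A Ov.toSubring)
    (hgen : ∀ z : R₀, ∃ r s : L[X], z = aeval u r / aeval u s) :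
    ∃ b : κ → F, Orth.Good L (algebraMap R₀ F u) O.toSubring b := by
  classical
  haveI : Module.Finite R₀ F := G.finite_F
  haveI hfin : FiniteDimensional ↥(L⟮algebraMap R₀ F u⟯) F := finiteDimensional_adjoin u hgen
  have key : ∀ i, ∃ q : Polynomial A, (∃ n, IsUnit (q.coeff n)) ∧
      IsIntegral ↥(Algebra.adjoin L {algebraMap R₀ F u})
        (aeval (algebraMap R₀ F u) (q.map A.subtype) * ((G.b i : O) : F)) :=
    fun i => exists_prim_integral A (algebraMap R₀ F u) _
  choose q hq hint using key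
  -- the scaling elements of `Ov`
  let d : κ → Ov := fun i => ⟨aeval u ((q i).map A.subtype), hS.aeval_map_mem (q i)⟩
  have hd : ∀ i, redv (d i) ≠ 0 := by
    intro i h0
    obtain ⟨h1, h2⟩ := hS.prim (q i) (hq i)
    have hunit : IsUnit (d i) :=
      IsUnit.of_mul_eq_one (⟨_, h2⟩ : Ov) (Subtype.ext (mul_inv_cancel₀ h1))
    exact (G.compat.ker₀ (d i)).mp h0 hunit
  let G' := OrthoInter.scale G d hd
  have hb : ∀ i, ((G'.b i : O) : F) =
      aeval (algebraMap R₀ F u) ((q i).map A.subtype) * ((G.b i : O) : F) := by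
    intro i
    rw [aeval_algebraMap_apply]
    rfl
  refine ⟨fun i => ((G'.b i : O) : F), fun i => (G'.b i).2, fun i => ?_, ?_, ?_⟩
  · rw [hb]
    exact hint i
  · intro y
    obtain ⟨c, hc⟩ := G'.span y
    exact ⟨fun i => algebraMap R₀ F (c i),
      fun i => (mem_adjoin_iff_exists u hgen _).mpr ⟨c i, rfl⟩, hc⟩
  · intro c hc h i
    choose c₀ hc₀ using fun i => (mem_adjoin_iff_exists u hgen (c i)).mp (hc i)
    have h' : ∑ i, algebraMap R₀ F (c₀ i) * ((G'.b i : O) : F) ∈ O := by
      have e : ∑ i, algebraMap R₀ F (c₀ i) * ((G'.b i : O) : F) =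
          ∑ i, c i * ((G'.b i : O) : F) :=
        Finset.sum_congr rfl fun i _ => by rw [hc₀ i]
      rw [e]
      exact h
    have hcm := G'.compat.coeff_mem G'.b G'.ind c₀ h' i
    rw [← hc₀ i]
    exact (G'.compat.mem_iff _).mp hcm

/-! ### RED-K from a good basis -/

/-- **RED-K for a valued extension of a rational function field with a good basis.**
`R₀ = L(u)` with valuation ring `Ov` and residue map `redv : Ov → Ev = k(ū)`; `(F, O, red)` a
valued extension with a good basis over `(R₀, Ov, redv)`; the two charts of `x = u` have good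
reduction (`hT3`, `hT3'`).  Then every `h ∈ O` with `red h = 1` all of whose orders are
divisible by the prime `p` (a unit of `A`) is a `p`-th power in `F`. -/
theorem exists_pth_root_of_goodBasis [IsAlgClosed L] [CharZero L]
    (hA : ∀ a : L, algebraMap L R₀ a ∈ Ov ↔ a ∈ A)
    (hredA : ∀ (a : A) (h : algebraMap L R₀ (a : L) ∈ Ov), redv ⟨_, h⟩ = algebraMap k Ev (π a))
    (u : Ov) (hu : Transcendental k (redv u))
    (hgenL : ∀ z : R₀, ∃ r s : L[X], z = aeval (u : R₀) r / aeval (u : R₀) s)
    (hgenk : ∀ z : Ev, ∃ r s : k[X], z = aeval (redv u) r / aeval (redv u) s)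
    (G : GoodBasis O red Ov redv κ)
    (hAL : ∃ a : L, a ∉ A)
    (hrank : ∀ c : L, A.valuation c < 1 → ∀ a : L, a ≠ 0 →
      ∃ m : ℕ, A.valuation (c ^ m) ≤ A.valuation a)
    (hT3 : ∀ s : E, (∀ Q : Place k E, 0 ≤ Q.ord (algebraMap Ev E (redv u)) → 0 ≤ Q.ord s) →
        ∃ y : O, red y = s ∧
          ∀ P : Place L F, 0 ≤ P.ord (algebraMap R₀ F (u : R₀)) → 0 ≤ P.ord (y : F))
    (hT3' : ∀ s : E, (∀ Q : Place k E, Q.ord (algebraMap Ev E (redv u)) ≤ 0 → 0 ≤ Q.ord s) →
        ∃ y : O, red y = s ∧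
          ∀ P : Place L F, P.ord (algebraMap R₀ F (u : R₀)) ≤ 0 → 0 ≤ P.ord (y : F))
    (p : ℕ) (hp : p.Prime) (hpA : A.valuation (p : L) = 1)
    (h : F) (hO : h ∈ O) (hred : red ⟨h, hO⟩ = 1)
    (hord : ∀ P : Place L F, (p : ℤ) ∣ P.ord h) :
    ∃ g : F, g ^ p = h := by
  classical
  have hSv : Orth.Setting (u : R₀) A Ov.toSubring := setting_base G.compat hA hredA u hu
  have hS : Orth.Setting (algebraMap R₀ F (u : R₀)) A O.toSubring := setting_ext G.compat hSv
  -- `x⁻¹ ∈ O`
  have hu0 : redv u ≠ 0 := fun h0 => hu (h0 ▸ isAlgebraic_zero)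
  have huu : IsUnit u := by
    by_contra hnu
    exact hu0 ((G.compat.ker₀ u).mpr hnu)
  have hxinv : (algebraMap R₀ F (u : R₀))⁻¹ ∈ O := by
    rw [← map_inv₀]
    exact (G.compat.mem_iff _).mp (ne_zero_and_inv_mem huu).2
  -- scaling, kernel, constants
  have hscal := scaling_ext G (scaling_base hSv hgenL)
  have hker := ker_val G.compat
  have hredc : ∀ a : A, red (Abstract.constHom A O hS.hA a) = algebraMap k E (π a) := by
    intro a
    have hm : algebraMap L R₀ (a : L) ∈ Ov := (hA _).mpr a.2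
    have e : Abstract.constHom A O hS.hA a =
        ⟨algebraMap R₀ F ((⟨_, hm⟩ : Ov) : R₀), G.compat.algebraMap_mem ⟨_, hm⟩⟩ :=
      Subtype.ext (IsScalarTower.algebraMap_apply L R₀ F _)
    rw [e, G.compat.red_algebraMap, hredA a hm, ← IsScalarTower.algebraMap_apply]
  -- the good family
  obtain ⟨b₀, h₀⟩ := exists_good G hSv hgenL
  -- function fields
  haveI : Module.Finite R₀ F := G.finite_F
  haveI : Module.Finite Ev E := G.finite_E
  haveI hfinL : FiniteDimensional ↥(L⟮algebraMap R₀ F (u : R₀)⟯) F :=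
    finiteDimensional_adjoin (u : R₀) hgenL
  haveI hfink : FiniteDimensional ↥(k⟮algebraMap Ev E (redv u)⟯) E :=
    finiteDimensional_adjoin (redv u) hgenk
  have hFF : IsFF1 L F (algebraMap R₀ F (u : R₀)) :=
    isFF1_of_isAlgClosed _ hS.transcendental
  have hxt : red ⟨algebraMap R₀ F (u : R₀), hS.hx⟩ = algebraMap Ev E (redv u) :=
    G.compat.red_comp u _
  exact Abstract.exists_pth_root_of_good A O π red (algebraMap R₀ F (u : R₀)) hS hxinv hscal hker
    hredc b₀ h₀ hFF (algebraMap Ev E (redv u)) hxt hAL hrank hT3 hT3' p hp hpA h hO hred hord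

end

end Fermat.Agent.Lib.RedK.OfGoodBasis
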