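/-
helper86 — RED-K (K18) for a valued field EXTENSION of the trunk field `(L·F_N, Ow, redF)`
(G1-K18: `F₁ = L·F1a(M, a)`, `N = M·a`).

* `exists_pth_root_tower` (abstract): helper95's RED-K for the top field of a three-step tower
  `L(u) = F₀ → F₁ → F₂` with good bases of both steps;
* `exists_pth_root_ext_of_T3` : the modular instance — base function `B : BaseFn.Data A π N`,
  the extension `(F₁, O₁, red₁)` of the trunk enters only through a relative good basis
  `G₁ : Ortho.GoodBasis O₁ red₁ Ow redF ι` and the good reduction of the two charts of `B.x`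
  in `F₁` (place form);
* `exists_pth_root_ext` : the same with the two charts discharged by `DiscTower.lift_x_ext` /
  `lift_inv_ext`, i.e. from the separability of the residue extension and the branch
  hypotheses (BR) for `B.x` and `B.x⁻¹` in `F₁`;
* `k18_ext` : the case `L = ℚ̄`, `A` over a prime `ℓ`, exponent `p ≠ ℓ`.
-/
import Mathlib
import Fermat.Agent.Lib.RedK.OfGoodBasis
import Fermat.Agent.Lib.RedK.Inst
import Fermat.Agent.Lib.Red.DiscTower

set_option autoImplicit false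
set_option linter.style.haveILetI false
set_option linter.unusedSectionVars false

namespace Fermat.Agent.Lib.RedK.ExtX

open Polynomial Module AlgebraicCurve
open Fermat.Agent.Lib.Red.Ortho Fermat.Agent.Lib.Red.OrthoTower

section Abstract

variable {L k : Type*} [Field L] [Field k] {A : ValuationSubring L} {π : A →+* k}
variable {F₀ F₁ F₂ E₀ E₁ E₂ : Type*} [Field F₀] [Field F₁] [Field F₂] [Field E₀] [Field E₁]
  [Field E₂]
  [Algebra F₀ F₁] [Algebra F₁ F₂] [Algebra E₀ E₁] [Algebra E₁ E₂]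
  [Algebra L F₀] [Algebra L F₁] [Algebra L F₂] [IsScalarTower L F₀ F₁] [IsScalarTower L F₁ F₂]
  [Algebra k E₀] [Algebra k E₁] [Algebra k E₂] [IsScalarTower k E₀ E₁] [IsScalarTower k E₁ E₂]
  {O₀ : ValuationSubring F₀} {red₀ : O₀ →+* E₀} {O₁ : ValuationSubring F₁} {red₁ : O₁ →+* E₁}
  {O₂ : ValuationSubring F₂} {red₂ : O₂ →+* E₂}
  {ι₁ ι₂ : Type*} [Fintype ι₁] [Fintype ι₂]

/-- **RED-K in a tower.**  `F₀ = L(u)` is the rational field of the chart, `F₁` the intermediate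
(trunk) field with a good basis over `F₀`, `F₂` the top field with a good basis over `F₁`; the
two charts of `u` in `F₂` have good reduction. -/
theorem exists_pth_root_tower [IsAlgClosed L] [CharZero L]
    (hA : ∀ a : L, algebraMap L F₀ a ∈ O₀ ↔ a ∈ A)
    (hredA : ∀ (a : A) (h : algebraMap L F₀ (a : L) ∈ O₀),
      red₀ ⟨_, h⟩ = algebraMap k E₀ (π a))
    (u : O₀) (hu : Transcendental k (red₀ u))
    (hgenL : ∀ z : F₀, ∃ r s : L[X], z = aeval (u : F₀) r / aeval (u : F₀) s)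
    (hgenk : ∀ z : E₀, ∃ r s : k[X], z = aeval (red₀ u) r / aeval (red₀ u) s)
    (G10 : GoodBasis O₁ red₁ O₀ red₀ ι₁) (G21 : GoodBasis O₂ red₂ O₁ red₁ ι₂)
    (hAL : ∃ a : L, a ∉ A)
    (hrank : ∀ c : L, A.valuation c < 1 → ∀ a : L, a ≠ 0 →
      ∃ m : ℕ, A.valuation (c ^ m) ≤ A.valuation a)
    (hT3 : ∀ s : E₂,
      (∀ Q : Place k E₂, 0 ≤ Q.ord (algebraMap E₁ E₂ (algebraMap E₀ E₁ (red₀ u))) →
        0 ≤ Q.ord s) →
      ∃ y : O₂, red₂ y = s ∧ ∀ P : Place L F₂,
        0 ≤ P.ord (algebraMap F₁ F₂ (algebraMap F₀ F₁ (u : F₀))) → 0 ≤ P.ord (y : F₂))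
    (hT3' : ∀ s : E₂,
      (∀ Q : Place k E₂, Q.ord (algebraMap E₁ E₂ (algebraMap E₀ E₁ (red₀ u))) ≤ 0 →
        0 ≤ Q.ord s) →
      ∃ y : O₂, red₂ y = s ∧ ∀ P : Place L F₂,
        P.ord (algebraMap F₁ F₂ (algebraMap F₀ F₁ (u : F₀))) ≤ 0 → 0 ≤ P.ord (y : F₂))
    (p : ℕ) (hp : p.Prime) (hpA : A.valuation (p : L) = 1)
    (h : F₂) (hO : h ∈ O₂) (hred : red₂ ⟨h, hO⟩ = 1)
    (hord : ∀ P : Place L F₂, (p : ℤ) ∣ P.ord h) :
    ∃ g : F₂, g ^ p = h := by
  letI : Algebra F₀ F₂ := ((algebraMap F₁ F₂).comp (algebraMap F₀ F₁)).toAlgebra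
  letI : Algebra E₀ E₂ := ((algebraMap E₁ E₂).comp (algebraMap E₀ E₁)).toAlgebra
  haveI : IsScalarTower F₀ F₁ F₂ := IsScalarTower.of_algebraMap_eq fun _ => rfl
  haveI : IsScalarTower E₀ E₁ E₂ := IsScalarTower.of_algebraMap_eq fun _ => rfl
  haveI : IsScalarTower L F₀ F₂ := IsScalarTower.of_algebraMap_eq fun a => by
    show algebraMap L F₂ a = algebraMap F₁ F₂ (algebraMap F₀ F₁ (algebraMap L F₀ a))
    rw [← IsScalarTower.algebraMap_apply L F₀ F₁, ← IsScalarTower.algebraMap_apply L F₁ F₂]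
  haveI : IsScalarTower k E₀ E₂ := IsScalarTower.of_algebraMap_eq fun a => by
    show algebraMap k E₂ a = algebraMap E₁ E₂ (algebraMap E₀ E₁ (algebraMap k E₀ a))
    rw [← IsScalarTower.algebraMap_apply k E₀ E₁, ← IsScalarTower.algebraMap_apply k E₁ E₂]
  exact OfGoodBasis.exists_pth_root_of_goodBasis hA hredA u hu hgenL hgenk
    (goodBasisTrans G21 G10) hAL hrank hT3 hT3' p hp hpA h hO hred hord

end Abstract

section Modular

open HahnSeries ModularCurve IntermediateField Fermat.Agent.Lib.Red Fermat.Agent.Lib.Red.Disc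

variable {L : Type*} [Field L] [Algebra ℚ L] {A : ValuationSubring L} {k : Type} [Field k]
  {π : A →+* k} {N : ℕ} [NeZero N]

set_option synthInstance.maxHeartbeats 400000 in
set_option maxHeartbeats 1000000 in
/-- **RED-K for an extension of the trunk field**, good reduction of the two charts of `B.x` in
`F₁` as hypotheses.  `F₁ ⊇ L·F_N` with a valuation ring `O₁` and residue map
`red₁ : O₁ → E₁ ⊇ F̃_N`; the only structural input on `F₁` is a good basis of `(F₁, O₁, red₁)`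
over `(L·F_N, Ow, redF)`. -/
theorem exists_pth_root_ext_of_T3 [IsAlgClosed L] [IsAlgClosed k] (B : BaseFn.Data A π N)
    (hπ : ∀ a : A, ¬ IsUnit a → π a = 0) (hsurj : Function.Surjective π) (hNk : (N : k) ≠ 0)
    (hAL : ∃ a : L, a ∉ A)
    (hrank : ∀ c : L, A.valuation c < 1 → ∀ a : L, a ≠ 0 →
      ∃ m : ℕ, A.valuation (c ^ m) ≤ A.valuation a)
    {F₁ E₁ : Type*} [Field F₁] [Field E₁]
    [Algebra ↥(laurentBaseChange L (modularFunctionFieldFull N)) F₁]
    [Algebra ↥(modularFunctionFieldFullC k N) E₁]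
    [Algebra L F₁] [IsScalarTower L ↥(laurentBaseChange L (modularFunctionFieldFull N)) F₁]
    [Algebra k E₁] [IsScalarTower k ↥(modularFunctionFieldFullC k N) E₁]
    {O₁ : ValuationSubring F₁} {red₁ : O₁ →+* E₁} {ι : Type*} [Fintype ι]
    (G₁ : GoodBasis O₁ red₁ (Ow A π N hNk) (redF A π N hπ hNk) ι)
    (hT3 : ∀ s : E₁,
      (∀ Q : Place k E₁,
        0 ≤ Q.ord (algebraMap ↥(modularFunctionFieldFullC k N) E₁ (B.xt hπ hNk)) → 0 ≤ Q.ord s) →
      ∃ y : O₁, red₁ y = s ∧ ∀ P : Place L F₁,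
        0 ≤ P.ord (algebraMap ↥(laurentBaseChange L (modularFunctionFieldFull N)) F₁ B.x) →
          0 ≤ P.ord (y : F₁))
    (hT3' : ∀ s : E₁,
      (∀ Q : Place k E₁,
        Q.ord (algebraMap ↥(modularFunctionFieldFullC k N) E₁ (B.xt hπ hNk)) ≤ 0 → 0 ≤ Q.ord s) →
      ∃ y : O₁, red₁ y = s ∧ ∀ P : Place L F₁,
        P.ord (algebraMap ↥(laurentBaseChange L (modularFunctionFieldFull N)) F₁ B.x) ≤ 0 →
          0 ≤ P.ord (y : F₁))
    (p : ℕ) (hp : p.Prime) (hpA : A.valuation (p : L) = 1)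
    (h : F₁) (hO : h ∈ O₁) (hred : red₁ ⟨h, hO⟩ = 1)
    (hord : ∀ P : Place L F₁, (p : ℤ) ∣ P.ord h) :
    ∃ g : F₁, g ^ p = h := by
  obtain ⟨n, ⟨G⟩⟩ := B.exists_goodBasis hπ hsurj hNk
  haveI : CharZero L := charZero_of_injective_algebraMap (algebraMap ℚ L).injective
  have hredu := redv_uGen B hπ hNk
  have h1 : Transcendental k (B.redv hπ hNk (uGen B hNk)) := by
    rw [hredu]
    exact transcendental_gen (B.transcendental_xt hπ hNk)
  have h2 : ∀ z : ↥(k⟮B.xt hπ hNk⟯), ∃ r s : k[X], z =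
      aeval (B.redv hπ hNk (uGen B hNk)) r / aeval (B.redv hπ hNk (uGen B hNk)) s := by
    rw [hredu]
    exact exists_aeval_gen_div (B.xt hπ hNk)
  have h3 : ∀ s : E₁,
      (∀ Q : Place k E₁,
        0 ≤ Q.ord (algebraMap ↥(modularFunctionFieldFullC k N) E₁
          (algebraMap ↥(k⟮B.xt hπ hNk⟯) ↥(modularFunctionFieldFullC k N)
            (B.redv hπ hNk (uGen B hNk)))) → 0 ≤ Q.ord s) →
      ∃ y : O₁, red₁ y = s ∧ ∀ P : Place L F₁,
        0 ≤ P.ord (algebraMap ↥(laurentBaseChange L (modularFunctionFieldFull N)) F₁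
          (algebraMap ↥(L⟮B.x⟯) ↥(laurentBaseChange L (modularFunctionFieldFull N))
            ((uGen B hNk : B.Ov hNk) : ↥(L⟮B.x⟯)))) → 0 ≤ P.ord (y : F₁) := by
    rw [hredu]
    exact hT3
  have h3' : ∀ s : E₁,
      (∀ Q : Place k E₁,
        Q.ord (algebraMap ↥(modularFunctionFieldFullC k N) E₁
          (algebraMap ↥(k⟮B.xt hπ hNk⟯) ↥(modularFunctionFieldFullC k N)
            (B.redv hπ hNk (uGen B hNk)))) ≤ 0 → 0 ≤ Q.ord s) →
      ∃ y : O₁, red₁ y = s ∧ ∀ P : Place L F₁,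
        P.ord (algebraMap ↥(laurentBaseChange L (modularFunctionFieldFull N)) F₁
          (algebraMap ↥(L⟮B.x⟯) ↥(laurentBaseChange L (modularFunctionFieldFull N))
            ((uGen B hNk : B.Ov hNk) : ↥(L⟮B.x⟯)))) ≤ 0 → 0 ≤ P.ord (y : F₁) := by
    rw [hredu]
    exact hT3'
  exact exists_pth_root_tower (algebraMap_mem_Ov_iff B hπ hNk) (redv_algebraMap B hπ hNk)
    (uGen B hNk) h1 (exists_aeval_gen_div B.x) h2 G G₁ hAL hrank h3 h3' p hp hpA h hO hred hord

set_option synthInstance.maxHeartbeats 400000 in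
set_option maxHeartbeats 1000000 in
/-- **RED-K for an extension of the trunk field.**  Inputs on `F₁`: a good basis of
`(F₁, O₁, red₁)` over `(L·F_N, Ow, redF)`, separability of the residue extension `E₁ / F̃_N`,
and the branch hypotheses (BR) for the images of `B.x` and `B.x⁻¹` in `F₁`.  Then every
`h ∈ O₁` with `red₁ h = 1` all of whose orders are divisible by the prime `p` (a unit of `A`)
is a `p`-th power in `F₁`. -/
theorem exists_pth_root_ext [IsAlgClosed L] [IsAlgClosed k] (B : BaseFn.Data A π N)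
    (hπ : ∀ a : A, ¬ IsUnit a → π a = 0) (hsurj : Function.Surjective π) (hNk : (N : k) ≠ 0)
    (hAL : ∃ a : L, a ∉ A)
    (hrank : ∀ c : L, A.valuation c < 1 → ∀ a : L, a ≠ 0 →
      ∃ m : ℕ, A.valuation (c ^ m) ≤ A.valuation a)
    {F₁ E₁ : Type*} [Field F₁] [Field E₁]
    [Algebra ↥(laurentBaseChange L (modularFunctionFieldFull N)) F₁]
    [Algebra ↥(modularFunctionFieldFullC k N) E₁]
    [Algebra L F₁] [IsScalarTower L ↥(laurentBaseChange L (modularFunctionFieldFull N)) F₁]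
    [Algebra k E₁] [IsScalarTower k ↥(modularFunctionFieldFullC k N) E₁]
    {O₁ : ValuationSubring F₁} {red₁ : O₁ →+* E₁} {ι : Type*} [Fintype ι] [DecidableEq ι]
    (G₁ : GoodBasis O₁ red₁ (Ow A π N hNk) (redF A π N hπ hNk) ι)
    [Algebra.IsSeparable ↥(modularFunctionFieldFullC k N) E₁]
    (hbr : ∀ γ : k, ∃ c₀ : A, π c₀ = γ ∧ ∀ c : A, π c = γ → c ≠ c₀ →
      ∀ P : Place L F₁,
        0 < P.ord (algebraMap ↥(laurentBaseChange L (modularFunctionFieldFull N)) F₁ B.x -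
          algebraMap L F₁ (c : L)) →
        P.ord (algebraMap ↥(laurentBaseChange L (modularFunctionFieldFull N)) F₁ B.x -
          algebraMap L F₁ (c : L)) = 1)
    (hbr' : ∀ γ : k, ∃ c₀ : A, π c₀ = γ ∧ ∀ c : A, π c = γ → c ≠ c₀ →
      ∀ P : Place L F₁,
        0 < P.ord ((algebraMap ↥(laurentBaseChange L (modularFunctionFieldFull N)) F₁ B.x)⁻¹ -
          algebraMap L F₁ (c : L)) →
        P.ord ((algebraMap ↥(laurentBaseChange L (modularFunctionFieldFull N)) F₁ B.x)⁻¹ -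
          algebraMap L F₁ (c : L)) = 1)
    (p : ℕ) (hp : p.Prime) (hpA : A.valuation (p : L) = 1)
    (h : F₁) (hO : h ∈ O₁) (hred : red₁ ⟨h, hO⟩ = 1)
    (hord : ∀ P : Place L F₁, (p : ℤ) ∣ P.ord h) :
    ∃ g : F₁, g ^ p = h :=
  exists_pth_root_ext_of_T3 B hπ hsurj hNk hAL hrank G₁
    (fun s hs => DiscTower.lift_x_ext B hπ hsurj hNk G₁ hbr s hs)
    (fun s hs => DiscTower.lift_inv_ext B hπ hsurj hNk G₁ hbr' s hs)
    p hp hpA h hO hred hord

/-! ### The case `L = ℚ̄` -/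

section RatBar

local notation "Qbar" => AlgebraicClosure ℚ

set_option synthInstance.maxHeartbeats 400000 in
set_option maxHeartbeats 1000000 in
/-- **(K18) for an extension of the trunk field, prime exponent `p ≠ ℓ`**: `A` a valuation
subring of `ℚ̄` over `ℓ`, `(F₁, O₁, red₁)` a valued extension of `(ℚ̄·F_N, Ow, redF)` with a
relative good basis, separable residue extension and (BR) for both charts of `B.x`. -/
theorem k18_ext (N : ℕ) [NeZero N] {ℓ : ℕ} (hℓ : ℓ.Prime) (A : ValuationSubring Qbar)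
    (hA : A.LiesOverPrime ℓ) {k : Type} [Field k] [IsAlgClosed k] (π : A →+* k)
    (B : BaseFn.Data A π N)
    (hπ : ∀ a : A, ¬ IsUnit a → π a = 0) (hsurj : Function.Surjective π) (hNk : (N : k) ≠ 0)
    {F₁ E₁ : Type*} [Field F₁] [Field E₁]
    [Algebra ↥(laurentBaseChange Qbar (modularFunctionFieldFull N)) F₁]
    [Algebra ↥(modularFunctionFieldFullC k N) E₁]
    [Algebra Qbar F₁] [IsScalarTower Qbar ↥(laurentBaseChange Qbar (modularFunctionFieldFull N)) F₁]
    [Algebra k E₁] [IsScalarTower k ↥(modularFunctionFieldFullC k N) E₁]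
    {O₁ : ValuationSubring F₁} {red₁ : O₁ →+* E₁} {ι : Type*} [Fintype ι] [DecidableEq ι]
    (G₁ : GoodBasis O₁ red₁ (Ow A π N hNk) (redF A π N hπ hNk) ι)
    [Algebra.IsSeparable ↥(modularFunctionFieldFullC k N) E₁]
    (hbr : ∀ γ : k, ∃ c₀ : A, π c₀ = γ ∧ ∀ c : A, π c = γ → c ≠ c₀ →
      ∀ P : Place Qbar F₁,
        0 < P.ord (algebraMap ↥(laurentBaseChange Qbar (modularFunctionFieldFull N)) F₁ B.x -
          algebraMap Qbar F₁ (c : Qbar)) →
        P.ord (algebraMap ↥(laurentBaseChange Qbar (modularFunctionFieldFull N)) F₁ B.x -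
          algebraMap Qbar F₁ (c : Qbar)) = 1)
    (hbr' : ∀ γ : k, ∃ c₀ : A, π c₀ = γ ∧ ∀ c : A, π c = γ → c ≠ c₀ →
      ∀ P : Place Qbar F₁,
        0 < P.ord ((algebraMap ↥(laurentBaseChange Qbar (modularFunctionFieldFull N)) F₁ B.x)⁻¹ -
          algebraMap Qbar F₁ (c : Qbar)) →
        P.ord ((algebraMap ↥(laurentBaseChange Qbar (modularFunctionFieldFull N)) F₁ B.x)⁻¹ -
          algebraMap Qbar F₁ (c : Qbar)) = 1)
    (p : ℕ) (hp : p.Prime) (hpℓ : p ≠ ℓ)
    (h : F₁) (hO : h ∈ O₁) (hord : ∀ P : Place Qbar F₁, (p : ℤ) ∣ P.ord h)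
    (hred : red₁ ⟨h, hO⟩ = 1) :
    ∃ g : F₁, g ^ p = h := by
  have hpA : A.valuation (p : Qbar) = 1 := by
    have h1 := RankOne.valuation_intCast_eq_one A hℓ hA (p : ℤ) (by
      intro hdvd
      have h2 : ℓ ∣ p := Int.natCast_dvd_natCast.mp hdvd
      rcases (Nat.dvd_prime hp).mp h2 with h3 | h3
      · exact hℓ.ne_one h3
      · exact hpℓ h3.symm)
    rwa [Int.cast_natCast] at h1
  exact exists_pth_root_ext B hπ hsurj hNk
    (Inst.exists_notMem_of_liesOver hℓ A hA) (Inst.rank_one hℓ A hA) G₁ hbr hbr'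
    p hp hpA h hO hred hord

end RatBar

end Modular

end Fermat.Agent.Lib.RedK.ExtX
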