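/-
RED-K4 (helper95): good reduction of a chart gives a section of the torsion line bundle with
reduction `1`.

On a chart `t` (data `Chart A O t b₀`), let `h ≡ 1 mod 𝔪_O` be such that `h` is locally (at
every `c ∈ A`) a `p`-th power times a unit of the integral closure, and assume that the
reduction of the chart ring `O ∩ IntL L t` is `p`-th-root closed (good reduction).  Then

* the twisted lattice `{y ∈ O | y ^ p * h ∈ IntL L t}` is a finitely generated `A[t]`-module;
* it contains an element `y ≡ 1 mod 𝔪_O`.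
-/
import Mathlib
import Fermat.Agent.Lib.RedK.SectionSetup

set_option autoImplicit false

namespace Fermat.Agent.Lib.RedK

open Polynomial

noncomputable section

variable {L F : Type*} [Field L] [Field F] [Algebra L F]

theorem twist_sum_mem {t : F} {p : ℕ} (hp : 0 < p) {h : F} {ι : Type*} (S : Finset ι)
    (z : ι → F) (hz : ∀ i ∈ S, z i ^ p * h ∈ IntL L t) :
    (∑ i ∈ S, z i) ^ p * h ∈ IntL L t := by
  classical
  induction S using Finset.induction_on with
  | empty =>
    rw [Finset.sum_empty, zero_pow (by omega), zero_mul]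
    exact (IntL L t).zero_mem
  | insert i S hi ih =>
    rw [Finset.sum_insert hi]
    exact twist_add_mem hp (hz i (Finset.mem_insert_self i S))
      (ih fun j hj => hz j (Finset.mem_insert_of_mem hj))

theorem val_sum_mul_lt {O : ValuationSubring F} {ι : Type*} (S : Finset ι) (a d : ι → F)
    (ha : ∀ i ∈ S, a i ∈ O) (hd : ∀ i ∈ S, O.valuation (d i) < 1) :
    O.valuation (∑ i ∈ S, a i * d i) < 1 := by
  refine Valuation.map_sum_lt _ one_ne_zero fun i hi => ?_
  rw [map_mul]
  calc O.valuation (a i) * O.valuation (d i) ≤ 1 * O.valuation (d i) :=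
        mul_le_mul_left ((O.valuation_le_one_iff _).2 (ha i hi)) _
    _ = O.valuation (d i) := one_mul _
    _ < 1 := hd i hi

theorem exists_section_red_one [IsAlgClosed L] (A : ValuationSubring L) (O : ValuationSubring F)
    (t : F) {n : ℕ} (b₀ : Fin n → F) (hC : Chart A O t b₀) (hAL : ∃ a : L, a ∉ A)
    (p : ℕ) (hp : p.Prime)
    (h : F) (hh : O.valuation (h - 1) < 1)
    (hGp : ∀ z : F, z ∈ O → ∀ w : F, w ∈ O → w ∈ IntL L t → O.valuation (z ^ p - w) < 1 →
      ∃ w' : F, w' ∈ O ∧ w' ∈ IntL L t ∧ O.valuation (z - w') < 1)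
    (hloc : ∀ c : L, c ∈ A → ∃ g : F, g ≠ 0 ∧ ∃ s₃ s₄ : L[X], s₃.eval c ≠ 0 ∧ s₄.eval c ≠ 0 ∧
      aeval t s₃ * (h * g ^ p) ∈ IntL L t ∧ aeval t s₄ * (h * g ^ p)⁻¹ ∈ IntL L t) :
    (∃ β : Fin n → F, (∀ i, β i ∈ O) ∧ (∀ i, β i ^ p * h ∈ IntL L t) ∧
        ∀ y : F, y ∈ O → y ^ p * h ∈ IntL L t → y ∈ spanA A t β) ∧
      ∃ y : F, y ^ p * h ∈ IntL L t ∧ O.valuation (y - 1) < 1 := by
  classical
  have hG := hC.gauss
  have hp0 : 0 < p := hp.pos
  have hh1 : O.valuation h = 1 := val_eq_one_of_sub_lt O hh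
  have hhO : h ∈ O := mem_of_val_eq_one O hh1
  have hh0 : h ≠ 0 := by
    intro h0
    rw [h0, map_zero] at hh1
    exact zero_ne_one hh1
  obtain ⟨b, hbON, hbgen, hb⟩ := exists_basis_IntL hC hAL
  obtain ⟨β, hβON, hβgen, hβ⟩ := exists_basis_twist hC hAL hp0 hh0
  have hbI : ∀ i, b i ∈ IntL L t := fun i =>
    (hb _).2 ⟨Pi.single i 1, by rw [sum_single_mul, map_one, one_mul]⟩
  have hβM : ∀ i, β i ^ p * h ∈ IntL L t := fun i =>
    (hβ _).2 ⟨Pi.single i 1, by rw [sum_single_mul, map_one, one_mul]⟩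
  refine ⟨⟨β, hβON.mem, hβM, fun y hyO hy => hβON.mem_spanA ((hβ y).1 hy) hyO⟩, ?_⟩
  -- `n > 0`
  have hn : 0 < n := by
    by_contra h0
    have hn0 : n = 0 := by omega
    subst hn0
    obtain ⟨s, hs0, f, hf⟩ := hC.gen 1
    rw [mul_one, Finset.univ_eq_empty, Finset.sum_empty] at hf
    exact hG.aeval_ne_zero hs0 hf
  set i₀ : Fin n := ⟨0, hn⟩ with hi₀
  set y₀ : F := β i₀ with hy₀
  have hy₀1 : O.valuation y₀ = 1 := hβON.val_eq_one hG hAL i₀
  have hy₀0 : y₀ ≠ 0 := hβON.ne_zero hAL i₀
  have hy₀O : y₀ ∈ O := hβON.mem i₀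
  have hu₀ : y₀ ^ p * h ∈ IntL L t := hβM i₀
  have hu₀1 : O.valuation (y₀ ^ p * h) = 1 := by
    rw [map_mul, map_pow, hy₀1, hh1, one_pow, one_mul]
  have hu₀O : y₀ ^ p * h ∈ O := mem_of_val_eq_one O hu₀1
  -- the matrices
  have hPex : ∀ i, ∃ f : Fin n → Polynomial A, y₀ * b i = ∑ j, evA A t (f j) * β j := by
    intro i
    have h1 : (y₀ * b i) ^ p * h ∈ IntL L t := by
      rw [mul_comm y₀]
      exact twist_mul_mem (hbI i) hu₀
    have h2 : y₀ * b i ∈ O := O.mul_mem _ _ hy₀O (hbON.mem i)
    exact exists_coeffs_of_mem_spanA (hβON.mem_spanA ((hβ _).1 h1) h2)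
  choose Pf hPf using hPex
  have hRex : ∀ i, ∃ f : Fin n → Polynomial A,
      y₀ ^ p * h * b i = ∑ j, evA A t (f j) * b j := by
    intro i
    have h1 : y₀ ^ p * h * b i ∈ IntL L t := (IntL L t).mul_mem hu₀ (hbI i)
    have h2 : y₀ ^ p * h * b i ∈ O := O.mul_mem _ _ hu₀O (hbON.mem i)
    exact exists_coeffs_of_mem_spanA (hbON.mem_spanA ((hb _).1 h1) h2)
  choose Rf hRf using hRex
  have hQex : ∀ i, ∃ f : Fin n → Polynomial A,
      O.valuation (β i - ∑ j, evA A t (f j) * b j) < 1 := by
    intro i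
    have hz : β i ∈ O := hβON.mem i
    have hw : β i ^ p * h ∈ O := O.mul_mem _ _ (O.pow_mem hz p) hhO
    have hv : O.valuation (β i ^ p - β i ^ p * h) < 1 := by
      have e : β i ^ p - β i ^ p * h = -(β i ^ p * (h - 1)) := by ring
      rw [e, Valuation.map_neg, map_mul]
      calc O.valuation (β i ^ p) * O.valuation (h - 1) ≤ 1 * O.valuation (h - 1) :=
            mul_le_mul_left ((O.valuation_le_one_iff _).2 (O.pow_mem hz p)) _
        _ = O.valuation (h - 1) := one_mul _
        _ < 1 := hh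
    obtain ⟨w', hw'O, hw'I, hw'⟩ := hGp (β i) hz (β i ^ p * h) hw (hβM i) hv
    obtain ⟨f, hf⟩ := exists_coeffs_of_mem_spanA (hbON.mem_spanA ((hb _).1 hw'I) hw'O)
    exact ⟨f, by rw [← hf]; exact hw'⟩
  choose Qf hQf using hQex
  set P₀ : Matrix (Fin n) (Fin n) (Polynomial A) := Matrix.of Pf with hP₀
  set R₀ : Matrix (Fin n) (Fin n) (Polynomial A) := Matrix.of Rf with hR₀
  set Q₀ : Matrix (Fin n) (Fin n) (Polynomial A) := Matrix.of Qf with hQ₀
  have hPv : y₀ • b = act A t P₀ β := funext fun i => by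
    rw [Pi.smul_apply, smul_eq_mul, act_apply]
    exact hPf i
  have hRv : (y₀ ^ p * h) • b = act A t R₀ b := funext fun i => by
    rw [Pi.smul_apply, smul_eq_mul, act_apply]
    exact hRf i
  have hQv : VCong O β (act A t Q₀ b) := fun i => by
    rw [act_apply]
    exact hQf i
  -- congruences
  set M : Matrix (Fin n) (Fin n) (Polynomial A) := P₀ * Q₀ with hM
  have hc1 : VCong O (y₀ • b) (act A t M b) := by
    rw [hPv, hM, act_mul]
    exact VCong.act hG P₀ hQv
  have hck : ∀ k : ℕ, VCong O (y₀ ^ k • b) (act A t (M ^ k) b) := by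
    intro k
    induction k with
    | zero =>
      rw [pow_zero, one_smul, pow_zero, act_one]
      exact VCong.refl _
    | succ k ih =>
      have e1 : y₀ ^ (k + 1) • b = y₀ • (y₀ ^ k • b) := by rw [smul_smul, ← pow_succ']
      have s1 : VCong O (y₀ • (y₀ ^ k • b)) (y₀ • act A t (M ^ k) b) := ih.smul hy₀O
      have s2 : VCong O (y₀ • act A t (M ^ k) b) (act A t (M ^ k) (act A t M b)) := by
        rw [← act_smul]
        exact VCong.act hG _ hc1
      rw [e1, pow_succ, act_mul]
      exact s1.trans s2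
  have hc3 : VCong O (act A t R₀ b) (act A t (M ^ p) b) := by
    rw [← hRv]
    refine VCong.trans ?_ (hck p)
    intro i
    have e : ((y₀ ^ p * h) • b) i - (y₀ ^ p • b) i = y₀ ^ p * b i * (h - 1) := by
      simp only [Pi.smul_apply, smul_eq_mul]
      ring
    rw [e, map_mul]
    calc O.valuation (y₀ ^ p * b i) * O.valuation (h - 1) ≤ 1 * O.valuation (h - 1) :=
          mul_le_mul_left ((O.valuation_le_one_iff _).2
            (O.mul_mem _ _ (O.pow_mem hy₀O p) (hbON.mem i))) _
      _ = O.valuation (h - 1) := one_mul _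
      _ < 1 := hh
  have hred : (resP A).mapMatrix R₀ = ((resP A).mapMatrix M) ^ p := by
    have h0 : (R₀ - M ^ p).map (resP A) = 0 :=
      mapMatrix_resP_eq_zero hG hAL hbON _ (fun i => by
        rw [act_sub]
        exact hc3 i)
    have h1 : (resP A).mapMatrix (R₀ - M ^ p) = 0 := h0
    rw [map_sub, map_pow, sub_eq_zero] at h1
    exact h1
  have hdet : (resP A) R₀.det = ((resP A) P₀.det) ^ p * ((resP A) Q₀.det) ^ p := by
    rw [RingHom.map_det, RingHom.map_det, RingHom.map_det, hred, Matrix.det_pow, hM, map_mul,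
      Matrix.det_mul, mul_pow]
  -- nonvanishing of the reduced determinant of `R₀`
  have hRne : (resP A) R₀.det ≠ 0 := by
    intro h0
    rw [RingHom.map_det] at h0
    obtain ⟨v, hv0, hv⟩ := Matrix.exists_vecMul_eq_zero_iff.2 h0
    have hsurj : Function.Surjective (resP A) :=
      Polynomial.map_surjective _ IsLocalRing.residue_surjective
    choose w hw using fun i => hsurj (v i)
    have hz : ∀ j, resP A (Matrix.vecMul w R₀ j) = 0 := by
      intro j
      have h1 := congrFun hv j
      rw [Pi.zero_apply] at h1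
      rw [← h1]
      simp only [Matrix.vecMul, dotProduct, map_sum, map_mul, hw, RingHom.mapMatrix_apply,
        Matrix.map_apply]
    have e : ∑ j, evA A t (Matrix.vecMul w R₀ j) * b j =
        (y₀ ^ p * h) * ∑ i, evA A t (w i) * b i := by
      simp only [Matrix.vecMul, dotProduct, map_sum, map_mul, Finset.sum_mul, Finset.mul_sum]
      rw [Finset.sum_comm]
      refine Finset.sum_congr rfl fun i _ => ?_
      have h2 := hRf i
      have e2 : ∑ j, evA A t (w i) * evA A t (R₀ i j) * b j =
          evA A t (w i) * ∑ j, evA A t (Rf i j) * b j := by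
        rw [Finset.mul_sum]
        refine Finset.sum_congr rfl fun j _ => ?_
        rw [hR₀, Matrix.of_apply, mul_assoc]
      rw [e2, ← h2]
      ring
    have hlt : O.valuation (∑ j, evA A t (Matrix.vecMul w R₀ j) * b j) < 1 := by
      refine Valuation.map_sum_lt _ one_ne_zero fun j _ => ?_
      rw [map_mul]
      calc O.valuation (evA A t (Matrix.vecMul w R₀ j)) * O.valuation (b j)
          ≤ O.valuation (evA A t (Matrix.vecMul w R₀ j)) * 1 :=
            mul_le_mul_right ((O.valuation_le_one_iff _).2 (hbON.mem j)) _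
        _ = O.valuation (evA A t (Matrix.vecMul w R₀ j)) := mul_one _
        _ < 1 := evA_val_lt hG (hz j)
    rw [e, map_mul, hu₀1, one_mul] at hlt
    have h3 := hbON.resP_eq_zero hG hAL w hlt
    apply hv0
    funext i
    rw [← hw i, h3 i]
    rfl
  have hPne : (resP A) P₀.det ≠ 0 := fun h0 =>
    hRne (by rw [hdet, h0, zero_pow hp.ne_zero, zero_mul])
  have hQne : (resP A) Q₀.det ≠ 0 := fun h0 =>
    hRne (by rw [hdet, h0, zero_pow hp.ne_zero, mul_zero])
  -- counting roots
  have hcount : ((resP A) R₀.det).natDegree = p * ((resP A) P₀.det).natDegree := by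
    refine natDegree_map_residue_eq_mul A R₀.det P₀.det hRne hPne p (fun c hc => ?_)
    obtain ⟨g, hg0, s₃, s₄, hs₃, hs₄, hu, hu'⟩ := hloc c hc
    have h1 := local_index t p hp0 b β (hbON.isIndep hAL) (hβON.isIndep hAL) hb h hh0 hβ y₀ hy₀0
      ((Polynomial.mapRingHom A.subtype).mapMatrix P₀)
      ((Polynomial.mapRingHom A.subtype).mapMatrix R₀)
      (fun i => hPf i) (fun i => hRf i) c g hg0 s₃ s₄ hs₃ hs₄ hu hu'
    rw [← RingHom.map_det, ← RingHom.map_det] at h1
    exact h1
  have hQdeg : ((resP A) Q₀.det).natDegree = 0 := by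
    have h1 : ((resP A) R₀.det).natDegree =
        p * ((resP A) P₀.det).natDegree + p * ((resP A) Q₀.det).natDegree := by
      rw [hdet, natDegree_mul (pow_ne_zero _ hPne) (pow_ne_zero _ hQne), natDegree_pow,
        natDegree_pow]
    have h2 : p * ((resP A) Q₀.det).natDegree = 0 := by omega
    exact (Nat.mul_eq_zero.1 h2).resolve_left hp.ne_zero
  obtain ⟨q, hq⟩ : ∃ q : A, (resP A) Q₀.det = C (IsLocalRing.residue A q) := by
    obtain ⟨q, hq⟩ := IsLocalRing.residue_surjective (((resP A) Q₀.det).coeff 0)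
    exact ⟨q, by rw [hq]; exact eq_C_of_natDegree_eq_zero hQdeg⟩
  have hqne : IsLocalRing.residue A q ≠ 0 := fun h0 => hQne (by rw [hq, h0, C_0])
  have hqu : IsUnit q := by
    by_contra hnu
    exact hqne ((IsLocalRing.residue_eq_zero_iff q).2 ((IsLocalRing.mem_maximalIdeal q).2 hnu))
  have hq1 : A.valuation (q : L) = 1 := (A.valuation_eq_one_iff q).1 hqu
  have hq0 : (q : L) ≠ 0 := by
    intro h0
    rw [h0, map_zero] at hq1
    exact zero_ne_one hq1
  have hqinvO : algebraMap L F ((q : L)⁻¹) ∈ O := by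
    refine (hG.const_mem _).2 ((A.valuation_le_one_iff _).1 ?_)
    rw [map_inv₀, hq1, inv_one]
  obtain ⟨e, he⟩ := exists_coeffs_of_mem_spanA
    (hbON.mem_spanA ((hb 1).1 (IntL L t).one_mem) O.one_mem)
  -- the adjugate congruence
  have hadj : VCong O (act A t Q₀.adjugate β) (algebraMap L F (q : L) • b) := by
    have s1 : VCong O (act A t Q₀.adjugate β) (act A t Q₀.adjugate (act A t Q₀ b)) :=
      VCong.act hG Q₀.adjugate hQv
    rw [← act_mul, Matrix.adjugate_mul] at s1
    refine s1.trans ?_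
    intro i
    have e1 : act A t (Q₀.det • (1 : Matrix (Fin n) (Fin n) (Polynomial A))) b i =
        evA A t Q₀.det * b i := by
      rw [act_apply, Finset.sum_eq_single i]
      · rw [Matrix.smul_apply, Matrix.one_apply_eq, smul_eq_mul, mul_one]
      · intro j _ hj
        rw [Matrix.smul_apply, Matrix.one_apply_ne (Ne.symm hj), smul_zero, map_zero, zero_mul]
      · intro hi
        exact absurd (Finset.mem_univ i) hi
    have e2 : evA A t Q₀.det * b i - (algebraMap L F (q : L) • b) i =
        evA A t (Q₀.det - C q) * b i := by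
      rw [Pi.smul_apply, smul_eq_mul, map_sub, evA_C, sub_mul]
    rw [e1, e2, map_mul]
    have h5 : resP A (Q₀.det - C q) = 0 := by
      rw [map_sub, hq, sub_eq_zero]
      simp [resP]
    calc O.valuation (evA A t (Q₀.det - C q)) * O.valuation (b i)
        ≤ O.valuation (evA A t (Q₀.det - C q)) * 1 :=
          mul_le_mul_right ((O.valuation_le_one_iff _).2 (hbON.mem i)) _
      _ = O.valuation (evA A t (Q₀.det - C q)) := mul_one _
      _ < 1 := evA_val_lt hG h5
  -- the section
  refine ⟨algebraMap L F ((q : L)⁻¹) * ∑ l, evA A t (e l) * act A t Q₀.adjugate β l, ?_, ?_⟩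
  · have h6 : ∀ l, (act A t Q₀.adjugate β l) ^ p * h ∈ IntL L t := by
      intro l
      rw [act_apply]
      exact twist_sum_mem hp0 _ _ fun i _ => by
        rw [evA_apply]
        exact twist_smul_mem _ (hβM i)
    have h7 : (∑ l, evA A t (e l) * act A t Q₀.adjugate β l) ^ p * h ∈ IntL L t :=
      twist_sum_mem hp0 _ _ fun l _ => by
        rw [evA_apply]
        exact twist_smul_mem _ (h6 l)
    have h8 := twist_smul_mem (t := t) (C ((q : L)⁻¹)) h7
    rwa [aeval_C] at h8
  · have e3 : algebraMap L F ((q : L)⁻¹) * ∑ l, evA A t (e l) * act A t Q₀.adjugate β l - 1 =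
        algebraMap L F ((q : L)⁻¹) *
          ∑ l, evA A t (e l) * (act A t Q₀.adjugate β l - (algebraMap L F (q : L) • b) l) := by
      have e4 : ∑ l, evA A t (e l) * (act A t Q₀.adjugate β l - (algebraMap L F (q : L) • b) l) =
          ∑ l, evA A t (e l) * act A t Q₀.adjugate β l - algebraMap L F (q : L) * 1 := by
        rw [he, Finset.mul_sum, ← Finset.sum_sub_distrib]
        refine Finset.sum_congr rfl fun l _ => ?_
        rw [Pi.smul_apply, smul_eq_mul]
        ring
      rw [e4, mul_sub, mul_one, ← map_mul, inv_mul_cancel₀ hq0, map_one]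
    rw [e3, map_mul]
    have h9 : O.valuation (∑ l, evA A t (e l) *
        (act A t Q₀.adjugate β l - (algebraMap L F (q : L) • b) l)) < 1 :=
      val_sum_mul_lt _ _ _ (fun l _ => evA_mem hG (e l)) (fun l _ => hadj l)
    calc O.valuation (algebraMap L F ((q : L)⁻¹)) * O.valuation (∑ l, evA A t (e l) *
          (act A t Q₀.adjugate β l - (algebraMap L F (q : L) • b) l))
        ≤ 1 * O.valuation (∑ l, evA A t (e l) *
          (act A t Q₀.adjugate β l - (algebraMap L F (q : L) • b) l)) :=
          mul_le_mul_left ((O.valuation_le_one_iff _).2 hqinvO) _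
      _ = _ := one_mul _
      _ < 1 := h9

end

end Fermat.Agent.Lib.RedK
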